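/-
Programme FFJ (S19), chapter ORDER / ADM (claim #1531).  helper75.  Mathlib only.

**Conjugacy of the extensions of a valuation in a Galois extension** (`exists_algEquiv_forall_mem_iff`):
two valuation subrings `V`, `V'` of a Galois extension `Ω / F` (possibly infinite) with the same
restriction to `F` are conjugate under `Gal(Ω/F)`.

Proof.  Let `W = V ∩ F` and `B` the integral closure of `W` in `Ω`; `Gal(Ω/F)` is profinite, acts
continuously on the discrete ring `B` with invariants `W`, hence transitively on the primes of `B` over a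
given prime of `W` (Mathlib: `Algebra.IsInvariant.exists_smul_of_under_eq_of_profinite`).  So some `g`
maps the centre of `V` on `B` to the centre of `V'`.  Finally a valuation subring containing `W` is
determined by its centre on `B` (`le_of_center`): every `x ∈ V` is a quotient `(s x) / s` of two elements
of `B` with `s` a unit of `V`, where `s` is a Horner tail of a relation `∑ a_i x ^ i = 0` with coefficients
in `W`, one of them a unit (`isIntegral_hornerTail`: Horner tails of a relation are integral).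

Corollary for a discrete valuation ring `O` with fraction field `F`: all valuation subrings `≠ ⊤` of `Ω`
containing `O` are conjugate (`exists_algEquiv_of_dvr`).
-/
import Mathlib

set_option autoImplicit false
set_option linter.style.haveILetI false

namespace Fermat.Agent.FFJ.Order.ValConj75

open Finset
open scoped Pointwise

/-! ### Horner tails of an algebraic relation are integral -/

section Horner

variable {R Ω : Type*} [CommRing R] [Field Ω] [Algebra R Ω]

/-- The `R`-span of `1, x, …, x ^ (n - 1)`. -/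
def powSpan (R : Type*) {Ω : Type*} [CommRing R] [Field Ω] [Algebra R Ω] (x : Ω) (n : ℕ) :
    Submodule R Ω :=
  Submodule.span R (Set.range fun i : Fin n => x ^ (i : ℕ))

theorem pow_mem_powSpan (x : Ω) {n e : ℕ} (he : e < n) : x ^ e ∈ powSpan R x n :=
  Submodule.subset_span ⟨⟨e, he⟩, rfl⟩

theorem powSpan_fg (x : Ω) (n : ℕ) : (powSpan R x n).FG :=
  Submodule.fg_span (Set.finite_range _)

/-- The Horner tail `a_r + a_{r+1} x + ⋯ + a_n x ^ (n - r)` of a relation `∑ a_i x ^ i = 0`. -/
def hornerTail (x : Ω) (a : ℕ → R) (n r : ℕ) : Ω :=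
  ∑ i ∈ Ico r (n + 1), a i • x ^ (i - r)

theorem hornerTail_mul_pow (x : Ω) (a : ℕ → R) (n r : ℕ) :
    hornerTail x a n r * x ^ r = ∑ i ∈ Ico r (n + 1), a i • x ^ i := by
  unfold hornerTail
  rw [Finset.sum_mul]
  refine Finset.sum_congr rfl fun i hi => ?_
  rw [smul_mul_assoc, ← pow_add, Nat.sub_add_cancel (Finset.mem_Ico.mp hi).1]

theorem hornerTail_mul_pow_of_relation (x : Ω) (a : ℕ → R) (n r : ℕ) (hr : r ≤ n)
    (hsum : ∑ i ∈ range (n + 1), a i • x ^ i = 0) :
    hornerTail x a n r * x ^ r = -∑ i ∈ range r, a i • x ^ i := by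
  have h := Finset.sum_range_add_sum_Ico (fun i => a i • x ^ i) (show r ≤ n + 1 by omega)
  rw [hsum] at h
  rw [hornerTail_mul_pow, eq_neg_iff_add_eq_zero, add_comm]
  exact h

/-- The Horner tail maps `span (1, …, x ^ (n-1))` into itself, and so does its product with `x`. -/
theorem hornerTail_mul_pow_mem (x : Ω) (a : ℕ → R) (n r : ℕ) (hr : r ≤ n)
    (hsum : ∑ i ∈ range (n + 1), a i • x ^ i = 0) (j : ℕ) (hj : j ≤ n) :
    hornerTail x a n r * x ^ j ∈ powSpan R x n := by
  by_cases hjr : j < r
  · unfold hornerTail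
    rw [Finset.sum_mul]
    refine Submodule.sum_mem _ fun i hi => ?_
    rw [smul_mul_assoc, ← pow_add]
    refine Submodule.smul_mem _ _ (pow_mem_powSpan x ?_)
    have := (Finset.mem_Ico.mp hi)
    omega
  · push Not at hjr
    have h1 : hornerTail x a n r * x ^ j = hornerTail x a n r * x ^ r * x ^ (j - r) := by
      rw [mul_assoc, ← pow_add, Nat.add_sub_cancel' hjr]
    rw [h1, hornerTail_mul_pow_of_relation x a n r hr hsum, neg_mul, Finset.sum_mul]
    refine Submodule.neg_mem _ (Submodule.sum_mem _ fun i hi => ?_)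
    rw [smul_mul_assoc, ← pow_add]
    refine Submodule.smul_mem _ _ (pow_mem_powSpan x ?_)
    have := Finset.mem_range.mp hi
    omega

theorem isIntegral_of_mul_powSpan_le (x y : Ω) {n : ℕ} (hn : 0 < n)
    (hy : ∀ j < n, y * x ^ j ∈ powSpan R x n) : IsIntegral R y := by
  refine isIntegral_of_smul_mem_submodule (powSpan R x n) ?_ (powSpan_fg x n) y ?_
  · intro h
    have h1 : x ^ 0 ∈ powSpan R x n := pow_mem_powSpan x hn
    rw [h, Submodule.mem_bot, pow_zero] at h1
    exact one_ne_zero h1
  · intro m hm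
    induction hm using Submodule.span_induction with
    | mem z hz =>
      obtain ⟨i, rfl⟩ := hz
      exact hy i i.2
    | zero => rw [smul_zero]; exact Submodule.zero_mem _
    | add u v _ _ hu hv => rw [smul_add]; exact Submodule.add_mem _ hu hv
    | smul c u _ hu => rw [smul_comm]; exact Submodule.smul_mem _ _ hu

/-- **Horner elements are integral.** -/
theorem isIntegral_hornerTail (x : Ω) (a : ℕ → R) (n r : ℕ) (hn : 0 < n) (hr : r ≤ n)
    (hsum : ∑ i ∈ range (n + 1), a i • x ^ i = 0) : IsIntegral R (hornerTail x a n r) :=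
  isIntegral_of_mul_powSpan_le x _ hn fun j hj =>
    hornerTail_mul_pow_mem x a n r hr hsum j hj.le

theorem isIntegral_hornerTail_mul (x : Ω) (a : ℕ → R) (n r : ℕ) (hn : 0 < n) (hr : r ≤ n)
    (hsum : ∑ i ∈ range (n + 1), a i • x ^ i = 0) : IsIntegral R (hornerTail x a n r * x) :=
  isIntegral_of_mul_powSpan_le x _ hn fun j hj => by
    rw [mul_assoc, ← pow_succ']
    exact hornerTail_mul_pow_mem x a n r hr hsum (j + 1) hj

/-- If `a_r` is a unit of `V`, the higher coefficients are non-units and `x ∈ V`, the Horner tail is a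
unit of `V`. -/
theorem valuation_hornerTail_eq_one (V : ValuationSubring Ω) (x : Ω) (hx : x ∈ V) (a : ℕ → R)
    (n r : ℕ) (hr : r ≤ n) (har : V.valuation (algebraMap R Ω (a r)) = 1)
    (ha : ∀ i, r < i → i ≤ n → V.valuation (algebraMap R Ω (a i)) < 1) :
    V.valuation (hornerTail x a n r) = 1 := by
  unfold hornerTail
  rw [Finset.sum_eq_sum_Ico_succ_bot (by omega : r < n + 1), Nat.sub_self, pow_zero,
    Algebra.smul_def, mul_one]
  have hx1 : V.valuation x ≤ 1 := (ValuationSubring.valuation_le_one_iff V x).mpr hx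
  have hrest : V.valuation (∑ i ∈ Ico (r + 1) (n + 1), a i • x ^ (i - r)) < 1 := by
    refine Valuation.map_sum_lt _ one_ne_zero fun i hi => ?_
    have hi' := Finset.mem_Ico.mp hi
    rw [Algebra.smul_def, map_mul, map_pow]
    calc V.valuation (algebraMap R Ω (a i)) * V.valuation x ^ (i - r)
        ≤ V.valuation (algebraMap R Ω (a i)) * 1 := by
          gcongr
          exact pow_le_one' hx1 _
      _ = V.valuation (algebraMap R Ω (a i)) := mul_one _
      _ < 1 := ha i (by omega) (by omega)
  rw [Valuation.map_add_eq_of_lt_left _ (by rw [har]; exact hrest), har]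


/-- A valuation subring containing the image of `R` contains every element integral over `R`. -/
theorem mem_valuationSubring_of_isIntegral (V : ValuationSubring Ω)
    (hRV : ∀ a : R, algebraMap R Ω a ∈ V) {b : Ω} (hb : IsIntegral R b) : b ∈ V := by
  obtain ⟨p, hp, hpb⟩ := hb
  let φ : R →+* V.toLocalSubring.toSubring := (algebraMap R Ω).codRestrict _ hRV
  have hcomp : (algebraMap V.toLocalSubring.toSubring Ω).comp φ = algebraMap R Ω := rfl
  have hint : IsIntegral V.toLocalSubring.toSubring b := by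
    refine ⟨p.map φ, hp.map φ, ?_⟩
    rw [Polynomial.eval₂_map, hcomp]
    exact hpb
  exact LocalSubring.mem_of_isMax_of_isIntegral (ValuationSubring.isMax_toLocalSubring V) hint


end Horner

/-! ### The centre on the integral closure determines the valuation subring -/

section Relation

variable {F Ω : Type*} [Field F] [Field Ω] [Algebra F Ω]
  (W : ValuationSubring F) [Algebra W Ω] [IsScalarTower W F Ω]

/-- An algebraic element satisfies a relation with coefficients in the valuation ring `W` of the base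
field, one of which is `1`. -/
theorem exists_relation (x : Ω) (hx : IsAlgebraic F x) :
    ∃ (a : ℕ → W) (n : ℕ), 0 < n ∧ ∑ i ∈ range (n + 1), a i • x ^ i = 0 ∧ ∃ i ≤ n, a i = 1 := by
  obtain ⟨q, hq0, hqx⟩ := hx
  have hn : 0 < q.natDegree :=
    Polynomial.natDegree_pos_of_aeval_root hq0 hqx fun c hc =>
      (algebraMap F Ω).injective (hc.trans (map_zero _).symm)
  have hsupp : q.support.Nonempty := Polynomial.support_nonempty.mpr hq0
  obtain ⟨i₀, hi₀, hmax⟩ := Finset.exists_max_image q.support
    (fun i => W.valuation (q.coeff i)) hsupp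
  set c := q.coeff i₀ with hc
  have hc0 : c ≠ 0 := Polynomial.mem_support_iff.mp hi₀
  have hvc : W.valuation c ≠ 0 := (Valuation.ne_zero_iff _).mpr hc0
  have hmem : ∀ i, c⁻¹ * q.coeff i ∈ W := fun i => by
    rw [← ValuationSubring.valuation_le_one_iff, map_mul, map_inv₀]
    by_cases hi : i ∈ q.support
    · exact (inv_mul_le_iff₀ (zero_lt_iff.mpr hvc)).mpr (by simpa using hmax i hi)
    · rw [Polynomial.notMem_support_iff.mp hi, map_zero, mul_zero]
      exact zero_le_one
  refine ⟨fun i => ⟨c⁻¹ * q.coeff i, hmem i⟩, q.natDegree, hn, ?_, i₀,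
    Polynomial.le_natDegree_of_mem_supp _ hi₀, ?_⟩
  · have h1 : ∀ i, (⟨c⁻¹ * q.coeff i, hmem i⟩ : W) • x ^ i = c⁻¹ • (q.coeff i • x ^ i) := fun i => by
      rw [Algebra.smul_def, IsScalarTower.algebraMap_apply W F Ω, smul_smul, Algebra.smul_def]
      rfl
    simp_rw [h1]
    rw [← Finset.smul_sum, ← Polynomial.aeval_eq_sum_range, hqx, smul_zero]
  · exact Subtype.ext (inv_mul_cancel₀ hc0)

/-- **The centre on the integral closure determines the valuation subring.**  Let `V`, `V'` be
valuation subrings of an algebraic extension `Ω` of `F`, both containing the valuation ring `W` of `F`.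
If every element integral over `W` which is a non-unit of `V'` is a non-unit of `V`, then `V ≤ V'`. -/
theorem le_of_center [Algebra.IsAlgebraic F Ω] (V V' : ValuationSubring Ω)
    (hWV : ∀ w : W, algebraMap W Ω w ∈ V) (hWV' : ∀ w : W, algebraMap W Ω w ∈ V')
    (hc : ∀ b : Ω, IsIntegral W b → b ∈ V'.nonunits → b ∈ V.nonunits) : V ≤ V' := by
  classical
  intro x hx
  obtain ⟨a, n, hn, hsum, i₀, hi₀, hai₀⟩ := exists_relation W x (Algebra.IsAlgebraic.isAlgebraic x)
  let P : ℕ → Prop := fun i => V.valuation (algebraMap W Ω (a i)) = 1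
  have hP₀ : P i₀ := by
    show V.valuation (algebraMap W Ω (a i₀)) = 1
    rw [hai₀, map_one, map_one]
  set r := Nat.findGreatest P n with hr_def
  have hr : r ≤ n := Nat.findGreatest_le n
  have har : P r := Nat.findGreatest_spec hi₀ hP₀
  have ha : ∀ i, r < i → i ≤ n → V.valuation (algebraMap W Ω (a i)) < 1 := fun i hri hin =>
    lt_of_le_of_ne ((ValuationSubring.valuation_le_one_iff V _).mpr (hWV _))
      (Nat.findGreatest_is_greatest hri hin)
  set s := hornerTail x a n r with hs
  have hvs : V.valuation s = 1 := valuation_hornerTail_eq_one V x hx a n r hr har ha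
  have hs_int : IsIntegral W s := isIntegral_hornerTail x a n r hn hr hsum
  have hsx_int : IsIntegral W (s * x) := isIntegral_hornerTail_mul x a n r hn hr hsum
  have hsV : s ∉ V.nonunits := fun h => by
    rw [ValuationSubring.mem_nonunits_iff, hvs] at h
    exact lt_irrefl _ h
  have hsV' : s ∉ V'.nonunits := fun h => hsV (hc s hs_int h)
  have hsxV' : s * x ∈ V' := mem_valuationSubring_of_isIntegral V' hWV' hsx_int
  rw [ValuationSubring.mem_nonunits_iff_or, not_or, not_not] at hsV'
  have : x = s⁻¹ * (s * x) := by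
    rw [← mul_assoc, inv_mul_cancel₀ hsV'.1, one_mul]
  rw [this]
  exact V'.mul_mem _ _ hsV'.2 hsxV'

end Relation

/-! ### Conjugacy -/

section Galois

variable {F Ω : Type*} [Field F] [Field Ω] [Algebra F Ω]

/-- The `W`-algebra structure on `Ω` for a valuation subring `W` of the base field. -/
@[reducible] def resAlgebra (W : ValuationSubring F) : Algebra W Ω :=
  ((algebraMap F Ω).comp W.subtype).toAlgebra

theorem resAlgebra_isScalarTower (W : ValuationSubring F) :
    letI := resAlgebra (Ω := Ω) W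
    IsScalarTower W F Ω :=
  letI := resAlgebra (Ω := Ω) W
  IsScalarTower.of_algebraMap_eq fun _ => rfl

section
variable (W : ValuationSubring F) [Algebra W Ω] [IsScalarTower W F Ω]

/-- The action of `Gal(Ω/F)` on the integral closure of `W` in `Ω`. -/
@[reducible] def galAction : MulSemiringAction (Ω ≃ₐ[F] Ω) (integralClosure W Ω) where
  smul g b := ⟨g b, (b.2 : IsIntegral W (b : Ω)).map ((g : Ω →ₐ[F] Ω).restrictScalars W)⟩
  one_smul _ := Subtype.ext rfl
  mul_smul _ _ _ := Subtype.ext rfl
  smul_zero g := Subtype.ext (map_zero g)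
  smul_add g _ _ := Subtype.ext (map_add g _ _)
  smul_one g := Subtype.ext (map_one g)
  smul_mul g _ _ := Subtype.ext (map_mul g _ _)

theorem coe_galAction_smul (g : Ω ≃ₐ[F] Ω) (b : integralClosure W Ω) :
    letI := galAction (Ω := Ω) W
    ((g • b : integralClosure W Ω) : Ω) = g (b : Ω) := rfl

end

/-- Non-units of the pull-back of a valuation subring along an automorphism. -/
theorem mem_nonunits_comap_iff (V : ValuationSubring Ω) (g : Ω ≃ₐ[F] Ω) (x : Ω) :
    x ∈ (V.comap (g : Ω →+* Ω)).nonunits ↔ g x ∈ V.nonunits := by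
  rw [ValuationSubring.mem_nonunits_iff_or, ValuationSubring.mem_nonunits_iff_or,
    ValuationSubring.mem_comap]
  have h1 : ((g : Ω →+* Ω) x⁻¹) = (g x)⁻¹ := map_inv₀ g x
  have h2 : g x = 0 ↔ x = 0 := map_eq_zero_iff g g.injective
  rw [h1, h2]

/-- Two valuation subrings with the same restriction to `F` have the same non-units in `F`. -/
theorem algebraMap_mem_nonunits_iff (V V' : ValuationSubring Ω)
    (h : ∀ a : F, algebraMap F Ω a ∈ V ↔ algebraMap F Ω a ∈ V') (a : F) :
    algebraMap F Ω a ∈ V.nonunits ↔ algebraMap F Ω a ∈ V'.nonunits := by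
  rw [ValuationSubring.mem_nonunits_iff_or, ValuationSubring.mem_nonunits_iff_or, ← map_inv₀,
    h a⁻¹]

/-- **Conjugacy of the extensions of a valuation in a Galois extension.**  Two valuation subrings of a
Galois extension `Ω / F` with the same restriction to `F` are conjugate under `Gal(Ω/F)`. -/
theorem exists_algEquiv_forall_mem_iff [IsGalois F Ω] (V V' : ValuationSubring Ω)
    (h : ∀ a : F, algebraMap F Ω a ∈ V ↔ algebraMap F Ω a ∈ V') :
    ∃ σ : Ω ≃ₐ[F] Ω, ∀ x, σ x ∈ V' ↔ x ∈ V := by
  -- the common restriction to `F`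
  let W : ValuationSubring F := V.comap (algebraMap F Ω)
  letI : Algebra W Ω := resAlgebra W
  haveI : IsScalarTower W F Ω := resAlgebra_isScalarTower W
  have hWV : ∀ w : W, algebraMap W Ω w ∈ V := fun w => w.2
  have hWV' : ∀ w : W, algebraMap W Ω w ∈ V' := fun w => (h (w : F)).mp w.2
  -- the integral closure and the Galois action on it
  let B := integralClosure W Ω
  letI : MulSemiringAction (Ω ≃ₐ[F] Ω) B := galAction W
  have hsmul : ∀ (g : Ω ≃ₐ[F] Ω) (b : B), ((g • b : B) : Ω) = g (b : Ω) := fun _ _ => rfl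
  haveI : SMulCommClass (Ω ≃ₐ[F] Ω) W B := ⟨fun g w b => Subtype.ext <| by
    show g (algebraMap W Ω w * (b : Ω)) = algebraMap W Ω w * g (b : Ω)
    rw [map_mul]
    congr 1
    exact g.commutes (w : F)⟩
  haveI : Algebra.IsInvariant W B (Ω ≃ₐ[F] Ω) := ⟨fun b hb => by
    have hfix : ∀ f : Ω ≃ₐ[F] Ω, f (b : Ω) = (b : Ω) := fun f => by
      rw [← hsmul, hb f]
    obtain ⟨a, ha⟩ := (InfiniteGalois.mem_range_algebraMap_iff_fixed (b : Ω)).mpr hfix
    have haW : a ∈ W := by
      show algebraMap F Ω a ∈ V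
      rw [ha]
      exact mem_valuationSubring_of_isIntegral V hWV b.2
    exact ⟨⟨a, haW⟩, Subtype.ext ha⟩⟩
  -- topology
  letI : TopologicalSpace B := ⊥
  haveI : DiscreteTopology B := ⟨rfl⟩
  haveI : ContinuousSMul (Ω ≃ₐ[F] Ω) B := by
    rw [continuousSMul_iff_stabilizer_isOpen]
    intro b
    have hopen := stabilizer_isOpen_of_isIntegral (K := F) (L := Ω) (b : Ω)
    have heq : (MulAction.stabilizer (Ω ≃ₐ[F] Ω) b : Set (Ω ≃ₐ[F] Ω)) =
        (MulAction.stabilizer (Ω ≃ₐ[F] Ω) (b : Ω) : Set (Ω ≃ₐ[F] Ω)) := by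
      ext g
      simp only [SetLike.mem_coe, MulAction.mem_stabilizer_iff]
      rw [Subtype.ext_iff, hsmul]
      rfl
    rw [heq]
    exact hopen
  -- the two centres
  let fV : B →+* V := (B.val : B →+* Ω).codRestrict V.toSubring fun b =>
    mem_valuationSubring_of_isIntegral V hWV b.2
  let fV' : B →+* V' := (B.val : B →+* Ω).codRestrict V'.toSubring fun b =>
    mem_valuationSubring_of_isIntegral V' hWV' b.2
  let P : Ideal B := (IsLocalRing.maximalIdeal V).comap fV
  let Q : Ideal B := (IsLocalRing.maximalIdeal V').comap fV'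
  have hP : ∀ b : B, b ∈ P ↔ (b : Ω) ∈ V.nonunits := fun b => by
    rw [ValuationSubring.mem_nonunits_iff_exists_mem_maximalIdeal]
    exact ⟨fun hb => ⟨_, hb⟩, fun ⟨_, hb⟩ => hb⟩
  have hQ : ∀ b : B, b ∈ Q ↔ (b : Ω) ∈ V'.nonunits := fun b => by
    rw [ValuationSubring.mem_nonunits_iff_exists_mem_maximalIdeal]
    exact ⟨fun hb => ⟨_, hb⟩, fun ⟨_, hb⟩ => hb⟩
  haveI : P.IsPrime := Ideal.comap_isPrime fV _
  haveI : Q.IsPrime := Ideal.comap_isPrime fV' _
  have hPQ : P.under W = Q.under W := by
    ext w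
    show algebraMap W B w ∈ P ↔ algebraMap W B w ∈ Q
    rw [hP, hQ]
    exact algebraMap_mem_nonunits_iff V V' h (w : F)
  obtain ⟨g, hg⟩ := Algebra.IsInvariant.exists_smul_of_under_eq_of_profinite
    (A := W) (B := B) (G := Ω ≃ₐ[F] Ω) P Q hPQ
  -- `g` conjugates `V` to `V'`
  have hcentre : ∀ c : B, g (c : Ω) ∈ V'.nonunits ↔ (c : Ω) ∈ V.nonunits := fun c => by
    have h1 : g • c ∈ Q ↔ c ∈ P := by
      rw [hg, Ideal.smul_mem_pointwise_smul_iff]
    rw [← hP, ← h1, hQ, hsmul]
  refine ⟨g, ?_⟩
  have hWV'' : ∀ w : W, algebraMap W Ω w ∈ V'.comap (g : Ω →+* Ω) := fun w => by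
    rw [ValuationSubring.mem_comap]
    have : (g : Ω →+* Ω) (algebraMap W Ω w) = algebraMap W Ω w := g.commutes (w : F)
    rw [this]
    exact hWV' w
  have hle1 : V ≤ V'.comap (g : Ω →+* Ω) := le_of_center W V _ hWV hWV'' fun b hb hb' => by
    rw [mem_nonunits_comap_iff] at hb'
    exact (hcentre ⟨b, hb⟩).mp hb'
  have hle2 : V'.comap (g : Ω →+* Ω) ≤ V := le_of_center W _ V hWV'' hWV fun b hb hb' => by
    rw [mem_nonunits_comap_iff]
    exact (hcentre ⟨b, hb⟩).mpr hb'
  intro x
  have := le_antisymm hle1 hle2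
  constructor
  · intro hx
    exact hle2 ((ValuationSubring.mem_comap).mpr hx)
  · intro hx
    exact (ValuationSubring.mem_comap).mp (hle1 hx)

end Galois

/-! ### Discrete valuation rings -/

section DVR

variable {O F Ω : Type*} [CommRing O] [IsDomain O] [IsDiscreteValuationRing O] [Field F]
  [Algebra O F] [IsFractionRing O F] [Field Ω] [Algebra F Ω] [Algebra O Ω] [IsScalarTower O F Ω]

/-- A valuation subring `≠ ⊤` of an algebraic extension `Ω` of `F = Frac O`, `O` a discrete valuation
ring, which contains `O`, meets `F` exactly in `O`. -/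
theorem algebraMap_mem_iff_of_dvr [Algebra.IsAlgebraic F Ω] (V : ValuationSubring Ω)
    (hV : ∀ a : O, algebraMap O Ω a ∈ V) (hVtop : V ≠ ⊤) (a : F) :
    algebraMap F Ω a ∈ V ↔ a ∈ Set.range (algebraMap O F) := by
  constructor
  · intro ha
    by_contra hnot
    apply hVtop
    obtain ⟨ϖ, hϖ⟩ := IsDiscreteValuationRing.exists_irreducible O
    have hinj := IsFractionRing.injective O F
    have hne : ∀ o : O, o ≠ 0 → algebraMap O F o ≠ 0 := fun o ho h =>
      ho (hinj (h.trans (map_zero _).symm))
    set p : F := algebraMap O F ϖ with hp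
    have hp0 : p ≠ 0 := hne ϖ hϖ.ne_zero
    have hOV : ∀ o : O, algebraMap F Ω (algebraMap O F o) ∈ V := fun o => by
      rw [← IsScalarTower.algebraMap_apply]
      exact hV o
    -- step 1: `p⁻¹ ∈ V`
    have hpinv : algebraMap F Ω p⁻¹ ∈ V := by
      obtain ⟨x, y, hy, rfl⟩ := IsFractionRing.div_surjective (A := O) a
      have hy0 : y ≠ 0 := nonZeroDivisors.ne_zero hy
      have hy0' := hne y hy0
      have hx0 : x ≠ 0 := by
        rintro rfl
        exact hnot ⟨0, by simp⟩
      obtain ⟨m, u, hx⟩ := IsDiscreteValuationRing.eq_unit_mul_pow_irreducible hx0 hϖ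
      obtain ⟨n, v, hy'⟩ := IsDiscreteValuationRing.eq_unit_mul_pow_irreducible hy0 hϖ
      have hmn : m < n := by
        by_contra hle
        push Not at hle
        apply hnot
        refine ⟨u * ((v⁻¹ : Oˣ) : O) * ϖ ^ (m - n), ?_⟩
        rw [eq_div_iff hy0', ← map_mul]
        congr 1
        rw [hx, hy']
        calc (u : O) * ((v⁻¹ : Oˣ) : O) * ϖ ^ (m - n) * ((v : O) * ϖ ^ n)
            = (u : O) * (((v⁻¹ : Oˣ) : O) * (v : O)) * (ϖ ^ (m - n) * ϖ ^ n) := by ring
          _ = (u : O) * ϖ ^ m := by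
            rw [Units.inv_mul, mul_one, ← pow_add, Nat.sub_add_cancel hle]
      set c : O := (v : O) * ((u⁻¹ : Oˣ) : O) * ϖ ^ (n - m - 1) with hc
      have hO : x * c * ϖ = y := by
        rw [hx, hy', hc]
        calc (u : O) * ϖ ^ m * ((v : O) * ((u⁻¹ : Oˣ) : O) * ϖ ^ (n - m - 1)) * ϖ
            = ((u : O) * ((u⁻¹ : Oˣ) : O)) * (v : O) * (ϖ ^ m * ϖ ^ (n - m - 1) * ϖ ^ 1) := by ring
          _ = (v : O) * ϖ ^ n := by
            rw [Units.mul_inv, one_mul, ← pow_add, ← pow_add]
            congr 2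
            omega
      have hF : algebraMap O F x * algebraMap O F c * p = algebraMap O F y := by
        rw [hp, ← map_mul, ← map_mul, hO]
      have hkey : p⁻¹ = algebraMap O F x / algebraMap O F y * algebraMap O F c := by
        rw [inv_eq_iff_eq_inv, ← hF]
        have hx0' := hne x hx0
        have hc0 : algebraMap O F c ≠ 0 := by
          intro h0
          rw [h0, mul_zero, zero_mul] at hF
          exact hy0' hF.symm
        field_simp
      rw [hkey, map_mul]
      exact V.mul_mem _ _ ha (hOV _)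
    -- step 2: `F ⊆ V`
    have hFV : ∀ b : F, algebraMap F Ω b ∈ V := fun b => by
      obtain ⟨x, y, hy, rfl⟩ := IsFractionRing.div_surjective (A := O) b
      have hy0 : y ≠ 0 := nonZeroDivisors.ne_zero hy
      have hy0' := hne y hy0
      obtain ⟨n, v, hy'⟩ := IsDiscreteValuationRing.eq_unit_mul_pow_irreducible hy0 hϖ
      have hO : x * ((v⁻¹ : Oˣ) : O) * y = x * ϖ ^ n := by
        rw [hy']
        calc x * ((v⁻¹ : Oˣ) : O) * ((v : O) * ϖ ^ n)
            = x * (((v⁻¹ : Oˣ) : O) * (v : O)) * ϖ ^ n := by ring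
          _ = x * ϖ ^ n := by rw [Units.inv_mul, mul_one]
      have hF : algebraMap O F (x * ((v⁻¹ : Oˣ) : O)) * algebraMap O F y =
          algebraMap O F x * p ^ n := by
        rw [hp, ← map_pow, ← map_mul, ← map_mul, hO]
      have hkey : algebraMap O F x / algebraMap O F y =
          algebraMap O F (x * ((v⁻¹ : Oˣ) : O)) * p⁻¹ ^ n := by
        rw [div_eq_iff hy0', inv_pow, mul_assoc, inv_mul_eq_div, ← mul_div_assoc,
          eq_div_iff (pow_ne_zero n hp0), hF]
      rw [hkey, map_mul, map_pow]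
      exact V.mul_mem _ _ (hOV _) (V.pow_mem hpinv n)
    -- step 3: `V = ⊤`
    rw [eq_top_iff]
    intro z _
    exact mem_valuationSubring_of_isIntegral V hFV (Algebra.IsIntegral.isIntegral (R := F) z)
  · rintro ⟨o, rfl⟩
    rw [← IsScalarTower.algebraMap_apply]
    exact hV o

/-- **Conjugacy over a discrete valuation ring.**  All valuation subrings `≠ ⊤` of a Galois extension
`Ω` of `F = Frac O` containing the discrete valuation ring `O` are conjugate under `Gal(Ω/F)`. -/
theorem exists_algEquiv_of_dvr [IsGalois F Ω] (V V' : ValuationSubring Ω)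
    (hV : ∀ a : O, algebraMap O Ω a ∈ V) (hV' : ∀ a : O, algebraMap O Ω a ∈ V')
    (hVtop : V ≠ ⊤) (hV'top : V' ≠ ⊤) : ∃ σ : Ω ≃ₐ[F] Ω, ∀ x, σ x ∈ V' ↔ x ∈ V :=
  exists_algEquiv_forall_mem_iff V V' fun a =>
    (algebraMap_mem_iff_of_dvr V hV hVtop a).trans (algebraMap_mem_iff_of_dvr V' hV' hV'top a).symm

end DVR

end Fermat.Agent.FFJ.Order.ValConj75
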