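/-
Programme FFJ (S19 then S32), chapter ORDER.  Owner: helper77.

**The formal theorem of chapter ORDER, in the literal shape of `Spec35.OrderStatement`.**

Let `𝒞` be one chart of the functor `B ↦ PicZeroR e B` over the base ring `O`, `M` a finite abelian group
with an action of `Aut(Ω/F)` and `ι : M → PicZeroR e Ω` an equivariant embedding whose image, together
with all its specialisations along valuation subrings of `Ω`, lies in the chart (`Admissible`).  If every
point of `PicZeroR e Ω` extends over every valuation subring `V ⊇ O` of `Ω` (`ValSurj`), then the image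
`H` of the chart ring `RW` in `Fun(M, Ω)` under the coordinates `c_m : RW → Ω` of the points of `M` is a
function order on `M` over `O` (`IsFunOrder O F H`).

No hypothesis on `O`, `F`, `Ω` beyond those of `Spec35.OrderStatement` is needed (no DVR, no algebraic
closure, no fixed-field hypothesis); `ValInj` is not used.  The one extra hypothesis is that `PicZeroR e B`
is closed under products (`hmul`), which follows from the additivity of the degree on geometric fibres
(`picZeroR_mul_of_deg`).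

Steps:
* `isIntegral_of_forall_mem` : an element of `Ω` lying in every valuation subring `V ⊇ O` is integral;
* `exists_valuationSubring_of_prime` : (PV1) every prime of a subalgebra `C ⊆ Fun(I, Ω)`, `I` finite, is
  the contraction of `𝔪_V` along an evaluation `ev_i : C → V`;
* `W_at_prime` : (PV2) the chart condition `W` at such a prime, from `Admissible` and `W_iff`;
* `exists_point_val` : a `V`-point with generic fibre in the admissible set lies in the chart (all primes
  of `V`, via `ValuationSubring.ofPrime`);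
* `finite_range`, `equivariant_range`, `separates_range`, `comul_range`, and `orderStatement`.
  For the comultiplication we work over the IMAGE `T'` of `H ⊗[O] H` in `Fun(M × M, Ω)`, so that the
  evaluations are jointly injective for free.
-/
import Mathlib
import Fermat.Agent.FFJ.Spec.Spec35

set_option autoImplicit false
set_option linter.style.haveILetI false
set_option linter.unusedSectionVars false

noncomputable section

namespace Fermat.Agent.FFJ.Order.Order77

open scoped TensorProduct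

section Alg

variable {O Ω : Type} [CommRing O] [Field Ω] [Algebra O Ω]

/-- An element of a field lying in every valuation subring that contains the image of `O` is integral
over `O`. -/
theorem isIntegral_of_forall_mem (x : Ω)
    (h : ∀ V : ValuationSubring Ω, (∀ a : O, algebraMap O Ω a ∈ V) → x ∈ V) : IsIntegral O x := by
  have h1 : x ∈ (⨅ V : {V : ValuationSubring Ω // Set.range (algebraMap O Ω) ⊆ V.toSubring},
      V.1.toSubring) := by
    rw [Subring.mem_iInf]
    rintro ⟨V, hV⟩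
    exact h V fun a => hV ⟨a, rfl⟩
  rw [iInf_valuationSubring_superset] at h1
  have h2 : IsIntegral (Subring.closure (Set.range (algebraMap O Ω))) x := h1
  obtain ⟨p, hp, hpx⟩ := h2
  have hcl : Subring.closure (Set.range (algebraMap O Ω)) = (algebraMap O Ω).range := by
    rw [← RingHom.coe_range, Subring.closure_eq]
  have hlift : p ∈ Polynomial.lifts
      ((algebraMap O Ω).codRestrict (Subring.closure (Set.range (algebraMap O Ω)))
        (fun a => Subring.subset_closure ⟨a, rfl⟩)) := by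
    rw [Polynomial.mem_lifts]
    refine Polynomial.map_surjective _ ?_ p
    rintro ⟨y, hy⟩
    rw [hcl] at hy
    obtain ⟨a, rfl⟩ := hy
    exact ⟨a, rfl⟩
  obtain ⟨q, hq, -, hqm⟩ := Polynomial.lifts_and_natDegree_eq_and_monic hlift hp
  refine ⟨q, hqm, ?_⟩
  rw [← hq, Polynomial.eval₂_map] at hpx
  exact hpx

/-- A function on a finite type with integral values is integral. -/
theorem isIntegral_pi77 {I : Type} [Finite I] (h : I → Ω) (hh : ∀ i, IsIntegral O (h i)) :
    IsIntegral O h := by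
  classical
  haveI := Fintype.ofFinite I
  choose p hp hpx using hh
  refine ⟨∏ i, p i, Polynomial.monic_prod_of_monic _ _ fun i _ => hp i, ?_⟩
  funext i
  have h3 : Polynomial.eval₂ (algebraMap O Ω) (h i) (∏ j, p j) = 0 := by
    rw [Polynomial.eval₂_finsetProd]
    exact Finset.prod_eq_zero (Finset.mem_univ i) (hpx i)
  have h4 := Polynomial.aeval_algHom_apply (Pi.evalAlgHom O (fun _ : I => Ω) i) h (∏ j, p j)
  simp only [Polynomial.aeval_def, Pi.evalAlgHom_apply] at h4
  rw [Pi.zero_apply, ← h3]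
  exact h4.symm

end Alg

section PV

variable {O Ω : Type} [CommRing O] [Field Ω] [Algebra O Ω]

/-- **(PV1)** every prime of a subalgebra of a finite function algebra `I → Ω` is the contraction of the
maximal ideal of a valuation subring of `Ω` along one of the evaluations. -/
theorem exists_valuationSubring_of_prime {I : Type} [Finite I] (C : Subalgebra O (I → Ω))
    (P : Ideal C) [P.IsPrime] :
    ∃ (i : I) (V : ValuationSubring Ω) (hV : ∀ c : C, (c : I → Ω) i ∈ V),
      ∀ c : C, c ∈ P ↔ (⟨(c : I → Ω) i, hV c⟩ : V) ∈ IsLocalRing.maximalIdeal V := by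
  classical
  haveI := Fintype.ofFinite I
  let ev : I → (C →+* Ω) := fun i => (Pi.evalRingHom (fun _ : I => Ω) i).comp C.val.toRingHom
  have hev : ∀ i (c : C), ev i c = (c : I → Ω) i := fun i c => rfl
  have h1 : (Finset.univ.inf fun i => RingHom.ker (ev i)) ≤ P := by
    intro c hc
    have hc0 : c = 0 := by
      apply Subtype.ext
      funext i
      have := (Submodule.mem_finsetInf.mp hc) i (Finset.mem_univ i)
      rw [RingHom.mem_ker, hev] at this
      simpa using this
    rw [hc0]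
    exact P.zero_mem
  obtain ⟨i, -, hi⟩ := (Ideal.IsPrime.inf_le' ‹P.IsPrime›).mp h1
  have hunit : ∀ y : P.primeCompl, IsUnit (ev i y) := by
    intro y
    rw [isUnit_iff_ne_zero]
    intro h0
    exact y.2 (hi ((RingHom.mem_ker).mpr h0))
  let f : Localization.AtPrime P →+* Ω := IsLocalization.lift (M := P.primeCompl) hunit
  have hf : ∀ c : C, f (algebraMap C (Localization.AtPrime P) c) = (c : I → Ω) i := fun c => by
    rw [IsLocalization.lift_eq]
    rfl
  obtain ⟨V, hV, hloc⟩ := IsLocalRing.exists_factor_valuationRing (R := Localization.AtPrime P) f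
  refine ⟨i, V, fun c => by rw [← hf c]; exact hV _, fun c => ?_⟩
  rw [← IsLocalization.AtPrime.to_map_mem_maximal_iff (Localization.AtPrime P) P c,
    IsLocalRing.mem_maximalIdeal, IsLocalRing.mem_maximalIdeal, mem_nonunits_iff, mem_nonunits_iff,
    not_iff_not]
  have hu := @isUnit_map_iff _ _ _ _ _ _ _ (f.codRestrict V.toSubring hV) hloc
    (algebraMap C (Localization.AtPrime P) c)
  rw [← hu]
  have heq : (f.codRestrict V.toSubring hV) (algebraMap C (Localization.AtPrime P) c)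
      = (⟨(c : I → Ω) i, by rw [← hf c]; exact hV _⟩ : V) := Subtype.ext (hf c)
  rw [heq]

end PV

section Main

open Fermat.Agent.JAC.Core.Defs36 Fermat.Agent.JAC.Grp.Diag33 Fermat.Agent.FFJ.Core.ClR35
  Fermat.Agent.FFJ.Core.ClRBc35 Fermat.Agent.TW.FF.FunOrder68 Fermat.Agent.FFJ.Spec.Spec35

variable {O : Type} [CommRing O] {A0 A1 A01 : Type} [CommRing A0] [CommRing A1] [CommRing A01]
  [Algebra O A0] [Algebra O A1] [Algebra O A01] [Algebra A0 A01] [Algebra A1 A01]
  [IsScalarTower O A0 A01] [IsScalarTower O A1 A01] {t : A0} {s : A1}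
  [IsLocalization.Away t A01] [IsLocalization.Away s A01] {e : A01 →ₐ[O] O}

/-- `PicZeroR` is stable under base change. -/
theorem picZeroR_bcR {B B' : Type} [CommRing B] [CommRing B'] [Algebra O B] [Algebra O B']
    (ψ : B →ₐ[O] B') {x : ClR O A0 A1 A01 t s B} (hx : x ∈ PicZeroR e B) :
    bcR ψ x ∈ PicZeroR e B' :=
  ⟨isRigidClR_bcR e ψ x hx.1, isDegZeroR_bcR ψ x hx.2⟩

variable {Ω : Type} [Field Ω] [Algebra O Ω]

/-- **(PV2 + W)** the predicate `W` at a prime `P` of `C` which is the contraction of the maximal ideal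
of a valuation subring `V` of `Ω` along `f : C → V`, for a class whose `V`-point has generic fibre in an
admissible set. -/
theorem W_at_prime (𝒞 : ChartPkg O A0 A1 A01 t s e) {T : Set (ClR O A0 A1 A01 t s Ω)}
    (hAdm : Admissible Ω 𝒞 T) (C : Type) [CommRing C] [Algebra O C]
    (y : ClR O A0 A1 A01 t s C) (hy : y ∈ PicZeroR e C) (P : PrimeSpectrum C)
    (V : ValuationSubring Ω) [Algebra O V] [IsScalarTower O V Ω] (f : C →ₐ[O] V)
    (hf : ∀ c : C, c ∈ P.asIdeal ↔ f c ∈ IsLocalRing.maximalIdeal V)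
    (hT : bcR (IsScalarTower.toAlgHom O V Ω) (bcR f y) ∈ T) :
    𝒞.W P.asIdeal.ResidueField (bcR (toResidueR C P) y) := by
  have h1 := hAdm.2 V (bcR f y) (picZeroR_bcR f hy) hT
  let g : C →ₐ[O] IsLocalRing.ResidueField V :=
    (IsScalarTower.toAlgHom O V (IsLocalRing.ResidueField V)).comp f
  have hg : ∀ c, g c = IsLocalRing.residue V (f c) := fun c => rfl
  have hg1 : P.asIdeal ≤ RingHom.ker g := fun c hc => by
    rw [RingHom.mem_ker, hg, IsLocalRing.residue_eq_zero_iff]
    exact (hf c).mp hc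
  have hg2 : P.asIdeal.primeCompl ≤ (IsUnit.submonoid _).comap g := fun c hc => by
    rw [Submonoid.mem_comap, IsUnit.mem_submonoid_iff, isUnit_iff_ne_zero, hg, Ne,
      IsLocalRing.residue_eq_zero_iff]
    exact fun h => hc ((hf c).mpr h)
  let ψ := Ideal.ResidueField.liftₐ P.asIdeal g hg1 hg2
  have hψ : ψ.comp (toResidueR C P) = g := Ideal.ResidueField.liftₐ_comp_toAlgHom _ _ _ _
  rw [← 𝒞.W_iff _ _ ψ _ (picZeroR_bcR _ hy), bcR_bc, hψ]
  rw [bcR_bc] at h1
  exact h1

/-- a `V`-point of `PicZeroR` whose generic fibre lies in an admissible set lies in the chart. -/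
theorem exists_point_val (𝒞 : ChartPkg O A0 A1 A01 t s e) {T : Set (ClR O A0 A1 A01 t s Ω)}
    (hAdm : Admissible Ω 𝒞 T) (V : ValuationSubring Ω) [Algebra O V] [IsScalarTower O V Ω]
    (ξ : ClR O A0 A1 A01 t s V) (hξ : ξ ∈ PicZeroR e V)
    (hT : bcR (IsScalarTower.toAlgHom O V Ω) ξ ∈ T) :
    ∃ φ : 𝒞.RW →ₐ[O] V, bcR φ 𝒞.x = ξ := by
  refine (𝒞.mem_iff V ξ hξ).mpr fun p => ?_
  haveI : p.asIdeal.IsPrime := p.isPrime
  let V' : ValuationSubring Ω := V.ofPrime p.asIdeal
  letI : Algebra O V' := ((algebraMap V V').comp (algebraMap O V)).toAlgebra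
  haveI : IsScalarTower O V V' := IsScalarTower.of_algebraMap_eq fun _ => rfl
  haveI : IsScalarTower O V' Ω := IsScalarTower.of_algebraMap_eq fun a => by
    have h1 : algebraMap O V' a = algebraMap V V' (algebraMap O V a) := rfl
    rw [h1, ← IsScalarTower.algebraMap_apply V V' Ω, ← IsScalarTower.algebraMap_apply O V Ω]
  refine W_at_prime 𝒞 hAdm V ξ hξ p V' (IsScalarTower.toAlgHom O V V') (fun c => ?_) ?_
  · exact (IsLocalization.AtPrime.to_map_mem_maximal_iff V' p.asIdeal c).symm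
  · rw [bcR_bc]
    have h2 : (IsScalarTower.toAlgHom O V' Ω).comp (IsScalarTower.toAlgHom O V V') =
        IsScalarTower.toAlgHom O V Ω := AlgHom.ext fun c =>
      (IsScalarTower.algebraMap_apply V V' Ω c).symm
    rw [h2]
    exact hT

/-- a class over a subalgebra of a finite function algebra `I → Ω`, all of whose evaluations lie in an
admissible set, lies in the chart. -/
theorem exists_point_subalgebra (𝒞 : ChartPkg O A0 A1 A01 t s e) {𝒯 : Set (ClR O A0 A1 A01 t s Ω)}
    (hAdm : Admissible Ω 𝒞 𝒯) {I : Type} [Finite I] (T : Subalgebra O (I → Ω))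
    (y : ClR O A0 A1 A01 t s T) (hy : y ∈ PicZeroR e T)
    (hT : ∀ i : I, bcR ((Pi.evalAlgHom O (fun _ : I => Ω) i).comp T.val) y ∈ 𝒯) :
    ∃ Ψ : 𝒞.RW →ₐ[O] T, bcR Ψ 𝒞.x = y := by
  refine (𝒞.mem_iff _ y hy).mpr fun P => ?_
  haveI : P.asIdeal.IsPrime := P.isPrime
  obtain ⟨i, V, hV, hP⟩ := exists_valuationSubring_of_prime T P.asIdeal
  have hOV : ∀ a : O, algebraMap O Ω a ∈ V := fun a => hV (algebraMap O T a)
  letI : Algebra O V := ((algebraMap O Ω).codRestrict V.toSubring hOV).toAlgebra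
  haveI : IsScalarTower O V Ω := IsScalarTower.of_algebraMap_eq fun _ => rfl
  let f : T →ₐ[O] V :=
    { toFun := fun z => ⟨(z : I → Ω) i, hV z⟩
      map_one' := rfl
      map_mul' := fun _ _ => rfl
      map_zero' := rfl
      map_add' := fun _ _ => rfl
      commutes' := fun _ => rfl }
  have hf : (IsScalarTower.toAlgHom O V Ω).comp f = (Pi.evalAlgHom O (fun _ : I => Ω) i).comp T.val :=
    AlgHom.ext fun _ => rfl
  refine W_at_prime 𝒞 hAdm _ y hy P V f hP ?_
  rw [bcR_bc, hf]
  exact hT i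

end Main

section Assembly

open Fermat.Agent.JAC.Core.Defs36 Fermat.Agent.JAC.Grp.Diag33 Fermat.Agent.FFJ.Core.ClR35
  Fermat.Agent.FFJ.Core.ClRBc35 Fermat.Agent.TW.FF.FunOrder68 Fermat.Agent.FFJ.Spec.Spec35
  Fermat.Agent.S19.Shell64

variable {O : Type} [CommRing O] {A0 A1 A01 : Type} [CommRing A0] [CommRing A1] [CommRing A01]
  [Algebra O A0] [Algebra O A1] [Algebra O A01] [Algebra A0 A01] [Algebra A1 A01]
  [IsScalarTower O A0 A01] [IsScalarTower O A1 A01] {t : A0} {s : A1}
  [IsLocalization.Away t A01] [IsLocalization.Away s A01] {e : A01 →ₐ[O] O}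
  {Ω : Type} [Field Ω] [Algebra O Ω]
  (𝒞 : ChartPkg O A0 A1 A01 t s e) {M : Type} [AddCommGroup M]
  (ι : Multiplicative M →* ClR O A0 A1 A01 t s Ω)
  (c : M → (𝒞.RW →ₐ[O] Ω)) (hc : ∀ m, bcR (c m) 𝒞.x = ι (Multiplicative.ofAdd m))

/-- the coordinate map of the points of `M`. -/
def psi : 𝒞.RW →ₐ[O] (M → Ω) := AlgHom.pi c

omit [AddCommGroup M] in
theorem psi_apply (r : 𝒞.RW) (m : M) : psi 𝒞 c r m = c m r := rfl

include hc in
/-- a point of the chart is determined by its class. -/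
theorem point_unique (m : M) (φ : 𝒞.RW →ₐ[O] Ω)
    (h : bcR φ 𝒞.x = ι (Multiplicative.ofAdd m)) : φ = c m :=
  𝒞.inj Ω φ (c m) (by rw [h, hc])

include hc in
theorem equivariant_range (F : Type) [Field F] [Algebra O F] [Algebra F Ω] [IsScalarTower O F Ω]
    [MulAction (Ω ≃ₐ[F] Ω) M]
    (hequiv : ∀ (σ : Ω ≃ₐ[F] Ω) (m : M),
      ι (Multiplicative.ofAdd (σ • m)) = galActR O F σ (ι (Multiplicative.ofAdd m))) :
    ∀ h ∈ (psi 𝒞 c).range, IsEquivariantFun F h := by
  rintro _ ⟨r, rfl⟩ σ m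
  have h1 : (galHom O F σ).comp (c m) = c (σ • m) := point_unique 𝒞 ι c hc _ _ (by
    rw [← bcR_bc, hc, hequiv]
    rfl)
  change c (σ • m) r = σ (c m r)
  rw [← h1]
  rfl

include hc in
theorem separates_range (hinj : Function.Injective ι) (m m' : M) (hne : m ≠ m') :
    ∃ h ∈ (psi 𝒞 c).range, h m ≠ h m' := by
  have h1 : c m ≠ c m' := fun h => hne (by
    have h2 := hc m
    rw [h, hc m'] at h2
    exact Multiplicative.ofAdd.injective (hinj h2.symm))
  obtain ⟨r, hr⟩ := DFunLike.exists_ne h1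
  exact ⟨psi 𝒞 c r, ⟨r, rfl⟩, hr⟩

include hc in
theorem finite_range [Finite M] (hmem : ∀ m, ι m ∈ PicZeroR e Ω)
    (hVS : ValSurj O A0 A1 A01 t s e Ω) (hAdm : Admissible Ω 𝒞 (Set.range ι)) :
    Module.Finite O (psi 𝒞 c).range := by
  haveI : Algebra.FiniteType O (psi 𝒞 c).range :=
    haveI := 𝒞.finiteType
    Algebra.FiniteType.of_surjective (psi 𝒞 c).rangeRestrict (psi 𝒞 c).rangeRestrict_surjective
  haveI : Algebra.IsIntegral O (psi 𝒞 c).range := ⟨by
    rintro ⟨_, ⟨r, rfl⟩⟩
    rw [← isIntegral_algHom_iff (psi 𝒞 c).range.val Subtype.val_injective]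
    apply isIntegral_pi77
    intro m
    apply isIntegral_of_forall_mem
    intro V hV
    letI : Algebra O V := ((algebraMap O Ω).codRestrict V.toSubring hV).toAlgebra
    haveI : IsScalarTower O V Ω := IsScalarTower.of_algebraMap_eq fun _ => rfl
    obtain ⟨ξ, hξ, hξΩ⟩ := hVS V (ι (Multiplicative.ofAdd m)) (hmem _)
    obtain ⟨φ, hφ⟩ := exists_point_val 𝒞 hAdm V ξ hξ (by rw [hξΩ]; exact ⟨_, rfl⟩)
    have h1 : (IsScalarTower.toAlgHom O V Ω).comp φ = c m :=
      point_unique 𝒞 ι c hc m _ (by rw [← bcR_bc, hφ, hξΩ])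
    have h2 : c m r = (φ r : Ω) := by
      rw [← h1]
      rfl
    change c m r ∈ V
    rw [h2]
    exact (φ r).2⟩
  exact Algebra.IsIntegral.finite

end Assembly

section Comul

open Fermat.Agent.JAC.Core.Defs36 Fermat.Agent.JAC.Grp.Diag33 Fermat.Agent.FFJ.Core.ClR35
  Fermat.Agent.FFJ.Core.ClRBc35 Fermat.Agent.TW.FF.FunOrder68 Fermat.Agent.FFJ.Spec.Spec35
  Fermat.Agent.S19.Shell64

variable {O : Type} [CommRing O] {A0 A1 A01 : Type} [CommRing A0] [CommRing A1] [CommRing A01]
  [Algebra O A0] [Algebra O A1] [Algebra O A01] [Algebra A0 A01] [Algebra A1 A01]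
  [IsScalarTower O A0 A01] [IsScalarTower O A1 A01] {t : A0} {s : A1}
  [IsLocalization.Away t A01] [IsLocalization.Away s A01] {e : A01 →ₐ[O] O}
  {Ω : Type} [Field Ω] [Algebra O Ω]
  (𝒞 : ChartPkg O A0 A1 A01 t s e) {M : Type} [AddCommGroup M]
  (ι : Multiplicative M →* ClR O A0 A1 A01 t s Ω)
  (c : M → (𝒞.RW →ₐ[O] Ω)) (hc : ∀ m, bcR (c m) 𝒞.x = ι (Multiplicative.ofAdd m))

variable (O Ω M) in
/-- pull-back of functions along the first projection `M × M → M`. -/
def pr1 : (M → Ω) →ₐ[O] (M × M → Ω) := AlgHom.pi fun p => Pi.evalAlgHom O (fun _ : M => Ω) p.1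

variable (O Ω M) in
/-- pull-back of functions along the second projection `M × M → M`. -/
def pr2 : (M → Ω) →ₐ[O] (M × M → Ω) := AlgHom.pi fun p => Pi.evalAlgHom O (fun _ : M => Ω) p.2

/-- the external product `H ⊗[O] H → Fun(M × M, Ω)`. -/
def mu (H : Subalgebra O (M → Ω)) : H ⊗[O] H →ₐ[O] (M × M → Ω) :=
  Algebra.TensorProduct.productMap ((pr1 O Ω M).comp H.val) ((pr2 O Ω M).comp H.val)

omit [AddCommGroup M] in
theorem mu_tmul (H : Subalgebra O (M → Ω)) (a b : H) (p : M × M) :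
    mu H (a ⊗ₜ[O] b) p = (a : M → Ω) p.1 * (b : M → Ω) p.2 := by
  rw [mu, Algebra.TensorProduct.productMap_apply_tmul]
  rfl

/-- the first inclusion `H → T'`. -/
def kk1 (H : Subalgebra O (M → Ω)) : H →ₐ[O] (mu H).range :=
  (mu H).rangeRestrict.comp Algebra.TensorProduct.includeLeft

/-- the second inclusion `H → T'`. -/
def kk2 (H : Subalgebra O (M → Ω)) : H →ₐ[O] (mu H).range :=
  (mu H).rangeRestrict.comp Algebra.TensorProduct.includeRight

omit [AddCommGroup M] in
theorem kk1_apply (H : Subalgebra O (M → Ω)) (a : H) (p : M × M) :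
    ((kk1 H a : (mu H).range) : M × M → Ω) p = (a : M → Ω) p.1 := by
  change mu H (a ⊗ₜ[O] 1) p = _
  rw [mu_tmul]
  simp

omit [AddCommGroup M] in
theorem kk2_apply (H : Subalgebra O (M → Ω)) (a : H) (p : M × M) :
    ((kk2 H a : (mu H).range) : M × M → Ω) p = (a : M → Ω) p.2 := by
  change mu H (1 ⊗ₜ[O] a) p = _
  rw [mu_tmul]
  simp

/-- evaluation of `T'` at a pair. -/
def evT (H : Subalgebra O (M → Ω)) (p : M × M) : (mu H).range →ₐ[O] Ω :=
  (Pi.evalAlgHom O (fun _ : M × M => Ω) p).comp (mu H).range.val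

omit [AddCommGroup M] in
theorem evT_kk1 (p : M × M) :
    ((evT (psi 𝒞 c).range p).comp (kk1 (psi 𝒞 c).range)).comp (psi 𝒞 c).rangeRestrict = c p.1 :=
  AlgHom.ext fun _ => kk1_apply _ _ p

omit [AddCommGroup M] in
theorem evT_kk2 (p : M × M) :
    ((evT (psi 𝒞 c).range p).comp (kk2 (psi 𝒞 c).range)).comp (psi 𝒞 c).rangeRestrict = c p.2 :=
  AlgHom.ext fun _ => kk2_apply _ _ p

/-- the product of the two pull-backs of the universal point, over `T'`. -/
def yT : ClR O A0 A1 A01 t s (mu (psi 𝒞 c).range).range :=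
  bcR ((kk1 (psi 𝒞 c).range).comp (psi 𝒞 c).rangeRestrict) 𝒞.x *
    bcR ((kk2 (psi 𝒞 c).range).comp (psi 𝒞 c).rangeRestrict) 𝒞.x

include hc in
theorem bcR_evT_yT (p : M × M) :
    bcR (evT (psi 𝒞 c).range p) (yT 𝒞 c) = ι (Multiplicative.ofAdd (p.1 + p.2)) := by
  rw [yT, map_mul, bcR_bc, bcR_bc, ← AlgHom.comp_assoc, ← AlgHom.comp_assoc, evT_kk1, evT_kk2,
    hc, hc, ← map_mul, ← ofAdd_add]

include hc in
/-- **the comultiplication**: there is `Ψ : RW → T'` computing the coordinates of the sums. -/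
theorem exists_comul [Finite M]
    (hmul : ∀ (B : Type) [CommRing B] [Algebra O B] (x y : ClR O A0 A1 A01 t s B),
      x ∈ PicZeroR e B → y ∈ PicZeroR e B → x * y ∈ PicZeroR e B)
    (hAdm : Admissible Ω 𝒞 (Set.range ι)) :
    ∃ Ψ : 𝒞.RW →ₐ[O] (mu (psi 𝒞 c).range).range, ∀ (r : 𝒞.RW) (m m' : M),
      ((Ψ r : (mu (psi 𝒞 c).range).range) : M × M → Ω) (m, m') = c (m + m') r := by
  have hy : yT 𝒞 c ∈ PicZeroR e (mu (psi 𝒞 c).range).range :=
    hmul _ _ _ (picZeroR_bcR _ 𝒞.x_mem) (picZeroR_bcR _ 𝒞.x_mem)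
  have hex : ∃ Ψ : 𝒞.RW →ₐ[O] (mu (psi 𝒞 c).range).range, bcR Ψ 𝒞.x = yT 𝒞 c :=
    exists_point_subalgebra 𝒞 hAdm _ (yT 𝒞 c) hy fun p => by
      rw [← evT, bcR_evT_yT 𝒞 ι c hc]
      exact ⟨_, rfl⟩
  obtain ⟨Ψ, hΨ⟩ := hex
  refine ⟨Ψ, fun r m m' => ?_⟩
  have h1 : (evT (psi 𝒞 c).range (m, m')).comp Ψ = c (m + m') :=
    point_unique 𝒞 ι c hc _ _ (by rw [← bcR_bc, hΨ, bcR_evT_yT 𝒞 ι c hc])
  rw [← h1]
  rfl

include hc in
theorem comul_range [Finite M]
    (hmul : ∀ (B : Type) [CommRing B] [Algebra O B] (x y : ClR O A0 A1 A01 t s B),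
      x ∈ PicZeroR e B → y ∈ PicZeroR e B → x * y ∈ PicZeroR e B)
    (hAdm : Admissible Ω 𝒞 (Set.range ι)) :
    ∀ h ∈ (psi 𝒞 c).range, ∃ (n : ℕ) (a b : Fin n → (psi 𝒞 c).range), ∀ m m' : M,
      h (m + m') = ∑ i, (a i : M → Ω) m * (b i : M → Ω) m' := by
  obtain ⟨Ψ, hΨ⟩ := exists_comul 𝒞 ι c hc hmul hAdm
  rintro _ ⟨r, rfl⟩
  obtain ⟨z, hz⟩ := (Ψ r).2
  obtain ⟨n, a, b, rfl⟩ := exists_fin_sum_tmul z
  refine ⟨n, a, b, fun m m' => ?_⟩
  change c (m + m') r = _
  rw [← hΨ r m m', ← hz, map_sum, Finset.sum_apply]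
  exact Finset.sum_congr rfl fun i _ => mu_tmul _ _ _ _

end Comul

section Statement

open Fermat.Agent.JAC.Core.Defs36 Fermat.Agent.JAC.Grp.Diag33 Fermat.Agent.FFJ.Core.ClR35
  Fermat.Agent.FFJ.Core.ClRBc35 Fermat.Agent.TW.FF.FunOrder68 Fermat.Agent.FFJ.Spec.Spec35
  Fermat.Agent.S19.Shell64 Fermat.Agent.JAC.Core.Degree36
open scoped Fermat.Agent.JAC.Core.ConstFamily36

variable (O : Type) [CommRing O] (A0 A1 A01 : Type) [CommRing A0] [CommRing A1] [CommRing A01]
  [Algebra O A0] [Algebra O A1] [Algebra O A01] [Algebra A0 A01] [Algebra A1 A01]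
  [IsScalarTower O A0 A01] [IsScalarTower O A1 A01] (t : A0) (s : A1)
  [IsLocalization.Away t A01] [IsLocalization.Away s A01] (e : A01 →ₐ[O] O)

/-- `PicZeroR e B` is closed under products, for every `O`-algebra `B`. -/
def PicZeroMul : Prop :=
  ∀ (B : Type) [CommRing B] [Algebra O B] (x y : ClR O A0 A1 A01 t s B),
    x ∈ PicZeroR e B → y ∈ PicZeroR e B → x * y ∈ PicZeroR e B

/-- the degree-zero classes over algebraically closed fields are closed under products. -/
def DegZeroMul : Prop :=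
  ∀ (K : Type) [Field K] [IsAlgClosed K] [Algebra O K] (x y : ClR O A0 A1 A01 t s K),
    degClass K x = 0 → degClass K y = 0 → degClass K (x * y) = 0

variable {O A0 A1 A01 t s} in
theorem picZeroMul_of_deg (h : DegZeroMul O A0 A1 A01 t s) : PicZeroMul O A0 A1 A01 t s e := by
  intro B _ _ x y hx hy
  refine ⟨?_, fun K _ _ _ ψ => ?_⟩
  · letI := Fermat.Agent.JAC.Core.ConstFamily36.rigAlgebra B e
    exact Subgroup.mul_mem _ hx.1 hy.1
  · rw [map_mul]
    exact h K _ _ (hx.2 K ψ) (hy.2 K ψ)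

variable (F Ω : Type) [Field F] [Field Ω] [Algebra O F] [Algebra F Ω] [Algebra O Ω]
  [IsScalarTower O F Ω]

variable {F Ω} in
/-- **Chapter ORDER**, explicit form (without the unused hypothesis `ValInj`). -/
theorem exists_isFunOrder (hmul : PicZeroMul O A0 A1 A01 t s e)
    (𝒞 : ChartPkg O A0 A1 A01 t s e) (M : Type) [AddCommGroup M] [Finite M]
    [MulAction (Ω ≃ₐ[F] Ω) M]
    (ι : Multiplicative M →* ClR O A0 A1 A01 t s Ω) (hinj : Function.Injective ι)
    (hmem : ∀ m, ι m ∈ PicZeroR e Ω)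
    (hequiv : ∀ (σ : Ω ≃ₐ[F] Ω) (m : M),
      ι (Multiplicative.ofAdd (σ • m)) = galActR O F σ (ι (Multiplicative.ofAdd m)))
    (hVS : ValSurj O A0 A1 A01 t s e Ω) (hAdm : Admissible Ω 𝒞 (Set.range ι)) :
    ∃ H : Subalgebra O (M → Ω), IsFunOrder O F H := by
  have hpt : ∀ m : M, ∃ c : 𝒞.RW →ₐ[O] Ω, bcR c 𝒞.x = ι (Multiplicative.ofAdd m) := fun m =>
    (𝒞.mem_iff Ω _ (hmem _)).mpr fun p =>
      (𝒞.W_iff Ω p.asIdeal.ResidueField (toResidueR Ω p) _ (hmem _)).mpr (hAdm.1 _ ⟨_, rfl⟩)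
  choose c hc using hpt
  exact ⟨(psi 𝒞 c).range,
    { finite := finite_range 𝒞 ι c hc hmem hVS hAdm
      equivariant := equivariant_range 𝒞 ι c hc F hequiv
      separates := separates_range 𝒞 ι c hc hinj
      comul := comul_range 𝒞 ι c hc hmul hAdm }⟩

/-- **Chapter ORDER**: `Spec35.OrderStatement`, for an arbitrary base ring `O`, given that `PicZeroR` is
closed under products. -/
theorem orderStatement (hmul : PicZeroMul O A0 A1 A01 t s e) :
    OrderStatement O A0 A1 A01 t s e F Ω := by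
  intro 𝒞 M _ _ _ ι hinj hmem hequiv _ hVS hAdm
  exact exists_isFunOrder O A0 A1 A01 t s e hmul 𝒞 M ι hinj hmem hequiv hVS hAdm

/-- the same from additivity of the degree. -/
theorem orderStatement_of_deg (h : DegZeroMul O A0 A1 A01 t s) :
    OrderStatement O A0 A1 A01 t s e F Ω :=
  orderStatement O A0 A1 A01 t s e F Ω (picZeroMul_of_deg e h)

end Statement

end Fermat.Agent.FFJ.Order.Order77
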