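/-
Programme FFJ (S19), GEO wire.  Owner: helper77.

Interface check + wiring: the output of chapter ORDER (`Order77.orderStatement`), instantiated at
`O = A ∩ K`, `F = K`, `Ω = ℚ̄`, is literally the input `Spec78.GeoInput` of chapter ALG.
-/
import Mathlib
import Fermat.Agent.FFJ.Order.Order77
import Fermat.Agent.FFJ.Alg.Spec78

set_option autoImplicit false
set_option linter.style.haveILetI false
set_option linter.unusedSectionVars false

noncomputable section

namespace Fermat.Agent.FFJ.Order.GeoWire77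

open scoped TensorProduct
open Fermat.Agent.JAC.Core.Defs36 Fermat.Agent.JAC.Grp.Diag33 Fermat.Agent.FFJ.Core.ClR35
  Fermat.Agent.FFJ.Core.ClRBc35 Fermat.Agent.TW.FF.FunOrder68 Fermat.Agent.FFJ.Spec.Spec35
  Fermat.Agent.S19.Shell64 Fermat.Agent.FFJ.Alg.Spec78 Fermat.Agent.FFJ.Order.Order77
  Fermat.Agent.TW.FF.FlatModel68

/-- the base ring `O = A ∩ K` (`= RED.Interface4.AK A K`). -/
abbrev OK (K : IntermediateField ℚ Qbar) (A : ValuationSubring Qbar) : Type :=
  A.comap (algebraMap K Qbar)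

/-- **GEO ⇒ ALG**: a chart of `PicZeroR` over `O = A ∩ K` containing the image of `M` and its
specialisations, the valuative property, and an embedding `ι` of `M` equivariant for `Gal(ℚ̄/K)` give
`Spec78.GeoInput`. -/
theorem geoInput_of_chart (l : ℕ) (M : Type) [AddCommGroup M] [Finite M] [DistribMulAction GQ M]
    (K : IntermediateField ℚ Qbar) (hfin : FiniteDimensional ℚ K)
    (hnorm : ∀ (σ : GQ) (x : Qbar), x ∈ K → σ x ∈ K) (hunr : UnramAt l K)
    (A : ValuationSubring Qbar) (hA : A.LiesOverPrime l)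
    (A0 A1 A01 : Type) [CommRing A0] [CommRing A1] [CommRing A01]
    [Algebra (OK K A) A0] [Algebra (OK K A) A1] [Algebra (OK K A) A01] [Algebra A0 A01]
    [Algebra A1 A01] [IsScalarTower (OK K A) A0 A01] [IsScalarTower (OK K A) A1 A01]
    (t : A0) (s : A1) [IsLocalization.Away t A01] [IsLocalization.Away s A01]
    (e : A01 →ₐ[OK K A] OK K A)
    (hmul : PicZeroMul (OK K A) A0 A1 A01 t s e)
    (𝒞 : ChartPkg (OK K A) A0 A1 A01 t s e)
    (ι : Multiplicative M →* ClR (OK K A) A0 A1 A01 t s Qbar) (hinj : Function.Injective ι)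
    (hmem : ∀ m, ι m ∈ PicZeroR e Qbar)
    (hequiv : ∀ (σ : Qbar ≃ₐ[K] Qbar) (m : M),
      ι (Multiplicative.ofAdd ((σ.restrictScalars ℚ : GQ) • m)) =
        galActR (OK K A) K σ (ι (Multiplicative.ofAdd m)))
    (hVS : ValSurj (OK K A) A0 A1 A01 t s e Qbar)
    (hAdm : Admissible Qbar 𝒞 (Set.range ι)) :
    GeoInput l M := by
  letI : MulAction (Qbar ≃ₐ[K] Qbar) M := resMulAction K M
  obtain ⟨H, hH⟩ := exists_isFunOrder (F := K) (OK K A) A0 A1 A01 t s e hmul 𝒞 M ι hinj hmem hequiv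
    hVS hAdm
  exact ⟨K, hfin, hnorm, hunr, A, hA, H, hH⟩

end Fermat.Agent.FFJ.Order.GeoWire77
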