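/-
Programme FFJ (S19), GEO wire, second form.  Owner: helper77.

`geoInput_of_chart_one`: as `GeoWire77.geoInput_of_chart`, but the hypothesis `Admissible` is reduced
(by `AdmOne77.admissible_range_of_one`) to the two FINITE checks
 * `𝒞.W ℚ̄ (ι m)` for the points of `M`, and
 * `𝒞.W κ(A) (ξ mod 𝔪_A)` for the `A`-points `ξ` of `PicZeroR` with generic fibre `ι m`
at the ONE valuation subring `A` of `ℚ̄` (`O = A ∩ K`).
-/
import Mathlib
import Fermat.Agent.FFJ.Order.GeoWire77
import Fermat.Agent.FFJ.Order.AdmOne77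
import Fermat.Agent.RED.DESC.NumberFieldDVR27

set_option autoImplicit false
set_option linter.style.haveILetI false
set_option linter.unusedSectionVars false

noncomputable section

namespace Fermat.Agent.FFJ.Order.GeoWireOne77

open scoped TensorProduct
open Fermat.Agent.JAC.Core.Defs36 Fermat.Agent.JAC.Grp.Diag33 Fermat.Agent.FFJ.Core.ClR35
  Fermat.Agent.FFJ.Core.ClRBc35 Fermat.Agent.TW.FF.FunOrder68 Fermat.Agent.FFJ.Spec.Spec35
  Fermat.Agent.S19.Shell64 Fermat.Agent.FFJ.Alg.Spec78 Fermat.Agent.FFJ.Order.Order77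
  Fermat.Agent.TW.FF.FlatModel68 Fermat.Agent.FFJ.Order.GeoWire77 Fermat.Agent.FFJ.Order.AdmOne77
  Fermat.Agent.FFJ.Order.ValConj77

variable (K : IntermediateField ℚ Qbar) (A : ValuationSubring Qbar)

/-- the `O`-algebra structure of `A` over `O = A ∩ K`. -/
@[reducible] def algebraOKA : Algebra (OK K A) A :=
  (((algebraMap K Qbar).comp (A.comap (algebraMap K Qbar)).subtype).codRestrict A.toSubring
    fun x => x.2).toAlgebra

theorem isScalarTower_OKA : letI := algebraOKA K A; IsScalarTower (OK K A) A Qbar :=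
  letI := algebraOKA K A
  IsScalarTower.of_algebraMap_eq fun _ => rfl

theorem liesOverBase_OKA : LiesOverBase (OK K A) K A := by
  intro x
  constructor
  · intro hx
    exact ⟨⟨x, hx⟩, rfl⟩
  · rintro ⟨y, rfl⟩
    exact y.2

theorem isGalois_K_Qbar : IsGalois K Qbar := by
  haveI : IsAlgClosure ℚ Qbar := by
    have h : (DivisionRing.toRatAlgebra : Algebra ℚ Qbar) = AlgebraicClosure.instAlgebra ℚ :=
      Subsingleton.elim _ _
    rw [h]
    infer_instance
  haveI : IsGalois ℚ Qbar := IsAlgClosure.isGalois ℚ Qbar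
  exact IsGalois.tower_top_of_isGalois ℚ K Qbar

/-- **GEO ⇒ ALG, finite form**: the chart needs to contain only the points `ι m` over `ℚ̄` and the
special fibres of their `A`-models. -/
theorem geoInput_of_chart_one (l : ℕ) (hl : l ≠ 0) (M : Type) [AddCommGroup M] [Finite M]
    [DistribMulAction GQ M]
    (K : IntermediateField ℚ Qbar) [hfin : FiniteDimensional ℚ K]
    (hnorm : ∀ (σ : GQ) (x : Qbar), x ∈ K → σ x ∈ K) (hunr : UnramAt l K)
    (A : ValuationSubring Qbar) (hA : A.LiesOverPrime l)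
    (A0 A1 A01 : Type) [CommRing A0] [CommRing A1] [CommRing A01]
    [Algebra (OK K A) A0] [Algebra (OK K A) A1] [Algebra (OK K A) A01] [Algebra A0 A01]
    [Algebra A1 A01] [IsScalarTower (OK K A) A0 A01] [IsScalarTower (OK K A) A1 A01]
    (t : A0) (s : A1) [IsLocalization.Away t A01] [IsLocalization.Away s A01]
    (e : A01 →ₐ[OK K A] OK K A)
    (hmul : PicZeroMul (OK K A) A0 A1 A01 t s e)
    (𝒞 : ChartPkg (OK K A) A0 A1 A01 t s e)
    (ι : Multiplicative M →* ClR (OK K A) A0 A1 A01 t s Qbar) (hinj : Function.Injective ι)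
    (hmem : ∀ m, ι m ∈ PicZeroR e Qbar)
    (hequiv : ∀ (σ : Qbar ≃ₐ[K] Qbar) (m : M),
      ι (Multiplicative.ofAdd ((σ.restrictScalars ℚ : GQ) • m)) =
        galActR (OK K A) K σ (ι (Multiplicative.ofAdd m)))
    (hVS : ValSurj (OK K A) A0 A1 A01 t s e Qbar)
    (hW : ∀ m, 𝒞.W Qbar (ι m))
    (h₀ : letI := algebraOKA K A
      haveI := isScalarTower_OKA K A
      ∀ (ξ : ClR (OK K A) A0 A1 A01 t s A) (m : Multiplicative M), ξ ∈ PicZeroR e A →
        bcR (IsScalarTower.toAlgHom (OK K A) A Qbar) ξ = ι m →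
        𝒞.W (IsLocalRing.ResidueField A) (bcR (resV A) ξ)) :
    GeoInput l M := by
  letI : MulAction (Qbar ≃ₐ[K] Qbar) M := resMulAction K M
  letI := algebraOKA K A
  haveI := isScalarTower_OKA K A
  haveI := isGalois_K_Qbar K
  haveI : IsDiscreteValuationRing (OK K A) :=
    Fermat.Agent.RED.DESC.NumberFieldDVR27.isDiscreteValuationRing_AK A K hl hA
  have hAdm : Admissible Qbar 𝒞 (Set.range ι) :=
    admissible_range_of_one K 𝒞 ι hequiv hW A (liesOverBase_OKA K A) h₀
  exact geoInput_of_chart l M K hfin hnorm hunr A hA A0 A1 A01 t s e hmul 𝒞 ι hinj hmem hequiv hVS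
    hAdm

end Fermat.Agent.FFJ.Order.GeoWireOne77
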