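/-
Programme FFJ (S19), chapter ORDER / brick ADM.  Owner: helper77.  Mathlib only.

**Conjugacy of valuation subrings.**  `O` a valuation ring with fraction field `F`, `Ω/F` a Galois
extension (possibly infinite).  Two valuation subrings `V, V'` of `Ω` lying over `O` (`V ∩ F = O`) are
conjugate under `Aut(Ω/F)` (`exists_algEquiv_map_eq`).  This generalises `TW/Primes/PlaceTrans52` (the
case `ℤ_(ℓ) ⊆ ℚ ⊆ ℚ̄`): centres on the integral closure `Obar` of `O` in `Ω`, Mathlib's
`Algebra.IsInvariant.exists_smul_of_under_eq_of_profinite`, and the numerator/denominator lemma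
`exists_num_den` (`V` is the localisation of `Obar` at its centre).

Also the dichotomy `eq_top_or_liesOverBase`: for `O` a discrete valuation ring and `Ω/F` algebraic, a
valuation subring of `Ω` containing `O` is `Ω` or lies over `O`.
-/
import Mathlib

set_option autoImplicit false
set_option linter.style.haveILetI false
set_option linter.unusedSectionVars false

noncomputable section

namespace Fermat.Agent.FFJ.Order.ValConj77

open Polynomial
open scoped Pointwise

section Basic

variable {O Ω : Type*} [CommRing O] [Field Ω] [Algebra O Ω]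

/-- every element integral over `O` lies in every valuation subring containing the image of `O`. -/
theorem mem_of_isIntegral (V : ValuationSubring Ω) (hOV : ∀ a : O, algebraMap O Ω a ∈ V) {x : Ω}
    (hx : IsIntegral O x) : x ∈ V := by
  letI : Algebra O V := ((algebraMap O Ω).codRestrict V.toSubring hOV).toAlgebra
  haveI : IsScalarTower O V Ω := IsScalarTower.of_algebraMap_eq fun _ => rfl
  have h1 : IsIntegral V x := hx.tower_top
  obtain ⟨y, hy⟩ := IsIntegrallyClosed.isIntegral_iff.mp h1
  rw [← hy]
  exact y.2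

theorem aeval_mem (W : ValuationSubring Ω) (hOW : ∀ a : O, algebraMap O Ω a ∈ W) {x : Ω}
    (hx : x ∈ W) (g : O[X]) : aeval x g ∈ W := by
  induction g using Polynomial.induction_on with
  | C a =>
    rw [aeval_C]
    exact hOW a
  | add p q hp hq =>
    rw [map_add]
    exact add_mem hp hq
  | monomial n a h =>
    rw [pow_succ, ← mul_assoc, map_mul, aeval_X]
    exact mul_mem h hx

/-- Horner partial sums of a polynomial killing `x` lie in every valuation subring over `O`. -/
theorem horner_mem (W : ValuationSubring Ω) (hOW : ∀ a : O, algebraMap O Ω a ∈ W) (x : Ω)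
    (f : O[X]) (hf : aeval x f = 0) (k : ℕ) : aeval x (divX^[k] f) ∈ W := by
  by_cases hx : x ∈ W
  · exact aeval_mem W hOW hx _
  · have hx0 : x ≠ 0 := by
      rintro rfl
      exact hx W.zero_mem
    have hxinv : x⁻¹ ∈ W := (W.mem_or_inv_mem x).resolve_left hx
    induction k with
    | zero =>
      rw [Function.iterate_zero, id, hf]
      exact W.zero_mem
    | succ k ih =>
      rw [Function.iterate_succ_apply']
      set g := divX^[k] f with hg
      have h1 : aeval x g = aeval x (divX g) * x + algebraMap O Ω (g.coeff 0) := by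
        conv_lhs => rw [← divX_mul_X_add g]
        rw [map_add, map_mul, aeval_X, aeval_C]
      have h2 : aeval x (divX g) = (aeval x g - algebraMap O Ω (g.coeff 0)) * x⁻¹ := by
        rw [h1, add_sub_cancel_right, mul_assoc, mul_inv_cancel₀ hx0, mul_one]
      rw [h2]
      exact mul_mem (sub_mem ih (hOW _)) hxinv

/-- An element of `Ω` lying in every valuation subring that contains the image of `O` is integral
over `O`. -/
theorem isIntegral_of_forall_mem' (x : Ω)
    (h : ∀ V : ValuationSubring Ω, (∀ a : O, algebraMap O Ω a ∈ V) → x ∈ V) : IsIntegral O x := by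
  have h1 : x ∈ (⨅ V : {V : ValuationSubring Ω // Set.range (algebraMap O Ω) ⊆ V.toSubring},
      V.1.toSubring) := by
    rw [Subring.mem_iInf]
    rintro ⟨V, hV⟩
    exact h V fun a => hV ⟨a, rfl⟩
  rw [iInf_valuationSubring_superset] at h1
  have h2 : IsIntegral (Subring.closure (Set.range (algebraMap O Ω))) x := h1
  obtain ⟨p, hp, hpx⟩ := h2
  have hcl : Subring.closure (Set.range (algebraMap O Ω)) = (algebraMap O Ω).range := by
    rw [← RingHom.coe_range, Subring.closure_eq]
  have hlift : p ∈ Polynomial.lifts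
      ((algebraMap O Ω).codRestrict (Subring.closure (Set.range (algebraMap O Ω)))
        (fun a => Subring.subset_closure ⟨a, rfl⟩)) := by
    rw [Polynomial.mem_lifts]
    refine Polynomial.map_surjective _ ?_ p
    rintro ⟨y, hy⟩
    rw [hcl] at hy
    obtain ⟨a, rfl⟩ := hy
    exact ⟨a, rfl⟩
  obtain ⟨q, hq, -, hqm⟩ := Polynomial.lifts_and_natDegree_eq_and_monic hlift hp
  refine ⟨q, hqm, ?_⟩
  rw [← hq, Polynomial.eval₂_map] at hpx
  exact hpx

theorem coeff_iterate_divX' (f : O[X]) (k n : ℕ) : (divX^[k] f).coeff n = f.coeff (n + k) := by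
  induction k generalizing n with
  | zero => simp
  | succ k ih =>
    rw [Function.iterate_succ_apply', coeff_divX, ih]
    congr 1
    ring

/-- in a valuation ring, a finite nonempty family has a member dividing all the others. -/
theorem exists_dvd_all [IsDomain O] [ValuationRing O] {ι : Type*} (s : Finset ι) (hs : s.Nonempty)
    (g : ι → O) : ∃ i ∈ s, ∀ j ∈ s, g i ∣ g j := by
  classical
  induction hs using Finset.Nonempty.cons_induction with
  | singleton a => exact ⟨a, Finset.mem_singleton_self a, fun j hj => by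
      rw [Finset.mem_singleton] at hj; rw [hj]⟩
  | cons a s ha hs ih =>
    obtain ⟨i, hi, hdiv⟩ := ih
    rcases ValuationRing.dvd_total (g a) (g i) with h | h
    · refine ⟨a, Finset.mem_cons_self a s, fun j hj => ?_⟩
      rcases Finset.mem_cons.mp hj with rfl | hj
      · exact dvd_rfl
      · exact h.trans (hdiv j hj)
    · refine ⟨i, Finset.mem_cons.mpr (Or.inr hi), fun j hj => ?_⟩
      rcases Finset.mem_cons.mp hj with rfl | hj
      · exact h
      · exact hdiv j hj

/-- an element algebraic over a valuation ring `O` (a domain mapping injectively) is killed by a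
polynomial over `O` one of whose coefficients is `1`. -/
theorem exists_poly_coeff_one [IsDomain O] [ValuationRing O]
    (hinj : Function.Injective (algebraMap O Ω)) {x : Ω} (hx : IsAlgebraic O x) :
    ∃ (f : O[X]) (i : ℕ), aeval x f = 0 ∧ f.coeff i = 1 := by
  obtain ⟨p, hp0, hp⟩ := hx
  have hsupp : p.support.Nonempty := by
    rw [Finset.nonempty_iff_ne_empty, Ne, Polynomial.support_eq_empty]
    exact hp0
  obtain ⟨i, hi, hdiv⟩ := exists_dvd_all p.support hsupp p.coeff
  have hci : p.coeff i ≠ 0 := Polynomial.mem_support_iff.mp hi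
  have hC : C (p.coeff i) ∣ p := by
    rw [C_dvd_iff_dvd_coeff]
    intro j
    by_cases hj : j ∈ p.support
    · exact hdiv j hj
    · rw [Polynomial.notMem_support_iff.mp hj]
      exact dvd_zero _
  obtain ⟨f, hf⟩ := hC
  refine ⟨f, i, ?_, ?_⟩
  · have h1 : algebraMap O Ω (p.coeff i) * aeval x f = 0 := by
      rw [← aeval_C (R := O) x, ← map_mul, ← hf, hp]
    rcases mul_eq_zero.mp h1 with h | h
    · exact absurd ((map_eq_zero_iff _ hinj).mp h) hci
    · exact h
  · have h1 : p.coeff i = p.coeff i * f.coeff i := by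
      conv_lhs => rw [hf, coeff_C_mul]
    have h2 : p.coeff i * f.coeff i = p.coeff i * 1 := by rw [← h1, mul_one]
    exact mul_left_cancel₀ hci h2

/-- a polynomial with non-unit coefficients takes values in the maximal ideal at points of `V`. -/
theorem aeval_mem_nonunits (V : ValuationSubring Ω)
    (hmV : ∀ a : O, ¬ IsUnit a → algebraMap O Ω a ∈ V.nonunits) {x : Ω} (hx : x ∈ V) (g : O[X])
    (hg : ∀ i, ¬ IsUnit (g.coeff i)) : aeval x g ∈ V.nonunits := by
  change V.valuation (aeval x g) < 1
  rw [aeval_eq_sum_range]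
  refine Valuation.map_sum_lt _ one_ne_zero fun i _ => ?_
  rw [Algebra.smul_def, map_mul, map_pow]
  have h1 : V.valuation (algebraMap O Ω (g.coeff i)) < 1 := hmV _ (hg i)
  have h2 : V.valuation x ^ i ≤ 1 := pow_le_one' ((V.valuation_le_one_iff _).mpr hx) i
  calc V.valuation (algebraMap O Ω (g.coeff i)) * V.valuation x ^ i
      ≤ V.valuation (algebraMap O Ω (g.coeff i)) * 1 := by gcongr
    _ < 1 := by simpa using h1

/-- **numerator/denominator**: every element of a valuation subring `V` of `Ω` dominating the
valuation ring `O` which is algebraic over `O` is a quotient `c / b` of elements integral over `O`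
with `b` a unit of `V`. -/
theorem exists_num_den [IsDomain O] [ValuationRing O] (hinj : Function.Injective (algebraMap O Ω))
    (V : ValuationSubring Ω) (hOV : ∀ a : O, algebraMap O Ω a ∈ V)
    (hmV : ∀ a : O, ¬ IsUnit a → algebraMap O Ω a ∈ V.nonunits) {x : Ω} (hxalg : IsAlgebraic O x)
    (hx : x ∈ V) :
    ∃ b c : Ω, IsIntegral O b ∧ IsIntegral O c ∧ b ∉ V.nonunits ∧ x * b = c := by
  classical
  obtain ⟨f, i, hfx, hi⟩ := exists_poly_coeff_one hinj hxalg
  have hiu : IsUnit (f.coeff i) := by rw [hi]; exact isUnit_one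
  have hile : i ≤ f.natDegree := by
    by_contra hlt
    push Not at hlt
    have := coeff_eq_zero_of_natDegree_lt hlt
    rw [hi] at this
    exact one_ne_zero this
  set j := Nat.findGreatest (fun i => IsUnit (f.coeff i)) f.natDegree with hj
  have hjspec : IsUnit (f.coeff j) :=
    Nat.findGreatest_spec (P := fun i => IsUnit (f.coeff i)) hile hiu
  have hjmax : ∀ k, j < k → ¬ IsUnit (f.coeff k) := by
    intro k hk
    by_cases hkn : k ≤ f.natDegree
    · exact Nat.findGreatest_is_greatest (P := fun i => IsUnit (f.coeff i)) hk hkn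
    · push Not at hkn
      rw [coeff_eq_zero_of_natDegree_lt hkn]
      exact not_isUnit_zero
  have hint : ∀ k, IsIntegral O (aeval x (divX^[k] f)) := fun k =>
    isIntegral_of_forall_mem' _ fun W hW => horner_mem W hW x f hfx k
  have hrec : ∀ k, aeval x (divX^[k] f) =
      aeval x (divX^[k+1] f) * x + algebraMap O Ω (f.coeff k) := by
    intro k
    rw [Function.iterate_succ_apply']
    conv_lhs => rw [← divX_mul_X_add (divX^[k] f)]
    rw [map_add, map_mul, aeval_X, aeval_C, coeff_iterate_divX', zero_add]
  refine ⟨aeval x (divX^[j] f), x * aeval x (divX^[j] f), hint j, ?_, ?_, rfl⟩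
  · rcases Nat.eq_zero_or_pos j with hj0 | hjpos
    · rw [hj0, Function.iterate_zero, id, hfx, mul_zero]
      exact isIntegral_zero
    · obtain ⟨j', hj'⟩ := Nat.exists_eq_succ_of_ne_zero hjpos.ne'
      have h1 := hrec j'
      have h2 : x * aeval x (divX^[j] f) =
          aeval x (divX^[j'] f) - algebraMap O Ω (f.coeff j') := by
        rw [h1, hj']
        ring
      rw [h2]
      exact (hint j').sub isIntegral_algebraMap
  · intro hb
    have hb' : V.valuation (aeval x (divX^[j] f)) < 1 := hb
    have hxv : V.valuation x ≤ 1 := (V.valuation_le_one_iff _).mpr hx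
    have htail0 : aeval x (divX^[j+1] f) ∈ V.nonunits :=
      aeval_mem_nonunits V hmV hx _ fun n => by
        rw [coeff_iterate_divX']
        exact hjmax _ (by omega)
    have htail : V.valuation (aeval x (divX^[j+1] f) * x) < 1 := by
      rw [map_mul]
      have h0 : V.valuation (aeval x (divX^[j+1] f)) < 1 := htail0
      calc V.valuation (aeval x (divX^[j+1] f)) * V.valuation x
          ≤ V.valuation (aeval x (divX^[j+1] f)) * 1 := by gcongr
        _ < 1 := by simpa using h0
    have haj : V.valuation (algebraMap O Ω (f.coeff j)) < 1 := by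
      have h2 : algebraMap O Ω (f.coeff j) =
          aeval x (divX^[j] f) - aeval x (divX^[j+1] f) * x := by
        rw [hrec j]
        ring
      rw [h2]
      exact lt_of_le_of_lt (Valuation.map_sub _ _ _) (max_lt hb' htail)
    obtain ⟨u, hu⟩ := hjspec.exists_right_inv
    have h1 : V.valuation (algebraMap O Ω (f.coeff j)) * V.valuation (algebraMap O Ω u) = 1 := by
      rw [← map_mul, ← map_mul, hu, map_one, map_one]
    have h3 : V.valuation (algebraMap O Ω u) ≤ 1 := (V.valuation_le_one_iff _).mpr (hOV u)
    have h4 : V.valuation (algebraMap O Ω (f.coeff j)) * V.valuation (algebraMap O Ω u) < 1 :=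
      calc V.valuation (algebraMap O Ω (f.coeff j)) * V.valuation (algebraMap O Ω u)
          ≤ V.valuation (algebraMap O Ω (f.coeff j)) * 1 := by gcongr
        _ < 1 := by simpa using haj
    rw [h1] at h4
    exact lt_irrefl _ h4

end Basic

section Galois

variable (O F : Type*) {Ω : Type*} [CommRing O] [Field F] [Field Ω]
  [Algebra O F] [Algebra F Ω] [Algebra O Ω] [IsScalarTower O F Ω]

/-- `V ∩ F = O`: the valuation subring `V` of `Ω` lies over (dominates) `O ⊆ F`. -/
def LiesOverBase (V : ValuationSubring Ω) : Prop :=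
  ∀ x : F, algebraMap F Ω x ∈ V ↔ x ∈ (algebraMap O F).range

variable {O F}

theorem LiesOverBase.algebraMap_mem {V : ValuationSubring Ω} (hV : LiesOverBase O F V) (a : O) :
    algebraMap O Ω a ∈ V := by
  rw [IsScalarTower.algebraMap_apply O F Ω]
  exact (hV _).mpr ⟨a, rfl⟩

theorem LiesOverBase.algebraMap_mem_nonunits [IsDomain O] [IsFractionRing O F]
    {V : ValuationSubring Ω} (hV : LiesOverBase O F V) (a : O) (ha : ¬ IsUnit a) :
    algebraMap O Ω a ∈ V.nonunits := by
  by_contra hnon
  have hmem := hV.algebraMap_mem a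
  have hv1 : V.valuation (algebraMap O Ω a) = 1 :=
    le_antisymm ((V.valuation_le_one_iff _).mpr hmem) (not_lt.mp hnon)
  have hinv : (algebraMap O Ω a)⁻¹ ∈ V := by
    rw [← V.valuation_le_one_iff, map_inv₀, hv1, inv_one]
  have h2 : algebraMap F Ω (algebraMap O F a)⁻¹ ∈ V := by
    rw [map_inv₀, ← IsScalarTower.algebraMap_apply O F Ω]
    exact hinv
  obtain ⟨a', ha'⟩ := (hV _).mp h2
  have ha0 : algebraMap O F a ≠ 0 := by
    intro h0
    rw [IsScalarTower.algebraMap_apply O F Ω, h0, map_zero, map_zero] at hv1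
    exact zero_ne_one hv1
  have h3 : algebraMap O F (a * a') = algebraMap O F 1 := by
    rw [map_mul, ha', mul_inv_cancel₀ ha0, map_one]
  exact ha (IsUnit.of_mul_eq_one a' (IsFractionRing.injective O F h3))

variable (O F Ω) in
/-- `Aut(Ω/F)` commutes with the scalar action of `O`. -/
theorem smulCommClass_aut : SMulCommClass (Ω ≃ₐ[F] Ω) O Ω :=
  ⟨fun g a x => by
    rw [Algebra.smul_def, Algebra.smul_def, AlgEquiv.smul_def, AlgEquiv.smul_def, map_mul,
      IsScalarTower.algebraMap_apply O F Ω, AlgEquiv.commutes]⟩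

attribute [local instance] smulCommClass_aut

variable (O Ω) in
/-- the integral closure of `O` in `Ω`. -/
abbrev Obar : Subalgebra O Ω := integralClosure O Ω

/-- The ring homomorphism from the integral closure of `O` to a valuation subring over `O`. -/
def toVal (V : ValuationSubring Ω) (hOV : ∀ a : O, algebraMap O Ω a ∈ V) : Obar O Ω →+* V :=
  (algebraMap (Obar O Ω) Ω).codRestrict V.toSubring (fun b => mem_of_isIntegral V hOV b.2)

/-- The centre of a valuation subring over `O` on the integral closure of `O`. -/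
def center (V : ValuationSubring Ω) (hOV : ∀ a : O, algebraMap O Ω a ∈ V) : Ideal (Obar O Ω) :=
  Ideal.comap (toVal V hOV) (IsLocalRing.maximalIdeal V)

theorem mem_center_iff (V : ValuationSubring Ω) (hOV : ∀ a : O, algebraMap O Ω a ∈ V)
    (b : Obar O Ω) : b ∈ center V hOV ↔ (b : Ω) ∈ V.nonunits := by
  rw [center, Ideal.mem_comap, ← ValuationSubring.coe_mem_nonunits_iff]
  rfl

instance center_isPrime (V : ValuationSubring Ω) (hOV : ∀ a : O, algebraMap O Ω a ∈ V) :
    (center V hOV).IsPrime :=
  Ideal.comap_isPrime (toVal V hOV) _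

theorem mem_under_center_iff [IsDomain O] [IsFractionRing O F] {V : ValuationSubring Ω}
    (hV : LiesOverBase O F V) (a : O) :
    a ∈ (center V hV.algebraMap_mem).under O ↔ ¬ IsUnit a := by
  rw [Ideal.under_def, Ideal.mem_comap, mem_center_iff]
  constructor
  · intro h hu
    obtain ⟨u, hu⟩ := hu.exists_right_inv
    have h0 : V.valuation (algebraMap O Ω a) < 1 := h
    have h1 : V.valuation (algebraMap O Ω a) * V.valuation (algebraMap O Ω u) = 1 := by
      rw [← map_mul, ← map_mul, hu, map_one, map_one]
    have h3 : V.valuation (algebraMap O Ω u) ≤ 1 :=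
      (V.valuation_le_one_iff _).mpr (hV.algebraMap_mem u)
    have h4 : V.valuation (algebraMap O Ω a) * V.valuation (algebraMap O Ω u) < 1 :=
      calc V.valuation (algebraMap O Ω a) * V.valuation (algebraMap O Ω u)
          ≤ V.valuation (algebraMap O Ω a) * 1 := by gcongr
        _ < 1 := by simpa using h0
    rw [h1] at h4
    exact lt_irrefl _ h4
  · intro h
    exact hV.algebraMap_mem_nonunits a h

section Profinite

variable [IsDomain O] [ValuationRing O] [IsFractionRing O F] [IsGalois F Ω]

/-- discrete topology on the integral closure. -/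
local instance instTopObar : TopologicalSpace (Obar O Ω) := ⊥

local instance : DiscreteTopology (Obar O Ω) := ⟨rfl⟩

theorem continuousSMul_Obar : ContinuousSMul (Ω ≃ₐ[F] Ω) (Obar O Ω) := by
  rw [continuousSMul_iff_stabilizer_isOpen]
  intro b
  have h := stabilizer_isOpen_of_isIntegral (K := F) (L := Ω) (b : Ω)
  convert h using 2
  ext g
  simp only [MulAction.mem_stabilizer_iff]
  constructor
  · intro hg
    have := congrArg Subtype.val hg
    simpa using this
  · intro hg
    apply Subtype.ext
    simpa using hg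

theorem isInvariant_Obar : Algebra.IsInvariant O (Obar O Ω) (Ω ≃ₐ[F] Ω) := by
  constructor
  intro b hb
  have hfix : ∀ g : Ω ≃ₐ[F] Ω, g (b : Ω) = (b : Ω) := by
    intro g
    have := congrArg Subtype.val (hb g)
    simpa using this
  have hbot : (b : Ω) ∈ (⊥ : IntermediateField F Ω) :=
    (InfiniteGalois.mem_bot_iff_fixed (b : Ω)).mpr hfix
  obtain ⟨r, hr⟩ := IntermediateField.mem_bot.mp hbot
  have hint : IsIntegral O r := by
    have hb' : IsIntegral O (algebraMap F Ω r) := hr ▸ b.2
    exact (isIntegral_algebraMap_iff (algebraMap F Ω).injective).mp hb'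
  obtain ⟨n, hn⟩ := IsIntegrallyClosed.isIntegral_iff.mp hint
  refine ⟨n, Subtype.ext ?_⟩
  rw [← hr, ← hn]
  exact (IsScalarTower.algebraMap_apply O F Ω n)

attribute [local instance] continuousSMul_Obar isInvariant_Obar

/-- If `g` maps the centre of `V` to the centre of `V'`, it maps `V` into `V'`. -/
theorem apply_mem_of_center_eq {V V' : ValuationSubring Ω} (hV : LiesOverBase O F V)
    (hV' : LiesOverBase O F V') (g : Ω ≃ₐ[F] Ω)
    (h : center V' hV'.algebraMap_mem = g • center V hV.algebraMap_mem) {x : Ω} (hx : x ∈ V) :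
    g x ∈ V' := by
  have hinj : Function.Injective (algebraMap O Ω) := by
    rw [IsScalarTower.algebraMap_eq O F Ω]
    exact (algebraMap F Ω).injective.comp (IsFractionRing.injective O F)
  have hxalg : IsAlgebraic O x :=
    (IsFractionRing.isAlgebraic_iff O F Ω).mpr (Algebra.IsAlgebraic.isAlgebraic x)
  obtain ⟨b, c, hb, hc, hbV, hxb⟩ := exists_num_den hinj V hV.algebraMap_mem
    hV.algebraMap_mem_nonunits hxalg hx
  let b' : Obar O Ω := ⟨b, hb⟩
  let c' : Obar O Ω := ⟨c, hc⟩
  have hb'Q : b' ∉ center V hV.algebraMap_mem := fun h' =>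
    hbV ((mem_center_iff V hV.algebraMap_mem b').mp h')
  have hgb : g • b' ∉ center V' hV'.algebraMap_mem := by
    rw [h]
    intro h'
    exact hb'Q (Ideal.smul_mem_pointwise_smul_iff.mp h')
  have hgbV : g b ∉ V'.nonunits := fun h' =>
    hgb ((mem_center_iff V' hV'.algebraMap_mem (g • b')).mpr h')
  have hgb_mem : g b ∈ V' := mem_of_isIntegral V' hV'.algebraMap_mem (g • b').2
  have hgc_mem : g c ∈ V' := mem_of_isIntegral V' hV'.algebraMap_mem (g • c').2
  have hv1 : V'.valuation (g b) = 1 :=
    le_antisymm ((V'.valuation_le_one_iff _).mpr hgb_mem) (not_lt.mp hgbV)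
  have hgb0 : g b ≠ 0 := by
    intro h0
    rw [h0, map_zero] at hv1
    exact zero_ne_one hv1
  have hinv : (g b)⁻¹ ∈ V' := by
    rw [← V'.valuation_le_one_iff, map_inv₀, hv1, inv_one]
  have hx' : g x = g c * (g b)⁻¹ := by
    rw [← hxb, map_mul]
    field_simp
  rw [hx']
  exact mul_mem hgc_mem hinv

/-- **Conjugacy.** Two valuation subrings of `Ω` lying over the valuation ring `O ⊆ F` are
conjugate under `Aut(Ω/F)` (`Ω/F` Galois, possibly infinite). -/
theorem exists_algEquiv_map_eq {V V' : ValuationSubring Ω} (hV : LiesOverBase O F V)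
    (hV' : LiesOverBase O F V') : ∃ σ : Ω ≃ₐ[F] Ω, ∀ x, x ∈ V ↔ σ x ∈ V' := by
  have hPQ : (center V hV.algebraMap_mem).under O = (center V' hV'.algebraMap_mem).under O := by
    ext a
    rw [mem_under_center_iff hV, mem_under_center_iff hV']
  obtain ⟨g, hg⟩ := Algebra.IsInvariant.exists_smul_of_under_eq_of_profinite (A := O)
    (G := Ω ≃ₐ[F] Ω) (center V hV.algebraMap_mem) (center V' hV'.algebraMap_mem) hPQ
  have hg' : center V hV.algebraMap_mem = g⁻¹ • center V' hV'.algebraMap_mem := by
    rw [hg, inv_smul_smul]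
  refine ⟨g, fun x => ⟨fun hx => apply_mem_of_center_eq hV hV' g hg hx, fun hx => ?_⟩⟩
  have := apply_mem_of_center_eq hV' hV g⁻¹ hg' hx
  simpa using this

end Profinite


/-- a valuation subring of an algebraic extension `Ω/F` containing `F` is everything. -/
theorem eq_top_of_forall_mem [Algebra.IsAlgebraic F Ω] (V : ValuationSubring Ω)
    (h : ∀ x : F, algebraMap F Ω x ∈ V) : V = ⊤ := by
  rw [eq_top_iff]
  intro y _
  exact mem_of_isIntegral V h (Algebra.IsAlgebraic.isAlgebraic (R := F) y).isIntegral

/-- **Dichotomy** over a discrete valuation ring `O` with fraction field `F`: a valuation subring of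
an algebraic extension `Ω/F` containing `O` is `Ω` itself or lies over `O`. -/
theorem eq_top_or_liesOverBase [IsDomain O] [IsDiscreteValuationRing O] [IsFractionRing O F]
    [Algebra.IsAlgebraic F Ω] (V : ValuationSubring Ω) (hOV : ∀ a : O, algebraMap O Ω a ∈ V) :
    V = ⊤ ∨ LiesOverBase O F V := by
  by_cases hall : ∀ x : F, algebraMap F Ω x ∈ V
  · exact Or.inl (eq_top_of_forall_mem V hall)
  refine Or.inr fun x => ⟨fun hx => ?_, ?_⟩
  · by_contra hxO
    apply hall
    obtain ⟨ϖ, hϖ⟩ := IsDiscreteValuationRing.exists_irreducible O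
    have hinjF : Function.Injective (algebraMap O F) := IsFractionRing.injective O F
    -- every element of `F` outside `O` is the inverse of `u ϖ ^ (k+1)`
    have key : ∀ y : F, y ∉ (algebraMap O F).range →
        ∃ (u : Oˣ) (k : ℕ), y * algebraMap O F ((u : O) * ϖ ^ (k + 1)) = 1 := by
      intro y hy
      have hy0 : y ≠ 0 := by
        rintro rfl
        exact hy ⟨0, map_zero _⟩
      rcases ValuationRing.isInteger_or_isInteger O y with ⟨a, ha⟩ | ⟨a, ha⟩
      · exact absurd ⟨a, ha⟩ hy
      · have ha0 : a ≠ 0 := by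
          rintro rfl
          rw [map_zero] at ha
          exact inv_ne_zero hy0 ha.symm
        obtain ⟨n, u, hu⟩ := IsDiscreteValuationRing.eq_unit_mul_pow_irreducible ha0 hϖ
        rcases Nat.eq_zero_or_pos n with hn | hn
        · exfalso
          apply hy
          refine ⟨((u⁻¹ : Oˣ) : O), ?_⟩
          have h1 : algebraMap O F a * algebraMap O F ((u⁻¹ : Oˣ) : O) = 1 := by
            rw [← map_mul, hu, hn, pow_zero, mul_one, Units.mul_inv, map_one]
          rw [ha] at h1
          exact (eq_of_inv_mul_eq_one h1).symm ▸ rfl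
        · obtain ⟨k, rfl⟩ := Nat.exists_eq_succ_of_ne_zero hn.ne'
          refine ⟨u, k, ?_⟩
          rw [← hu, ha, mul_inv_cancel₀ hy0]
    obtain ⟨u, k, huk⟩ := key x hxO
    -- `ϖ⁻¹ ∈ V`
    have hϖV : (algebraMap O Ω ϖ)⁻¹ ∈ V := by
      have h1 : algebraMap F Ω x * algebraMap O Ω ((u : O) * ϖ ^ (k + 1)) = 1 := by
        rw [IsScalarTower.algebraMap_apply O F Ω, ← map_mul, huk, map_one]
      have hϖ0 : algebraMap O Ω ϖ ≠ 0 := by
        intro h0
        rw [map_mul, map_pow, h0, pow_succ, mul_zero, mul_zero, mul_zero] at h1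
        exact zero_ne_one h1
      have h3 : algebraMap F Ω x * algebraMap O Ω ((u : O) * ϖ ^ k) * algebraMap O Ω ϖ = 1 := by
        rw [← h1, mul_assoc, ← map_mul]
        congr 2
        ring
      have h2 : (algebraMap O Ω ϖ)⁻¹ = algebraMap F Ω x * algebraMap O Ω ((u : O) * ϖ ^ k) :=
        (eq_inv_of_mul_eq_one_left h3).symm
      rw [h2]
      exact mul_mem hx (hOV _)
    intro y
    by_cases hyO : y ∈ (algebraMap O F).range
    · obtain ⟨a, rfl⟩ := hyO
      rw [← IsScalarTower.algebraMap_apply O F Ω]
      exact hOV a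
    · obtain ⟨u', k', hu'⟩ := key y hyO
      have h1 : algebraMap F Ω y * algebraMap O Ω ((u' : O) * ϖ ^ (k' + 1)) = 1 := by
        rw [IsScalarTower.algebraMap_apply O F Ω, ← map_mul, hu', map_one]
      have h2 : algebraMap F Ω y =
          algebraMap O Ω ((u'⁻¹ : Oˣ) : O) * ((algebraMap O Ω ϖ)⁻¹) ^ (k' + 1) := by
        have hϖ0 : algebraMap O Ω ϖ ≠ 0 := by
          intro h0
          rw [map_mul, map_pow, h0, pow_succ, mul_zero, mul_zero, mul_zero] at h1
          exact zero_ne_one h1
        have hu0 : algebraMap O Ω (u' : O) * algebraMap O Ω ((u'⁻¹ : Oˣ) : O) = 1 := by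
          rw [← map_mul, Units.mul_inv, map_one]
        rw [map_mul, map_pow] at h1
        have h3 : algebraMap F Ω y = (algebraMap O Ω (u' : O) * algebraMap O Ω ϖ ^ (k' + 1))⁻¹ :=
          eq_inv_of_mul_eq_one_left h1
        rw [h3, mul_inv, inv_pow]
        congr 1
        exact (eq_inv_of_mul_eq_one_right hu0).symm
      rw [h2]
      exact mul_mem (hOV _) (pow_mem hϖV _)
  · rintro ⟨a, rfl⟩
    rw [← IsScalarTower.algebraMap_apply O F Ω]
    exact hOV a

end Galois

end Fermat.Agent.FFJ.Order.ValConj77
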