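/-
Programme FFJ (S19), chapter ORDER / brick ADM.  Owner: helper77.

**`Spec35.Admissible` from ONE valuation subring.**  `O` a discrete valuation ring with fraction field
`F`, `Ω/F` Galois.  Every valuation subring `V ⊇ O` of `Ω` is `Ω` itself or a conjugate `σ V₀` of a fixed
valuation subring `V₀` lying over `O` (`ValConj77`).  Hence, for a set `T` of `Ω`-points stable under
`Aut(Ω/F)`, the chart contains `T` and all its specialisations as soon as it contains `T` and the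
specialisations at `V₀` (`admissible_of_one`): transport along `σ⁻¹ : V ≃ V₀` and `W_iff`.
-/
import Mathlib
import Fermat.Agent.FFJ.Order.Order77
import Fermat.Agent.FFJ.Order.ValConj77

set_option autoImplicit false
set_option linter.style.haveILetI false
set_option linter.unusedSectionVars false

noncomputable section

namespace Fermat.Agent.FFJ.Order.AdmOne77

open scoped TensorProduct
open Fermat.Agent.JAC.Core.Defs36 Fermat.Agent.JAC.Grp.Diag33 Fermat.Agent.FFJ.Core.ClR35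
  Fermat.Agent.FFJ.Core.ClRBc35 Fermat.Agent.FFJ.Spec.Spec35 Fermat.Agent.FFJ.Order.Order77
  Fermat.Agent.FFJ.Order.ValConj77

section Val

variable {F Ω : Type*} [Field F] [Field Ω] [Algebra F Ω]

/-- a conjugation `σ V = V'` maps non-units to non-units. -/
theorem map_mem_nonunits {V V' : ValuationSubring Ω} (σ : Ω ≃ₐ[F] Ω)
    (hσ : ∀ x, x ∈ V ↔ σ x ∈ V') {x : Ω} (hx : x ∈ V.nonunits) : σ x ∈ V'.nonunits := by
  have h1 : x = 0 ∨ x⁻¹ ∉ V := by
    have := (V.inv_mem_nonunits_iff (x := x⁻¹)).mp (by rwa [inv_inv])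
    rcases this with h | h
    · exact Or.inl (inv_eq_zero.mp h)
    · exact Or.inr h
  have h2 : (σ x)⁻¹⁻¹ ∈ V'.nonunits := by
    rw [V'.inv_mem_nonunits_iff]
    rcases h1 with h | h
    · left
      rw [h, map_zero, inv_zero]
    · right
      rw [← map_inv₀]
      exact fun h' => h ((hσ _).mpr h')
  rwa [inv_inv] at h2

end Val

section Main

variable {O : Type} [CommRing O] {A0 A1 A01 : Type} [CommRing A0] [CommRing A1] [CommRing A01]
  [Algebra O A0] [Algebra O A1] [Algebra O A01] [Algebra A0 A01] [Algebra A1 A01]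
  [IsScalarTower O A0 A01] [IsScalarTower O A1 A01] {t : A0} {s : A1}
  [IsLocalization.Away t A01] [IsLocalization.Away s A01] {e : A01 →ₐ[O] O}
  (F : Type) {Ω : Type} [Field F] [Field Ω] [Algebra O F] [Algebra F Ω] [Algebra O Ω]
  [IsScalarTower O F Ω]

/-- the residue map of a valuation subring, as an `O`-algebra map. -/
abbrev resV (V : ValuationSubring Ω) [Algebra O V] : V →ₐ[O] IsLocalRing.ResidueField V :=
  IsScalarTower.toAlgHom O V (IsLocalRing.ResidueField V)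

/-- **Transport of the chart condition along a conjugation** `σ : V ≃ V'`. -/
theorem W_of_conj (𝒞 : ChartPkg O A0 A1 A01 t s e) (V V' : ValuationSubring Ω) [Algebra O V]
    [IsScalarTower O V Ω] [Algebra O V'] [IsScalarTower O V' Ω] (σ : Ω ≃ₐ[F] Ω)
    (hσ : ∀ x, x ∈ V ↔ σ x ∈ V') (ξ : ClR O A0 A1 A01 t s V) (hξ : ξ ∈ PicZeroR e V) :
    ∃ τ : V →ₐ[O] V', (IsScalarTower.toAlgHom O V' Ω).comp τ =
        (galHom O F σ).comp (IsScalarTower.toAlgHom O V Ω) ∧
      (𝒞.W (IsLocalRing.ResidueField V') (bcR (resV V') (bcR τ ξ)) →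
        𝒞.W (IsLocalRing.ResidueField V) (bcR (resV V) ξ)) := by
  have hcoe : ∀ (W : ValuationSubring Ω) [Algebra O W] [IsScalarTower O W Ω] (a : O),
      ((algebraMap O W a : W) : Ω) = algebraMap O Ω a := fun W _ _ a =>
    (IsScalarTower.algebraMap_apply O W Ω a).symm
  let τ : V →ₐ[O] V' :=
    { toFun := fun x => ⟨σ x, (hσ x).mp x.2⟩
      map_one' := Subtype.ext (map_one σ)
      map_mul' := fun x y => Subtype.ext (map_mul σ (x : Ω) (y : Ω))
      map_zero' := Subtype.ext (map_zero σ)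
      map_add' := fun x y => Subtype.ext (map_add σ (x : Ω) (y : Ω))
      commutes' := fun a => Subtype.ext (by
        change σ ((algebraMap O V a : V) : Ω) = ((algebraMap O V' a : V') : Ω)
        rw [hcoe V a, hcoe V' a, IsScalarTower.algebraMap_apply O F Ω, AlgEquiv.commutes]) }
  have hτ : ∀ x : V, ((τ x : V') : Ω) = σ x := fun x => rfl
  refine ⟨τ, AlgHom.ext fun x => rfl, fun hW => ?_⟩
  have hI : ∀ a ∈ IsLocalRing.maximalIdeal V, ((resV V').comp τ) a = 0 := by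
    intro a ha
    change IsLocalRing.residue V' (τ a) = 0
    rw [IsLocalRing.residue_eq_zero_iff, ← ValuationSubring.coe_mem_nonunits_iff, hτ]
    exact map_mem_nonunits σ hσ (ValuationSubring.coe_mem_nonunits_iff.mpr ha)
  let τbar : IsLocalRing.ResidueField V →ₐ[O] IsLocalRing.ResidueField V' :=
    Ideal.Quotient.liftₐ (IsLocalRing.maximalIdeal V) ((resV V').comp τ) hI
  have hτbar : τbar.comp (resV V) = (resV V').comp τ := AlgHom.ext fun x => rfl
  rw [← 𝒞.W_iff _ _ τbar _ (picZeroR_bcR _ hξ), bcR_bc, hτbar, ← bcR_bc]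
  exact hW

/-- the chart condition at `V = Ω` (more generally at a valuation subring which is a field). -/
theorem W_of_top (𝒞 : ChartPkg O A0 A1 A01 t s e) (V : ValuationSubring Ω) [Algebra O V]
    [IsScalarTower O V Ω] (hV : V = ⊤) (ξ : ClR O A0 A1 A01 t s V) (hξ : ξ ∈ PicZeroR e V)
    (hW : 𝒞.W Ω (bcR (IsScalarTower.toAlgHom O V Ω) ξ)) :
    𝒞.W (IsLocalRing.ResidueField V) (bcR (resV V) ξ) := by
  have hmem : ∀ y : Ω, y ∈ V := fun y => by
    rw [hV]
    exact ValuationSubring.mem_top _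
  have hI : ∀ a ∈ IsLocalRing.maximalIdeal V, (IsScalarTower.toAlgHom O V Ω) a = 0 := by
    intro a ha
    have h1 : (a : Ω) ∈ V.nonunits := ValuationSubring.coe_mem_nonunits_iff.mpr ha
    have h2 := (V.inv_mem_nonunits_iff (x := (a : Ω)⁻¹)).mp (by rwa [inv_inv])
    rcases h2 with h | h
    · exact inv_eq_zero.mp h
    · exact absurd (hmem _) h
  let ψ : IsLocalRing.ResidueField V →ₐ[O] Ω :=
    Ideal.Quotient.liftₐ (IsLocalRing.maximalIdeal V) (IsScalarTower.toAlgHom O V Ω) hI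
  have hψ : ψ.comp (resV V) = IsScalarTower.toAlgHom O V Ω := AlgHom.ext fun x => rfl
  rw [← 𝒞.W_iff _ _ ψ _ (picZeroR_bcR _ hξ), bcR_bc, hψ]
  exact hW

/-- **`Admissible` from ONE valuation subring `V₀` lying over `O`.** -/
theorem admissible_of_one [IsDomain O] [IsDiscreteValuationRing O] [IsFractionRing O F]
    [IsGalois F Ω] (𝒞 : ChartPkg O A0 A1 A01 t s e) (T : Set (ClR O A0 A1 A01 t s Ω))
    (hTgal : ∀ (σ : Ω ≃ₐ[F] Ω), ∀ ξ ∈ T, galActR O F σ ξ ∈ T)
    (hW : ∀ ξ ∈ T, 𝒞.W Ω ξ)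
    (V₀ : ValuationSubring Ω) [Algebra O V₀] [IsScalarTower O V₀ Ω] (hV₀ : LiesOverBase O F V₀)
    (h₀ : ∀ ξ : ClR O A0 A1 A01 t s V₀, ξ ∈ PicZeroR e V₀ →
      bcR (IsScalarTower.toAlgHom O V₀ Ω) ξ ∈ T →
      𝒞.W (IsLocalRing.ResidueField V₀) (bcR (resV V₀) ξ)) :
    Admissible Ω 𝒞 T := by
  refine ⟨hW, ?_⟩
  intro V _ _ ξ hξ hξT
  have hOV : ∀ a : O, algebraMap O Ω a ∈ V := fun a => by
    rw [IsScalarTower.algebraMap_apply O V Ω]
    exact (algebraMap O V a).2
  rcases eq_top_or_liesOverBase (F := F) V hOV with htop | hV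
  · exact W_of_top 𝒞 V htop ξ hξ (hW _ hξT)
  · obtain ⟨σ, hσ⟩ := exists_algEquiv_map_eq hV hV₀
    obtain ⟨τ, hτ, himp⟩ := W_of_conj F 𝒞 V V₀ σ hσ ξ hξ
    apply himp
    apply h₀ _ (picZeroR_bcR _ hξ)
    rw [bcR_bc, hτ, ← bcR_bc]
    exact hTgal σ _ hξT

/-- `Admissible` for the image of a Galois-equivariant map, from ONE valuation subring. -/
theorem admissible_range_of_one [IsDomain O] [IsDiscreteValuationRing O] [IsFractionRing O F]
    [IsGalois F Ω] (𝒞 : ChartPkg O A0 A1 A01 t s e) {M : Type} [AddCommGroup M]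
    [MulAction (Ω ≃ₐ[F] Ω) M] (ι : Multiplicative M →* ClR O A0 A1 A01 t s Ω)
    (hequiv : ∀ (σ : Ω ≃ₐ[F] Ω) (m : M),
      ι (Multiplicative.ofAdd (σ • m)) = galActR O F σ (ι (Multiplicative.ofAdd m)))
    (hW : ∀ m, 𝒞.W Ω (ι m))
    (V₀ : ValuationSubring Ω) [Algebra O V₀] [IsScalarTower O V₀ Ω] (hV₀ : LiesOverBase O F V₀)
    (h₀ : ∀ (ξ : ClR O A0 A1 A01 t s V₀) (m : Multiplicative M), ξ ∈ PicZeroR e V₀ →
      bcR (IsScalarTower.toAlgHom O V₀ Ω) ξ = ι m →
      𝒞.W (IsLocalRing.ResidueField V₀) (bcR (resV V₀) ξ)) :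
    Admissible Ω 𝒞 (Set.range ι) := by
  refine admissible_of_one F 𝒞 (Set.range ι) ?_ ?_ V₀ hV₀ ?_
  · rintro σ _ ⟨m, rfl⟩
    exact ⟨Multiplicative.ofAdd (σ • Multiplicative.toAdd m), by
      rw [hequiv]
      rfl⟩
  · rintro _ ⟨m, rfl⟩
    exact hW m
  · rintro ξ hξ ⟨m, hm⟩
    exact h₀ ξ m hξ hm.symm

end Main

end Fermat.Agent.FFJ.Order.AdmOne77
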