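/-
Programme FFJ (S19), chapter ORDER (plan #1229).  helper75.  Mathlib only.

Commutative-algebra bricks for `isFunOrder_of_chartPkg`:

* `exists_valuationSubring_of_isPrime` (PV1): if finitely many ring maps `f i : C →+* Ω` into a field
  are jointly injective, every prime `𝔓` of `C` is the contraction of the maximal ideal of a valuation
  subring `V` of `Ω` containing `f i C`, for some `i`.
  (Applied to `C = H ⊗[O] H`, `f (m, m') = ev_m ⊗ ev_m'`.)
* `exists_residueField_hom` (PV2): in that situation, the induced map of residue fields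
  `κ(𝔓) → κ(V)`.
* `isIntegral_of_forall_mem_valuationSubring`, `finite_range_of_isIntegral` (PV3): values lying in every
  valuation subring over `O` are integral over `O`; the image of a finite type `O`-algebra in a finite
  product `T → Ω` with integral values is a finite `O`-module.
-/
import Mathlib

set_option autoImplicit false
set_option linter.style.haveILetI false

namespace Fermat.Agent.FFJ.Order.PrimeVal75

open IsLocalRing

/-! ### PV1: primes are contractions from valuation subrings -/

section PV1

variable {C Ω : Type*} [CommRing C] [Field Ω]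

/-- A ring map to a field whose kernel lies in the prime `𝔓` factors through a valuation subring
`V` whose maximal ideal contracts to `𝔓`. -/
theorem exists_valuationSubring_of_ker_le (φ : C →+* Ω) (𝔓 : Ideal C) [𝔓.IsPrime]
    (hker : RingHom.ker φ ≤ 𝔓) :
    ∃ V : ValuationSubring Ω, (∀ c, φ c ∈ V) ∧ ∀ c, c ∈ 𝔓 ↔ φ c ∈ V.nonunits := by
  have hunit : ∀ y : 𝔓.primeCompl, IsUnit (φ y) := fun y =>
    isUnit_iff_ne_zero.mpr fun h => y.2 (hker h)
  let g : Localization.AtPrime 𝔓 →+* Ω := IsLocalization.lift hunit
  have hg : ∀ c, g (algebraMap C (Localization.AtPrime 𝔓) c) = φ c := fun c =>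
    IsLocalization.lift_eq hunit c
  obtain ⟨V, hV, hloc⟩ := IsLocalRing.exists_factor_valuationRing g
  have hmemV : ∀ c, φ c ∈ V := fun c => by
    rw [← hg]
    exact hV _
  refine ⟨V, hmemV, fun c => ?_⟩
  rw [ValuationSubring.mem_nonunits_iff_exists_mem_maximalIdeal,
    ← IsLocalization.AtPrime.to_map_mem_maximal_iff (Localization.AtPrime 𝔓) 𝔓 c]
  constructor
  · intro h
    refine ⟨hmemV c, ?_⟩
    rw [mem_maximalIdeal, mem_nonunits_iff] at h ⊢
    intro hu
    apply h
    have : (g.codRestrict V.toSubring hV) (algebraMap C (Localization.AtPrime 𝔓) c)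
        = (⟨φ c, hmemV c⟩ : V) := Subtype.ext (hg c)
    rw [← this] at hu
    exact (isUnit_map_iff (g.codRestrict V.toSubring hV) _).mp hu
  · rintro ⟨hc, h⟩
    rw [mem_maximalIdeal, mem_nonunits_iff] at h ⊢
    intro hu
    apply h
    have : (g.codRestrict V.toSubring hV) (algebraMap C (Localization.AtPrime 𝔓) c)
        = (⟨φ c, hc⟩ : V) := Subtype.ext (hg c)
    rw [← this]
    exact hu.map _

/-- **PV1.**  If finitely many ring maps `f i : C →+* Ω` into a field are jointly injective, every
prime of `C` is the contraction of the maximal ideal of a valuation subring of `Ω` along some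
`f i`. -/
theorem exists_valuationSubring_of_isPrime {I : Type*} [Finite I] (f : I → C →+* Ω)
    (hf : ∀ c, (∀ i, f i c = 0) → c = 0) (𝔓 : Ideal C) [h𝔓 : 𝔓.IsPrime] :
    ∃ (i : I) (V : ValuationSubring Ω), (∀ c, f i c ∈ V) ∧ ∀ c, c ∈ 𝔓 ↔ f i c ∈ V.nonunits := by
  classical
  haveI := Fintype.ofFinite I
  have hinf : (Finset.univ : Finset I).inf (fun i => RingHom.ker (f i)) ≤ 𝔓 := by
    intro c hc
    have hc0 : c = 0 := hf c fun i => by
      have hle : (Finset.univ : Finset I).inf (fun i => RingHom.ker (f i)) ≤ RingHom.ker (f i) :=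
        Finset.inf_le (f := fun i => RingHom.ker (f i)) (Finset.mem_univ i)
      exact hle hc
    rw [hc0]
    exact 𝔓.zero_mem
  obtain ⟨i, -, hi⟩ := (Ideal.IsPrime.inf_le' h𝔓).mp hinf
  obtain ⟨V, hV⟩ := exists_valuationSubring_of_ker_le (f i) 𝔓 hi
  exact ⟨i, V, hV⟩

end PV1

/-! ### PV2: residue fields -/

section PV2

variable {C Ω : Type*} [CommRing C] [Field Ω]

/-- **PV2.**  If the prime `𝔓` of `C` is the contraction of the maximal ideal of the valuation
subring `V` along `φ : C →+* Ω`, there is an induced map of residue fields `κ(𝔓) → κ(V)`. -/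
theorem exists_residueField_hom (φ : C →+* Ω) (V : ValuationSubring Ω) (hV : ∀ c, φ c ∈ V)
    (𝔓 : Ideal C) [𝔓.IsPrime] (h𝔓 : ∀ c, c ∈ 𝔓 ↔ φ c ∈ V.nonunits) :
    ∃ ι : 𝔓.ResidueField →+* IsLocalRing.ResidueField V,
      ∀ c, ι (algebraMap C 𝔓.ResidueField c) = IsLocalRing.residue V ⟨φ c, hV c⟩ := by
  let φ' : C →+* V := φ.codRestrict V.toSubring hV
  have hmem : ∀ c, c ∈ 𝔓 ↔ φ' c ∈ maximalIdeal V := fun c => by
    rw [h𝔓, ValuationSubring.mem_nonunits_iff_exists_mem_maximalIdeal]
    exact ⟨fun ⟨_, h⟩ => h, fun h => ⟨hV c, h⟩⟩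
  have hunit : ∀ y : 𝔓.primeCompl, IsUnit (φ' y) := fun y => by
    by_contra h
    exact y.2 ((hmem y).mpr ((mem_maximalIdeal _).mpr h))
  let g : Localization.AtPrime 𝔓 →+* V := IsLocalization.lift hunit
  have hg : ∀ c, g (algebraMap C (Localization.AtPrime 𝔓) c) = φ' c := fun c =>
    IsLocalization.lift_eq hunit c
  haveI : IsLocalHom g := by
    refine ⟨fun x hx => ?_⟩
    obtain ⟨a, s, rfl⟩ := IsLocalization.exists_mk'_eq 𝔓.primeCompl x
    have h1 : g (IsLocalization.mk' (Localization.AtPrime 𝔓) a s) * φ' s = φ' a := by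
      rw [← hg s, ← map_mul, IsLocalization.mk'_spec, hg]
    have h2 : IsUnit (φ' a) := by
      rw [← h1]
      exact hx.mul (hunit s)
    have ha : a ∉ 𝔓 := fun ha => ((mem_maximalIdeal _).mp ((hmem a).mp ha)) h2
    have h3 : IsUnit (algebraMap C (Localization.AtPrime 𝔓) a) :=
      IsLocalization.map_units (Localization.AtPrime 𝔓) (⟨a, ha⟩ : 𝔓.primeCompl)
    have h4 : IsLocalization.mk' (Localization.AtPrime 𝔓) a s
        * algebraMap C (Localization.AtPrime 𝔓) s = algebraMap C (Localization.AtPrime 𝔓) a :=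
      IsLocalization.mk'_spec _ _ _
    exact isUnit_of_mul_isUnit_left (h4 ▸ h3)
  refine ⟨IsLocalRing.ResidueField.map g, fun c => ?_⟩
  have : algebraMap C 𝔓.ResidueField c
      = IsLocalRing.residue _ (algebraMap C (Localization.AtPrime 𝔓) c) := rfl
  rw [this, IsLocalRing.ResidueField.map_residue, hg]
  rfl

end PV2

/-! ### PV3: integrality and finiteness -/

section PV3

variable {O Ω : Type*} [CommRing O] [Field Ω] [Algebra O Ω]

/-- An element of a field lying in every valuation subring that contains the image of `O` is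
integral over `O`. -/
theorem isIntegral_of_forall_mem_valuationSubring (x : Ω)
    (hx : ∀ V : ValuationSubring Ω, (∀ a : O, algebraMap O Ω a ∈ V) → x ∈ V) : IsIntegral O x := by
  have h1 : x ∈ (integralClosure (Subring.closure (Set.range (algebraMap O Ω))) Ω).toSubring := by
    rw [← iInf_valuationSubring_superset, Subring.mem_iInf]
    rintro ⟨V, hV⟩
    exact hx V fun a => hV ⟨a, rfl⟩
  set S := Subring.closure (Set.range (algebraMap O Ω)) with hS
  obtain ⟨p, hp, hpx⟩ : IsIntegral S x := h1
  let f' : O →+* S := (algebraMap O Ω).codRestrict S fun a => Subring.subset_closure ⟨a, rfl⟩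
  have hsurj : Function.Surjective f' := by
    rintro ⟨y, hy⟩
    have hy' : y ∈ (algebraMap O Ω).range := by
      have : S = (algebraMap O Ω).range := by
        rw [hS, ← RingHom.coe_range, Subring.closure_eq]
      rw [← this]
      exact hy
    obtain ⟨a, rfl⟩ := hy'
    exact ⟨a, rfl⟩
  have hlift : p ∈ Polynomial.lifts f' := by
    rw [Polynomial.lifts_iff_coeff_lifts]
    intro n
    exact hsurj _
  obtain ⟨q, hq, -, hqm⟩ := Polynomial.lifts_and_degree_eq_and_monic hlift hp
  refine ⟨q, hqm, ?_⟩
  have hcomp : (algebraMap S Ω).comp f' = algebraMap O Ω := rfl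
  rw [← hcomp, ← Polynomial.eval₂_map, hq]
  exact hpx

/-- A function into a finite product of copies of `Ω` with integral values is integral. -/
theorem isIntegral_pi {T : Type*} [Finite T] (h : T → Ω) (hh : ∀ m, IsIntegral O (h m)) :
    IsIntegral O h := by
  classical
  haveI := Fintype.ofFinite T
  choose p hp hpx using hh
  refine ⟨∏ m, p m, Polynomial.monic_prod_of_monic _ _ fun m _ => hp m, ?_⟩
  show Polynomial.aeval h (∏ m, p m) = 0
  funext m
  have h1 : (Polynomial.aeval h (∏ m, p m)) m = Polynomial.aeval (h m) (∏ m, p m) := by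
    have := Polynomial.aeval_algHom_apply (Pi.evalAlgHom O (fun _ : T => Ω) m) h (∏ m, p m)
    exact this.symm
  rw [h1]
  exact Polynomial.aeval_eq_zero_of_dvd_aeval_eq_zero
    (Finset.dvd_prod_of_mem p (Finset.mem_univ m)) (hpx m)

/-- **PV3.**  The image of an `O`-algebra of finite type in a finite product `T → Ω` under
a family of maps with integral values is a finite `O`-module. -/
theorem finite_range_of_isIntegral {RW T : Type*} [CommRing RW] [Algebra O RW]
    [Algebra.FiniteType O RW] [Finite T] (c : T → RW →ₐ[O] Ω)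
    (hc : ∀ m r, IsIntegral O (c m r)) :
    Module.Finite O (AlgHom.pi c).range := by
  set E := AlgHom.pi c with hE
  haveI : Algebra.FiniteType O E.range :=
    Algebra.FiniteType.of_surjective E.rangeRestrict E.rangeRestrict_surjective
  haveI : Algebra.IsIntegral O E.range := by
    refine ⟨fun x => ?_⟩
    obtain ⟨r, hr⟩ := x.2
    have h1 : IsIntegral O (x : T → Ω) := by
      rw [← hr]
      exact isIntegral_pi _ fun m => hc m r
    exact (isIntegral_algHom_iff E.range.val Subtype.val_injective).mp h1
  exact Algebra.IsIntegral.finite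

/-- **PV3'.**  Same with the valuative hypothesis. -/
theorem finite_range_of_forall_mem_valuationSubring {RW T : Type*} [CommRing RW] [Algebra O RW]
    [Algebra.FiniteType O RW] [Finite T] (c : T → RW →ₐ[O] Ω)
    (hc : ∀ V : ValuationSubring Ω, (∀ a : O, algebraMap O Ω a ∈ V) → ∀ m r, c m r ∈ V) :
    Module.Finite O (AlgHom.pi c).range :=
  finite_range_of_isIntegral c fun m r =>
    isIntegral_of_forall_mem_valuationSubring _ fun V hV => hc V hV m r

end PV3

end Fermat.Agent.FFJ.Order.PrimeVal75
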