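/-
Programme FFJ (S19), chapter ORDER (plan #1229, Spec = `FFJ/Spec/Spec35`).  helper75.

Sub-bricks of `Spec35.OrderStatement` in the Spec35 shape, on top of `Order/PrimeVal75`:

* `bcR_mem_picZeroR`      : `PicZeroR` is stable under base change;
* `exists_chartPoint`     : a rigid degree-zero class over a field satisfying `W` is a point of the chart;
* `exists_chartMap` (PV4) : **valuative criterion for the chart.**  If `C` is an `O`-algebra with a finite
  jointly injective family of `O`-algebra maps `f i : C → Ω` and `y ∈ PicZeroR e C` has all its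
  `Ω`-fibres `bcR (f i) y` in an admissible set `T`, then `y` is the pull-back of the universal class
  along a (unique) `ψ : RW → C`.  Used for `C = V` (valuation subring) and for `C = H ⊗[O] H`;
* `chartPoint_mem_valuationSubring` (PV5) : the coordinates of a chart point lying in `T` belong to every
  valuation subring of `Ω` over `O` (uses `ValSurj`);
* `finite_range_chartPoints` : the image of `RW` in `Fun(M, Ω)` is a finite `O`-module
  (`IsFunOrder.finite`).
-/
import Mathlib
import Fermat.Agent.FFJ.Spec.Spec35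
import Fermat.Agent.FFJ.Order.PrimeVal75

set_option autoImplicit false
set_option linter.style.haveILetI false

noncomputable section

namespace Fermat.Agent.FFJ.Order.ChartMap75

open scoped TensorProduct
open Fermat.Agent.JAC.Core.Defs36 Fermat.Agent.JAC.Grp.Diag33 Fermat.Agent.FFJ.Core.ClR35
  Fermat.Agent.FFJ.Core.ClRBc35 Fermat.Agent.FFJ.Spec.Spec35 Fermat.Agent.FFJ.Order.PrimeVal75

variable {O : Type} [CommRing O] {A0 A1 A01 : Type} [CommRing A0] [CommRing A1] [CommRing A01]
  [Algebra O A0] [Algebra O A1] [Algebra O A01] [Algebra A0 A01] [Algebra A1 A01]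
  [IsScalarTower O A0 A01] [IsScalarTower O A1 A01] {t : A0} {s : A1}
  [IsLocalization.Away t A01] [IsLocalization.Away s A01] {e : A01 →ₐ[O] O}

/-- `PicZeroR` is stable under base change. -/
theorem bcR_mem_picZeroR {B B' : Type} [CommRing B] [CommRing B'] [Algebra O B] [Algebra O B']
    (ψ : B →ₐ[O] B') {x : ClR O A0 A1 A01 t s B} (hx : x ∈ PicZeroR e B) :
    bcR ψ x ∈ PicZeroR e B' :=
  ⟨isRigidClR_bcR e ψ x hx.1, isDegZeroR_bcR ψ x hx.2⟩

/-- A rigid degree-zero class over a field which satisfies `W` is a point of the chart. -/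
theorem exists_chartPoint (𝒞 : ChartPkg O A0 A1 A01 t s e) {K : Type} [Field K] [Algebra O K]
    (ξ : ClR O A0 A1 A01 t s K) (hξ : ξ ∈ PicZeroR e K) (hW : 𝒞.W K ξ) :
    ∃ c : 𝒞.RW →ₐ[O] K, bcR c 𝒞.x = ξ := by
  rw [𝒞.mem_iff K ξ hξ]
  intro p
  exact (𝒞.W_iff K p.asIdeal.ResidueField (toResidueR K p) ξ hξ).mpr hW

/-- The `O`-algebra structure on a valuation subring containing the image of `O`. -/
@[reducible] def valAlgebra {Ω : Type} [Field Ω] [Algebra O Ω] (V : ValuationSubring Ω)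
    (hV : ∀ a : O, algebraMap O Ω a ∈ V) : Algebra O V :=
  ((algebraMap O Ω).codRestrict V.toSubring hV).toAlgebra

theorem valAlgebra_isScalarTower {Ω : Type} [Field Ω] [Algebra O Ω] (V : ValuationSubring Ω)
    (hV : ∀ a : O, algebraMap O Ω a ∈ V) :
    letI := valAlgebra V hV
    IsScalarTower O V Ω :=
  letI := valAlgebra V hV
  IsScalarTower.of_algebraMap_eq fun _ => rfl

section AlgHomForm

variable {C Ω : Type} [CommRing C] [Field Ω] [Algebra O C] [Algebra O Ω]
  (V : ValuationSubring Ω) [Algebra O V] [IsScalarTower O V Ω]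

/-- Corestriction of an `O`-algebra map `C → Ω` with values in the valuation subring `V`. -/
def codRestrictVal (φ : C →ₐ[O] Ω) (hV : ∀ c, φ c ∈ V) : C →ₐ[O] V :=
  { (φ : C →+* Ω).codRestrict V.toSubring hV with
    commutes' := fun a => Subtype.ext <| by
      change φ (algebraMap O C a) = algebraMap V Ω (algebraMap O V a)
      rw [φ.commutes, ← IsScalarTower.algebraMap_apply] }

@[simp] theorem coe_codRestrictVal (φ : C →ₐ[O] Ω) (hV : ∀ c, φ c ∈ V) (c : C) :
    (codRestrictVal V φ hV c : Ω) = φ c := rfl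

theorem toAlgHom_comp_codRestrictVal (φ : C →ₐ[O] Ω) (hV : ∀ c, φ c ∈ V) :
    (IsScalarTower.toAlgHom O V Ω).comp (codRestrictVal V φ hV) = φ :=
  AlgHom.ext fun _ => rfl

/-- **PV2, algebra form.**  The induced map of residue fields `κ(𝔓) → κ(V)` as an `O`-algebra map,
compatible with the residue maps. -/
theorem exists_residueField_algHom (φ : C →ₐ[O] Ω) (hV : ∀ c, φ c ∈ V) (p : PrimeSpectrum C)
    (hp : ∀ c, c ∈ p.asIdeal ↔ φ c ∈ V.nonunits) :
    ∃ ι : p.asIdeal.ResidueField →ₐ[O] IsLocalRing.ResidueField V,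
      ι.comp (toResidueR C p) =
        (IsScalarTower.toAlgHom O V (IsLocalRing.ResidueField V)).comp (codRestrictVal V φ hV) := by
  obtain ⟨ι, hι⟩ := exists_residueField_hom (φ : C →+* Ω) V hV p.asIdeal hp
  have hcomm : ∀ a : O, ι (algebraMap O p.asIdeal.ResidueField a) =
      algebraMap O (IsLocalRing.ResidueField V) a := fun a => by
    rw [IsScalarTower.algebraMap_apply O C p.asIdeal.ResidueField, hι,
      IsScalarTower.algebraMap_apply O V (IsLocalRing.ResidueField V)]
    have : (⟨(φ : C →+* Ω) (algebraMap O C a), hV _⟩ : V) = algebraMap O V a := Subtype.ext <| by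
      change φ (algebraMap O C a) = algebraMap V Ω (algebraMap O V a)
      rw [φ.commutes, ← IsScalarTower.algebraMap_apply]
    rw [this]
    rfl
  refine ⟨{ ι with commutes' := hcomm }, AlgHom.ext fun c => ?_⟩
  exact hι c

end AlgHomForm

/-- **PV4: the valuative criterion for the chart.**  Let `C` be an `O`-algebra with a finite jointly
injective family of `O`-algebra maps `f i : C → Ω` into a field, and `y` a rigid degree-zero class over
`C` all of whose `Ω`-fibres `bcR (f i) y` lie in a set `T` admissible for the chart `𝒞`.  Then `y` is the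
pull-back of the universal class along some `ψ : RW → C`. -/
theorem exists_chartMap (𝒞 : ChartPkg O A0 A1 A01 t s e) {Ω : Type} [Field Ω] [Algebra O Ω]
    (T : Set (ClR O A0 A1 A01 t s Ω)) (hT : Admissible Ω 𝒞 T)
    (C : Type) [CommRing C] [Algebra O C] {I : Type} [Finite I] (f : I → C →ₐ[O] Ω)
    (hf : ∀ c, (∀ i, f i c = 0) → c = 0)
    (y : ClR O A0 A1 A01 t s C) (hy : y ∈ PicZeroR e C) (hyT : ∀ i, bcR (f i) y ∈ T) :
    ∃ ψ : 𝒞.RW →ₐ[O] C, bcR ψ 𝒞.x = y := by
  rw [𝒞.mem_iff C y hy]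
  intro p
  obtain ⟨i, V, hV', hp'⟩ :=
    exists_valuationSubring_of_isPrime (fun i => ((f i : C →ₐ[O] Ω) : C →+* Ω)) hf p.asIdeal
  have hV : ∀ c, f i c ∈ V := hV'
  have hp : ∀ c, c ∈ p.asIdeal ↔ f i c ∈ V.nonunits := hp'
  have hOV : ∀ a : O, algebraMap O Ω a ∈ V := fun a => by
    rw [← (f i).commutes]
    exact hV _
  letI : Algebra O V := valAlgebra V hOV
  haveI : IsScalarTower O V Ω := valAlgebra_isScalarTower V hOV
  obtain ⟨ι, hι⟩ := exists_residueField_algHom V (f i) hV p hp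
  have hξ : bcR (codRestrictVal V (f i) hV) y ∈ PicZeroR e V := bcR_mem_picZeroR _ hy
  have hξT : bcR (IsScalarTower.toAlgHom O V Ω) (bcR (codRestrictVal V (f i) hV) y) ∈ T := by
    rw [bcR_bc, toAlgHom_comp_codRestrictVal]
    exact hyT i
  have hW := hT.2 V _ hξ hξT
  rw [bcR_bc, ← hι, ← bcR_bc] at hW
  exact (𝒞.W_iff _ _ ι (bcR (toResidueR C p) y) (bcR_mem_picZeroR _ hy)).mp hW

/-- **PV5 (instance form).**  The coordinates of a chart point whose class lies in the admissible set
`T` belong to every valuation subring of `Ω` over `O`. -/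
theorem chartPoint_mem_valuationSubring' (𝒞 : ChartPkg O A0 A1 A01 t s e) {Ω : Type} [Field Ω]
    [Algebra O Ω] (T : Set (ClR O A0 A1 A01 t s Ω)) (hT : Admissible Ω 𝒞 T)
    (hS : ValSurj O A0 A1 A01 t s e Ω) (c : 𝒞.RW →ₐ[O] Ω) (hc : bcR c 𝒞.x ∈ T)
    (V : ValuationSubring Ω) [Algebra O V] [IsScalarTower O V Ω] (r : 𝒞.RW) : c r ∈ V := by
  have hη : bcR c 𝒞.x ∈ PicZeroR e Ω := bcR_mem_picZeroR c 𝒞.x_mem
  obtain ⟨ξ, hξ, hξη⟩ := hS V (bcR c 𝒞.x) hη
  obtain ⟨ψ, hψ⟩ := exists_chartMap 𝒞 T hT V (I := Unit)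
    (fun _ => IsScalarTower.toAlgHom O V Ω) (fun v hv => Subtype.ext (hv ())) ξ hξ
    (fun _ => by rw [hξη]; exact hc)
  have h : (IsScalarTower.toAlgHom O V Ω).comp ψ = c :=
    𝒞.inj Ω _ _ (by rw [← bcR_bc, hψ, hξη])
  rw [← h]
  exact (ψ r).2

/-- **PV5.**  Same, for a valuation subring containing the image of `O`. -/
theorem chartPoint_mem_valuationSubring (𝒞 : ChartPkg O A0 A1 A01 t s e) {Ω : Type} [Field Ω]
    [Algebra O Ω] (T : Set (ClR O A0 A1 A01 t s Ω)) (hT : Admissible Ω 𝒞 T)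
    (hS : ValSurj O A0 A1 A01 t s e Ω) (c : 𝒞.RW →ₐ[O] Ω) (hc : bcR c 𝒞.x ∈ T)
    (V : ValuationSubring Ω) (hV : ∀ a : O, algebraMap O Ω a ∈ V) (r : 𝒞.RW) : c r ∈ V := by
  letI : Algebra O V := valAlgebra V hV
  haveI : IsScalarTower O V Ω := valAlgebra_isScalarTower V hV
  exact chartPoint_mem_valuationSubring' 𝒞 T hT hS c hc V r

/-- The coordinates of a chart point whose class lies in `T` are integral over `O`. -/
theorem chartPoint_isIntegral (𝒞 : ChartPkg O A0 A1 A01 t s e) {Ω : Type} [Field Ω]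
    [Algebra O Ω] (T : Set (ClR O A0 A1 A01 t s Ω)) (hT : Admissible Ω 𝒞 T)
    (hS : ValSurj O A0 A1 A01 t s e Ω) (c : 𝒞.RW →ₐ[O] Ω) (hc : bcR c 𝒞.x ∈ T) (r : 𝒞.RW) :
    IsIntegral O (c r) :=
  isIntegral_of_forall_mem_valuationSubring _ fun V hV =>
    chartPoint_mem_valuationSubring 𝒞 T hT hS c hc V hV r

/-- **`IsFunOrder.finite`.**  The image of the chart ring in `Fun(M, Ω)` under finitely many chart
points with classes in `T` is a finite `O`-module. -/
theorem finite_range_chartPoints (𝒞 : ChartPkg O A0 A1 A01 t s e) {Ω : Type} [Field Ω]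
    [Algebra O Ω] (T : Set (ClR O A0 A1 A01 t s Ω)) (hT : Admissible Ω 𝒞 T)
    (hS : ValSurj O A0 A1 A01 t s e Ω) {M : Type} [Finite M] (c : M → 𝒞.RW →ₐ[O] Ω)
    (hc : ∀ m, bcR (c m) 𝒞.x ∈ T) : Module.Finite O (AlgHom.pi c).range :=
  haveI := 𝒞.finiteType
  finite_range_of_isIntegral c fun m r => chartPoint_isIntegral 𝒞 T hT hS (c m) (hc m) r

end Fermat.Agent.FFJ.Order.ChartMap75
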