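/-
Programme FFJ (S19), brick ADM (ADM-ONE of COORD #2b, report #1597 item (1)).  helper75.

**`Admissible` from ONE place.**  `Spec35.Admissible Ω 𝒞 T` quantifies over ALL valuation subrings
`V ⊇ O` of `Ω`; FIB/PIC produce a chart which is good at ONE place `V₀ ≠ ⊤` only.  The bridge:

* `W_residue_of_eq_top`   : for the trivial valuation subring `V = ⊤` the residue field is `Ω` itself
  (`W_iff` along `Ω → κ(⊤)`);
* `residueAlgHom`, `W_residue_of_localHom` : transport of the residue condition along a local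
  `O`-algebra map `τ : V → V₀` of valuation subrings (`W_iff` along `κ(V) → κ(V₀)`);
* `conjAlgHom`            : `σ ∈ Aut(Ω/F)` with `σ(V₀) = V` gives the local `O`-algebra map
  `σ⁻¹ : V → V₀`;
* `admissible_of_one_place` : **the brick.**  `O` a discrete valuation ring with fraction field `F`,
  `Ω/F` Galois, `T` a Galois-stable set of `Ω`-points contained in the chart, `V₀ ≠ ⊤` one valuation
  subring over `O` at which all `V₀`-models of the points of `T` specialise into the chart.  Then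
  `T` is admissible.  (Every `V ≠ ⊤` over `O` is `σ(V₀)`: `ValConj75.exists_algEquiv_of_dvr`.)
-/
import Mathlib
import Fermat.Agent.FFJ.Spec.Spec35
import Fermat.Agent.FFJ.Order.ChartMap75
import Fermat.Agent.FFJ.Order.ValConj75

set_option autoImplicit false
set_option linter.style.haveILetI false

noncomputable section

namespace Fermat.Agent.FFJ.Order.Admissible75

open scoped TensorProduct
open Fermat.Agent.JAC.Core.Defs36 Fermat.Agent.JAC.Grp.Diag33 Fermat.Agent.FFJ.Core.ClR35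
  Fermat.Agent.FFJ.Core.ClRBc35 Fermat.Agent.FFJ.Spec.Spec35 Fermat.Agent.FFJ.Order.ChartMap75
  Fermat.Agent.FFJ.Order.ValConj75

variable {O : Type} [CommRing O] {A0 A1 A01 : Type} [CommRing A0] [CommRing A1] [CommRing A01]
  [Algebra O A0] [Algebra O A1] [Algebra O A01] [Algebra A0 A01] [Algebra A1 A01]
  [IsScalarTower O A0 A01] [IsScalarTower O A1 A01] {t : A0} {s : A1}
  [IsLocalization.Away t A01] [IsLocalization.Away s A01] {e : A01 →ₐ[O] O}

/-! ### The trivial valuation subring -/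

/-- For the trivial valuation subring `V = ⊤` the residue condition of `Admissible` follows from
`W` at the generic fibre. -/
theorem W_residue_of_eq_top (𝒞 : ChartPkg O A0 A1 A01 t s e) {Ω : Type} [Field Ω] [Algebra O Ω]
    (V : ValuationSubring Ω) [Algebra O V] [IsScalarTower O V Ω] (hV : V = ⊤)
    (ξ : ClR O A0 A1 A01 t s V) (hξ : ξ ∈ PicZeroR e V)
    (hW : 𝒞.W Ω (bcR (IsScalarTower.toAlgHom O V Ω) ξ)) :
    𝒞.W (IsLocalRing.ResidueField V)
      (bcR (IsScalarTower.toAlgHom O V (IsLocalRing.ResidueField V)) ξ) := by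
  have hmem : ∀ x : Ω, (AlgHom.id O Ω) x ∈ V := fun x => hV ▸ ValuationSubring.mem_top x
  let ι : Ω →ₐ[O] V := codRestrictVal V (AlgHom.id O Ω) hmem
  let ψ : Ω →ₐ[O] IsLocalRing.ResidueField V :=
    (IsScalarTower.toAlgHom O V (IsLocalRing.ResidueField V)).comp ι
  have h1 : ι.comp (IsScalarTower.toAlgHom O V Ω) = AlgHom.id O V :=
    AlgHom.ext fun x => Subtype.ext rfl
  have h2 : ψ.comp (IsScalarTower.toAlgHom O V Ω) =
      IsScalarTower.toAlgHom O V (IsLocalRing.ResidueField V) := by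
    rw [AlgHom.comp_assoc, h1, AlgHom.comp_id]
  rw [← h2, ← bcR_bc]
  exact (𝒞.W_iff Ω (IsLocalRing.ResidueField V) ψ _ (bcR_mem_picZeroR _ hξ)).mpr hW

/-! ### Transport along a local `O`-algebra map of valuation subrings -/

section Transport

/-- The map of residue fields induced by a local `O`-algebra map, as an `O`-algebra map. -/
def residueAlgHom {R S : Type} [CommRing R] [CommRing S] [IsLocalRing R] [IsLocalRing S]
    [Algebra O R] [Algebra O S] (τ : R →ₐ[O] S) [IsLocalHom (τ : R →+* S)] :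
    IsLocalRing.ResidueField R →ₐ[O] IsLocalRing.ResidueField S :=
  { IsLocalRing.ResidueField.map (τ : R →+* S) with
    commutes' := fun a => by
      change IsLocalRing.ResidueField.map (τ : R →+* S) (algebraMap O _ a) = algebraMap O _ a
      rw [IsScalarTower.algebraMap_apply O R (IsLocalRing.ResidueField R),
        IsScalarTower.algebraMap_apply O S (IsLocalRing.ResidueField S),
        IsLocalRing.ResidueField.algebraMap_eq, IsLocalRing.ResidueField.algebraMap_eq,
        IsLocalRing.ResidueField.map_residue]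
      congr 1
      exact τ.commutes a }

theorem residueAlgHom_comp {R S : Type} [CommRing R] [CommRing S] [IsLocalRing R] [IsLocalRing S]
    [Algebra O R] [Algebra O S] (τ : R →ₐ[O] S) [IsLocalHom (τ : R →+* S)] :
    (residueAlgHom τ).comp (IsScalarTower.toAlgHom O R (IsLocalRing.ResidueField R)) =
      (IsScalarTower.toAlgHom O S (IsLocalRing.ResidueField S)).comp τ :=
  AlgHom.ext fun _ => rfl

/-- **Transport of the residue condition** along a local `O`-algebra map `τ : V → V₀` of local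
rings. -/
theorem W_residue_of_localHom (𝒞 : ChartPkg O A0 A1 A01 t s e)
    {R S : Type} [CommRing R] [CommRing S] [IsLocalRing R] [IsLocalRing S]
    [Algebra O R] [Algebra O S] (τ : R →ₐ[O] S) [IsLocalHom (τ : R →+* S)]
    (ξ : ClR O A0 A1 A01 t s R) (hξ : ξ ∈ PicZeroR e R)
    (h : 𝒞.W (IsLocalRing.ResidueField S)
      (bcR (IsScalarTower.toAlgHom O S (IsLocalRing.ResidueField S)) (bcR τ ξ))) :
    𝒞.W (IsLocalRing.ResidueField R)
      (bcR (IsScalarTower.toAlgHom O R (IsLocalRing.ResidueField R)) ξ) := by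
  rw [bcR_bc, ← residueAlgHom_comp, ← bcR_bc] at h
  exact (𝒞.W_iff (IsLocalRing.ResidueField R) (IsLocalRing.ResidueField S) (residueAlgHom τ) _
    (bcR_mem_picZeroR _ hξ)).mp h

end Transport

/-! ### The conjugation map `σ⁻¹ : V → V₀` -/

section Conj

variable {F Ω : Type} [Field F] [Field Ω] [Algebra O F] [Algebra F Ω] [Algebra O Ω]
  [IsScalarTower O F Ω]
  (V V₀ : ValuationSubring Ω) [Algebra O V] [IsScalarTower O V Ω] [Algebra O V₀]
  [IsScalarTower O V₀ Ω]

/-- If `σ ∈ Aut(Ω/F)` maps `V₀` onto `V`, then `σ⁻¹` restricts to an `O`-algebra map `V → V₀`. -/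
def conjAlgHom (σ : Ω ≃ₐ[F] Ω) (hσ : ∀ x, σ x ∈ V ↔ x ∈ V₀) : V →ₐ[O] V₀ :=
  codRestrictVal V₀ ((galHom O F σ.symm).comp (IsScalarTower.toAlgHom O V Ω)) fun x => by
    rw [← hσ]
    change σ (σ.symm (x : Ω)) ∈ V
    rw [AlgEquiv.apply_symm_apply]
    exact x.2

theorem coe_conjAlgHom (σ : Ω ≃ₐ[F] Ω) (hσ : ∀ x, σ x ∈ V ↔ x ∈ V₀) (x : V) :
    (conjAlgHom (O := O) V V₀ σ hσ x : Ω) = σ.symm (x : Ω) := rfl

theorem toAlgHom_comp_conjAlgHom (σ : Ω ≃ₐ[F] Ω) (hσ : ∀ x, σ x ∈ V ↔ x ∈ V₀) :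
    (IsScalarTower.toAlgHom O V₀ Ω).comp (conjAlgHom (O := O) V V₀ σ hσ) =
      (galHom O F σ.symm).comp (IsScalarTower.toAlgHom O V Ω) :=
  toAlgHom_comp_codRestrictVal V₀ _ _

theorem isLocalHom_conjAlgHom (σ : Ω ≃ₐ[F] Ω) (hσ : ∀ x, σ x ∈ V ↔ x ∈ V₀) :
    IsLocalHom ((conjAlgHom (O := O) V V₀ σ hσ : V →ₐ[O] V₀) : V →+* V₀) := by
  refine ⟨fun x hx => ?_⟩
  obtain ⟨y, hy⟩ := isUnit_iff_exists_inv.mp hx
  refine isUnit_iff_exists_inv.mpr ⟨⟨σ (y : Ω), (hσ _).mpr y.2⟩, Subtype.ext ?_⟩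
  have h1 : σ.symm (x : Ω) * (y : Ω) = 1 := congrArg (fun z : V₀ => (z : Ω)) hy
  have h2 := congrArg σ h1
  rw [map_mul, AlgEquiv.apply_symm_apply, map_one] at h2
  exact h2

end Conj

/-! ### The brick -/

/-- **(ADM) `Admissible` from one place.**  `O` a discrete valuation ring with fraction field `F`,
`Ω/F` a Galois extension (in the application an algebraic closure), `T` a set of `Ω`-points of the
chart `𝒞` stable under `Aut(Ω/F)`, and `V₀ ≠ ⊤` ONE valuation subring of `Ω` over `O` such that every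
rigid degree-zero class over `V₀` with generic fibre in `T` has its special fibre in the chart.  Then
`T` is admissible for `𝒞`: the same holds at EVERY valuation subring of `Ω` over `O`. -/
theorem admissible_of_one_place {F Ω : Type} [Field F] [Field Ω] [Algebra O F] [Algebra F Ω]
    [Algebra O Ω] [IsScalarTower O F Ω] [IsDomain O] [IsDiscreteValuationRing O]
    [IsFractionRing O F] [IsGalois F Ω]
    (𝒞 : ChartPkg O A0 A1 A01 t s e) (T : Set (ClR O A0 A1 A01 t s Ω))
    (hstab : ∀ (σ : Ω ≃ₐ[F] Ω), ∀ ξ ∈ T, galActR O F σ ξ ∈ T) (hW : ∀ ξ ∈ T, 𝒞.W Ω ξ)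
    (V₀ : ValuationSubring Ω) [Algebra O V₀] [IsScalarTower O V₀ Ω] (hV₀ : V₀ ≠ ⊤)
    (h0 : ∀ ξ : ClR O A0 A1 A01 t s V₀, ξ ∈ PicZeroR e V₀ →
      bcR (IsScalarTower.toAlgHom O V₀ Ω) ξ ∈ T →
      𝒞.W (IsLocalRing.ResidueField V₀)
        (bcR (IsScalarTower.toAlgHom O V₀ (IsLocalRing.ResidueField V₀)) ξ)) :
    Admissible Ω 𝒞 T := by
  refine ⟨hW, fun V _ _ ξ hξ hξT => ?_⟩
  by_cases hV : V = ⊤
  · exact W_residue_of_eq_top 𝒞 V hV ξ hξ (hW _ hξT)
  · have hOV : ∀ a : O, algebraMap O Ω a ∈ V := fun a => by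
      rw [IsScalarTower.algebraMap_apply O V Ω]
      exact (algebraMap O V a).2
    have hOV₀ : ∀ a : O, algebraMap O Ω a ∈ V₀ := fun a => by
      rw [IsScalarTower.algebraMap_apply O V₀ Ω]
      exact (algebraMap O V₀ a).2
    obtain ⟨σ, hσ⟩ := exists_algEquiv_of_dvr (O := O) (F := F) V₀ V hOV₀ hOV hV₀ hV
    haveI := isLocalHom_conjAlgHom (O := O) V V₀ σ hσ
    refine W_residue_of_localHom 𝒞 (conjAlgHom (O := O) V V₀ σ hσ) ξ hξ ?_
    refine h0 _ (bcR_mem_picZeroR _ hξ) ?_
    rw [bcR_bc, toAlgHom_comp_conjAlgHom, ← bcR_bc]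
    exact hstab σ.symm _ hξT

end Fermat.Agent.FFJ.Order.Admissible75
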