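/-
Programme FFJ (S19), chapter ORDER, export for programme MAZ (pole P3, the prime `2`).  Owner: helper37.

**THE REDUCTION OF THE POINTS OF THE CHART ORDER IS THE SPECIALISATION OF CLASSES.**

`Order77.exists_isFunOrder` produces the function order `H = (psi 𝒞 c).range ⊆ Fun(M, Ω)` (the image of
the chart ring under the coordinates `c m : RW → Ω` of the points).  At the prime `2` the consumers
(finite flat models with a MARK, i.e. with their connected part) need to know which points of `M` are
congruent modulo the maximal ideal of a valuation subring `V` of `Ω`, and that the answer does not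
depend on the chart.  This file proves, for ANY family `j : I → ClR Ω` of points of an admissible set
(no group structure on `I`: it applies verbatim to the carry orders of `KOrder92`):

* `residue_comp_eq_iff` : two `V`-points of the chart have the same reduction `RW → κ(V)` iff their
  classes have the same specialisation in `ClR κ(V)` (the chart is injective on `κ(V)`-points);
* `residue_comp_eq_iff_forall` : ... iff all their coordinates are congruent modulo `𝔪_V`;
* `cong_iff_specialisation` : for `i, i' : I` with `V`-models `ξ, ξ'` of `j i, j i'`: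
  `(∀ r, c i r - c i' r ∈ V.nonunits) ↔ bcR (resV V) ξ = bcR (resV V) ξ'`  — the right-hand side does
  NOT mention the chart;
* `range_cong_iff_specialisation` : the same for the functions of the order `(psi 𝒞 c).range`;
* `exists_isFunOrder_cong` : `Order77.exists_isFunOrder` together with this description of the
  congruence of points (`CongSpec`).
-/
import Mathlib
import Fermat.Agent.FFJ.Order.Order77

set_option autoImplicit false
set_option linter.style.haveILetI false
set_option linter.unusedSectionVars false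

noncomputable section

namespace Fermat.Agent.FFJ.Order.ChartCong37

open Fermat.Agent.JAC.Core.Defs36 Fermat.Agent.JAC.Grp.Diag33 Fermat.Agent.FFJ.Core.ClR35
  Fermat.Agent.FFJ.Core.ClRBc35 Fermat.Agent.TW.FF.FunOrder68 Fermat.Agent.FFJ.Spec.Spec35
  Fermat.Agent.S19.Shell64 Fermat.Agent.FFJ.Order.Order77

variable {O : Type} [CommRing O] {A0 A1 A01 : Type} [CommRing A0] [CommRing A1] [CommRing A01]
  [Algebra O A0] [Algebra O A1] [Algebra O A01] [Algebra A0 A01] [Algebra A1 A01]
  [IsScalarTower O A0 A01] [IsScalarTower O A1 A01] {t : A0} {s : A1}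
  [IsLocalization.Away t A01] [IsLocalization.Away s A01] {e : A01 →ₐ[O] O}
  {Ω : Type} [Field Ω] [Algebra O Ω]

/-- the residue map of a valuation subring, as an `O`-algebra map (`= AdmOne77.resV`). -/
abbrev resV (V : ValuationSubring Ω) [Algebra O V] : V →ₐ[O] IsLocalRing.ResidueField V :=
  IsScalarTower.toAlgHom O V (IsLocalRing.ResidueField V)

section Points

variable (𝒞 : ChartPkg O A0 A1 A01 t s e) (V : ValuationSubring Ω) [Algebra O V]
  [IsScalarTower O V Ω]

/-- two `V`-points of the chart have the same reduction iff their classes have the same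
specialisation. -/
theorem residue_comp_eq_iff (φ φ' : 𝒞.RW →ₐ[O] V) :
    (resV (O := O) V).comp φ = (resV (O := O) V).comp φ' ↔
      bcR (resV (O := O) V) (bcR φ 𝒞.x) = bcR (resV (O := O) V) (bcR φ' 𝒞.x) := by
  rw [bcR_bc, bcR_bc]
  constructor
  · intro h
    rw [h]
  · exact 𝒞.inj _ _ _

/-- two `V`-points of the chart have the same reduction iff all their coordinates are congruent
modulo the maximal ideal of `V`. -/
theorem residue_comp_eq_iff_forall (φ φ' : 𝒞.RW →ₐ[O] V) :
    (resV (O := O) V).comp φ = (resV (O := O) V).comp φ' ↔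
      ∀ r : 𝒞.RW, ((φ r : V) : Ω) - ((φ' r : V) : Ω) ∈ V.nonunits := by
  have key : ∀ r : 𝒞.RW, (((φ r : V) : Ω) - ((φ' r : V) : Ω) ∈ V.nonunits ↔
      IsLocalRing.residue V (φ r) = IsLocalRing.residue V (φ' r)) := by
    intro r
    have h1 : ((φ r : V) : Ω) - ((φ' r : V) : Ω) = ((φ r - φ' r : V) : Ω) := by
      push_cast
      rfl
    rw [h1, ValuationSubring.coe_mem_nonunits_iff, ← IsLocalRing.residue_eq_zero_iff, map_sub,
      sub_eq_zero]
  constructor
  · intro h r
    rw [key]
    exact DFunLike.congr_fun h r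
  · intro h
    refine AlgHom.ext fun r => ?_
    exact (key r).mp (h r)

end Points

section Family

variable (𝒞 : ChartPkg O A0 A1 A01 t s e) {I : Type} (j : I → ClR O A0 A1 A01 t s Ω)
  (c : I → (𝒞.RW →ₐ[O] Ω)) (hc : ∀ i, bcR (c i) 𝒞.x = j i)

include hc in
/-- **The congruence of two points of the chart modulo `𝔪_V` is the equality of the specialisations of
their `V`-models.**  The right-hand side does not depend on the chart. -/
theorem cong_iff_specialisation (hAdm : Admissible Ω 𝒞 (Set.range j))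
    (V : ValuationSubring Ω) [Algebra O V] [IsScalarTower O V Ω] (i i' : I)
    (ξ ξ' : ClR O A0 A1 A01 t s V) (hξ : ξ ∈ PicZeroR e V) (hξ' : ξ' ∈ PicZeroR e V)
    (hi : bcR (IsScalarTower.toAlgHom O V Ω) ξ = j i)
    (hi' : bcR (IsScalarTower.toAlgHom O V Ω) ξ' = j i') :
    (∀ r : 𝒞.RW, c i r - c i' r ∈ V.nonunits) ↔
      bcR (resV (O := O) V) ξ = bcR (resV (O := O) V) ξ' := by
  obtain ⟨φ, hφ⟩ := exists_point_val 𝒞 hAdm V ξ hξ (by rw [hi]; exact ⟨i, rfl⟩)
  obtain ⟨φ', hφ'⟩ := exists_point_val 𝒞 hAdm V ξ' hξ' (by rw [hi']; exact ⟨i', rfl⟩)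
  have h1 : (IsScalarTower.toAlgHom O V Ω).comp φ = c i :=
    𝒞.inj Ω _ _ (by rw [← bcR_bc, hφ, hi, hc])
  have h1' : (IsScalarTower.toAlgHom O V Ω).comp φ' = c i' :=
    𝒞.inj Ω _ _ (by rw [← bcR_bc, hφ', hi', hc])
  have h2 : ∀ r : 𝒞.RW, c i r = ((φ r : V) : Ω) := fun r => by
    rw [← h1]
    rfl
  have h2' : ∀ r : 𝒞.RW, c i' r = ((φ' r : V) : Ω) := fun r => by
    rw [← h1']
    rfl
  rw [← hφ, ← hφ', ← residue_comp_eq_iff, residue_comp_eq_iff_forall]
  constructor
  · intro h r
    rw [← h2, ← h2']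
    exact h r
  · intro h r
    rw [h2, h2']
    exact h r

include hc in
/-- the same for the functions of the chart order `(psi 𝒞 c).range`. -/
theorem range_cong_iff_specialisation (hAdm : Admissible Ω 𝒞 (Set.range j))
    (V : ValuationSubring Ω) [Algebra O V] [IsScalarTower O V Ω] (i i' : I)
    (ξ ξ' : ClR O A0 A1 A01 t s V) (hξ : ξ ∈ PicZeroR e V) (hξ' : ξ' ∈ PicZeroR e V)
    (hi : bcR (IsScalarTower.toAlgHom O V Ω) ξ = j i)
    (hi' : bcR (IsScalarTower.toAlgHom O V Ω) ξ' = j i') :
    (∀ h ∈ (AlgHom.pi c : 𝒞.RW →ₐ[O] (I → Ω)).range, h i - h i' ∈ V.nonunits) ↔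
      bcR (resV (O := O) V) ξ = bcR (resV (O := O) V) ξ' := by
  rw [← cong_iff_specialisation 𝒞 j c hc hAdm V i i' ξ ξ' hξ hξ' hi hi']
  constructor
  · intro h r
    exact h _ ⟨r, rfl⟩
  · rintro h _ ⟨r, rfl⟩
    exact h r

end Family

/-! ### The order of `Order77` with its congruences -/

section Order

variable (O : Type) [CommRing O] (A0 A1 A01 : Type) [CommRing A0] [CommRing A1] [CommRing A01]
  [Algebra O A0] [Algebra O A1] [Algebra O A01] [Algebra A0 A01] [Algebra A1 A01]
  [IsScalarTower O A0 A01] [IsScalarTower O A1 A01] (t : A0) (s : A1)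
  [IsLocalization.Away t A01] [IsLocalization.Away s A01] (e : A01 →ₐ[O] O)
  {Ω : Type} [Field Ω] [Algebra O Ω]

variable {O A0 A1 A01 t s} in
/-- **The congruences of a function order are the specialisations**: two points `m, m'` are congruent
modulo the maximal ideal of a valuation subring `V` (for all functions of `H`) iff their `V`-models
have the same special fibre. -/
def CongSpec {M : Type} [AddCommGroup M] (ι : Multiplicative M →* ClR O A0 A1 A01 t s Ω)
    (H : Subalgebra O (M → Ω)) : Prop :=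
  ∀ (V : ValuationSubring Ω) [Algebra O V] [IsScalarTower O V Ω] (m m' : M)
    (ξ ξ' : ClR O A0 A1 A01 t s V), ξ ∈ PicZeroR e V → ξ' ∈ PicZeroR e V →
    bcR (IsScalarTower.toAlgHom O V Ω) ξ = ι (Multiplicative.ofAdd m) →
    bcR (IsScalarTower.toAlgHom O V Ω) ξ' = ι (Multiplicative.ofAdd m') →
    ((∀ h ∈ H, h m - h m' ∈ V.nonunits) ↔
      bcR (resV (O := O) V) ξ = bcR (resV (O := O) V) ξ')

variable (F : Type) [Field F] [Algebra O F] [Algebra F Ω] [IsScalarTower O F Ω]

variable {F} in
/-- **Chapter ORDER with the congruences of the points** (`Order77.exists_isFunOrder` + `CongSpec`). -/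
theorem exists_isFunOrder_cong (hmul : PicZeroMul O A0 A1 A01 t s e)
    (𝒞 : ChartPkg O A0 A1 A01 t s e) (M : Type) [AddCommGroup M] [Finite M]
    [MulAction (Ω ≃ₐ[F] Ω) M]
    (ι : Multiplicative M →* ClR O A0 A1 A01 t s Ω) (hinj : Function.Injective ι)
    (hmem : ∀ m, ι m ∈ PicZeroR e Ω)
    (hequiv : ∀ (σ : Ω ≃ₐ[F] Ω) (m : M),
      ι (Multiplicative.ofAdd (σ • m)) = galActR O F σ (ι (Multiplicative.ofAdd m)))
    (hVS : ValSurj O A0 A1 A01 t s e Ω) (hAdm : Admissible Ω 𝒞 (Set.range ι)) :
    ∃ H : Subalgebra O (M → Ω), IsFunOrder O F H ∧ CongSpec e ι H := by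
  have hpt : ∀ m : M, ∃ c : 𝒞.RW →ₐ[O] Ω, bcR c 𝒞.x = ι (Multiplicative.ofAdd m) := fun m =>
    (𝒞.mem_iff Ω _ (hmem _)).mpr fun p =>
      (𝒞.W_iff Ω p.asIdeal.ResidueField (toResidueR Ω p) _ (hmem _)).mpr (hAdm.1 _ ⟨_, rfl⟩)
  choose c hc using hpt
  have hrange : Set.range (fun m : M => ι (Multiplicative.ofAdd m)) = Set.range ι := by
    ext y
    constructor
    · rintro ⟨m, rfl⟩
      exact ⟨_, rfl⟩
    · rintro ⟨m, rfl⟩
      exact ⟨Multiplicative.toAdd m, rfl⟩
  refine ⟨(psi 𝒞 c).range,
    { finite := finite_range 𝒞 ι c hc hmem hVS hAdm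
      equivariant := equivariant_range 𝒞 ι c hc F hequiv
      separates := separates_range 𝒞 ι c hc hinj
      comul := comul_range 𝒞 ι c hc hmul hAdm }, ?_⟩
  intro V _ _ m m' ξ ξ' hξ hξ' hm hm'
  exact range_cong_iff_specialisation 𝒞 (fun m : M => ι (Multiplicative.ofAdd m)) c hc
    (by rw [hrange]; exact hAdm) V m m' ξ ξ' hξ hξ' hm hm'

end Order

end Fermat.Agent.FFJ.Order.ChartCong37
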