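/-
Programme FFJ (S19), GEO wire (helper37): (CORE-ONE) INSTANTIATED AT `O = A ∩ K`.

`CoreOne37.exists_isFunOrder_of_goodAtRank` at `O := OK K A = A ∩ K`, `F := K`, `Ω := ℚ̄`, `V₀ := A`
(`K ⊂ ℚ̄` a number field, `A` a valuation subring of `ℚ̄` over a prime `l`): all the ring-theoretic
instance hypotheses of CORE-ONE are discharged here
  (`IsDiscreteValuationRing (OK K A)` = `NumberFieldDVR27.isDiscreteValuationRing_AK`,
   `IsGalois K ℚ̄`, `LiesOverBase (OK K A) K A` = `GeoWireOne77`, `Algebra.IsAlgebraic (OK K A) ℚ̄`,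
   injectivity of `OK K A → ℚ̄`),
so that the conclusion is the function order over `OK K A` consumed by `Spec78.GeoInput` /
`SpecLocal78.GeoInputLocal` (action of `Gal(ℚ̄/K)` on `M` by restriction).
-/
import Mathlib
import Fermat.Agent.FFJ.Pic.CoreOne37
import Fermat.Agent.FFJ.Order.GeoWireOne77

set_option autoImplicit false
set_option maxHeartbeats 400000
set_option linter.style.haveILetI false
set_option linter.unusedSectionVars false

noncomputable section

namespace Fermat.Agent.FFJ.Order.CoreOneOK37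

open scoped TensorProduct
open Fermat.Agent.JAC.Core.Defs36 Fermat.Agent.FFJ.Core.ClR35 Fermat.Agent.FFJ.Core.ClRBc35
  Fermat.Agent.TW.FF.FunOrder68 Fermat.Agent.TW.FF.FlatModel68 Fermat.Agent.FFJ.Alg.Spec78
  Fermat.Agent.FFJ.Order.GeoWire77 Fermat.Agent.FFJ.Order.GeoWireOne77
  Fermat.Agent.FFJ.Order.ValConj77 Fermat.Agent.FFJ.Pic.ChartDefR35 Fermat.Agent.FFJ.Pic.SpecD35
open Fermat.Agent.FFJ.Spec.Spec35 (galActR)

variable (K : IntermediateField ℚ Qbar) (A : ValuationSubring Qbar)

/-- `OK K A → ℚ̄` is injective. -/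
theorem algebraMap_OK_injective : Function.Injective (algebraMap (OK K A) Qbar) := by
  intro x y h
  apply Subtype.ext
  exact (algebraMap K Qbar).injective h

/-- `ℚ̄` is algebraic over `OK K A`. -/
theorem isAlgebraic_OK : Algebra.IsAlgebraic (OK K A) Qbar := by
  refine ⟨fun x => ?_⟩
  have hx : IsAlgebraic ℚ x :=
    (Fermat.Agent.RED.DESC.NumberFieldDVR27.isAlgebraic_Qbar).isAlgebraic x
  have hxK : IsAlgebraic K x := hx.extendScalars (algebraMap ℚ K).injective
  exact (IsFractionRing.isAlgebraic_iff (OK K A) K Qbar).mpr hxK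

/-- **(CORE-ONE) at `O = A ∩ K`.** -/
theorem exists_isFunOrder_OK (l : ℕ) (hl : l ≠ 0) (M : Type) [AddCommGroup M] [Finite M]
    [DistribMulAction GQ M] [FiniteDimensional ℚ K] (hA : A.LiesOverPrime l)
    (A0 A1 A01 : Type) [CommRing A0] [CommRing A1] [CommRing A01]
    [Algebra (OK K A) A0] [Algebra (OK K A) A1] [Algebra (OK K A) A01] [Algebra A0 A01]
    [Algebra A1 A01] [IsScalarTower (OK K A) A0 A01] [IsScalarTower (OK K A) A1 A01]
    (t : A0) (s : A1) [IsLocalization.Away t A01] [IsLocalization.Away s A01]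
    (H : CurveHypR (OK K A) A0 A1 A01 t s) (e : A01 →ₐ[OK K A] OK K A)
    (ι : Multiplicative M →* ClR (OK K A) A0 A1 A01 t s Qbar) (hinj : Function.Injective ι)
    (hmem : ∀ m, ι m ∈ PicZeroR e Qbar)
    (hequiv : ∀ (σ : Qbar ≃ₐ[K] Qbar) (m : M),
      ι (Multiplicative.ofAdd ((σ.restrictScalars ℚ : GQ) • m)) =
        galActR (OK K A) K σ (ι (Multiplicative.ofAdd m)))
    (lam : PUnit.{1} → ClR (OK K A) A0 A1 A01 t s (OK K A)) (n : ℕ)
    (hcard : Infinite (IsLocalRing.ResidueField (OK K A)) ∨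
      Nat.card M < Nat.card (IsLocalRing.ResidueField (OK K A)))
    (hgood : letI := algebraOKA K A
      haveI := isScalarTower_OKA K A
      ∀ (ξ : ClR (OK K A) A0 A1 A01 t s A) (m : Multiplicative M), ξ ∈ PicZeroR e A →
        bcR (IsScalarTower.toAlgHom (OK K A) A Qbar) ξ = ι m →
        GoodAtRank (IsLocalRing.ResidueField A)
          (bcR (Fermat.Agent.FFJ.Order.AdmOne77.resV A) ξ *
            twist lam (IsLocalRing.ResidueField A) PUnit.unit) n) :
    ∃ Hs : Subalgebra (OK K A) (M → Qbar),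
      @IsFunOrder (OK K A) K Qbar M _ _ _ _ _ _ (resMulAction K M) Hs := by
  letI : MulAction (Qbar ≃ₐ[K] Qbar) M := resMulAction K M
  letI := algebraOKA K A
  haveI := isScalarTower_OKA K A
  haveI := isGalois_K_Qbar K
  haveI : IsDiscreteValuationRing (OK K A) :=
    Fermat.Agent.RED.DESC.NumberFieldDVR27.isDiscreteValuationRing_AK A K hl hA
  haveI := isAlgebraic_OK K A
  exact Fermat.Agent.FFJ.Pic.CoreOne37.exists_isFunOrder_of_goodAtRank K
    (algebraMap_OK_injective K A) H e M ι hinj hmem hequiv A (liesOverBase_OKA K A) lam n hcard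
    hgood

end Fermat.Agent.FFJ.Order.CoreOneOK37
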