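/-
Programme FFJ (S19), GEO wire, export for programme MAZ (pole P3, the prime `2`).  Owner: helper37.

(CORE-ONE) AT `O = A ∩ K` WITH THE CONGRUENCES OF THE POINTS: twin of
`CoreOneOK37.exists_isFunOrder_OK` whose conclusion also records `ChartCong37.CongSpec e ι Hs`
(two points of `M` are congruent modulo the maximal ideal of a valuation subring `V ⊇ A ∩ K` of `ℚ̄`,
for all functions of the order, iff their `V`-models have the same special fibre), and its corollary
at `V = A`: the points congruent to `0` modulo `𝔪_A` are exactly those whose `A`-model has the same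
special fibre as the `A`-model of `ι 0`.
-/
import Mathlib
import Fermat.Agent.FFJ.Pic.CoreOneCong37
import Fermat.Agent.FFJ.Order.CoreOneOK37

set_option autoImplicit false
set_option maxHeartbeats 400000
set_option linter.style.haveILetI false
set_option linter.unusedSectionVars false

noncomputable section

namespace Fermat.Agent.FFJ.Order.CoreOneOKCong37

open scoped TensorProduct
open Fermat.Agent.JAC.Core.Defs36 Fermat.Agent.FFJ.Core.ClR35 Fermat.Agent.FFJ.Core.ClRBc35
  Fermat.Agent.TW.FF.FunOrder68 Fermat.Agent.TW.FF.FlatModel68 Fermat.Agent.FFJ.Alg.Spec78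
  Fermat.Agent.FFJ.Order.GeoWire77 Fermat.Agent.FFJ.Order.GeoWireOne77
  Fermat.Agent.FFJ.Order.ValConj77 Fermat.Agent.FFJ.Pic.ChartDefR35 Fermat.Agent.FFJ.Pic.SpecD35
  Fermat.Agent.FFJ.Order.ChartCong37 Fermat.Agent.FFJ.Order.CoreOneOK37
open Fermat.Agent.FFJ.Spec.Spec35 (galActR)

variable (K : IntermediateField ℚ Qbar) (A : ValuationSubring Qbar)

/-- **(CORE-ONE) at `O = A ∩ K` with the congruences of the points.** -/
theorem exists_isFunOrder_OK_cong (l : ℕ) (hl : l ≠ 0) (M : Type) [AddCommGroup M] [Finite M]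
    [DistribMulAction GQ M] [FiniteDimensional ℚ K] (hA : A.LiesOverPrime l)
    (A0 A1 A01 : Type) [CommRing A0] [CommRing A1] [CommRing A01]
    [Algebra (OK K A) A0] [Algebra (OK K A) A1] [Algebra (OK K A) A01] [Algebra A0 A01]
    [Algebra A1 A01] [IsScalarTower (OK K A) A0 A01] [IsScalarTower (OK K A) A1 A01]
    (t : A0) (s : A1) [IsLocalization.Away t A01] [IsLocalization.Away s A01]
    (H : CurveHypR (OK K A) A0 A1 A01 t s) (e : A01 →ₐ[OK K A] OK K A)
    (ι : Multiplicative M →* ClR (OK K A) A0 A1 A01 t s Qbar) (hinj : Function.Injective ι)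
    (hmem : ∀ m, ι m ∈ PicZeroR e Qbar)
    (hequiv : ∀ (σ : Qbar ≃ₐ[K] Qbar) (m : M),
      ι (Multiplicative.ofAdd ((σ.restrictScalars ℚ : GQ) • m)) =
        galActR (OK K A) K σ (ι (Multiplicative.ofAdd m)))
    (lam : PUnit.{1} → ClR (OK K A) A0 A1 A01 t s (OK K A)) (n : ℕ)
    (hcard : Infinite (IsLocalRing.ResidueField (OK K A)) ∨
      Nat.card M < Nat.card (IsLocalRing.ResidueField (OK K A)))
    (hgood : letI := algebraOKA K A
      haveI := isScalarTower_OKA K A
      ∀ (ξ : ClR (OK K A) A0 A1 A01 t s A) (m : Multiplicative M), ξ ∈ PicZeroR e A →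
        bcR (IsScalarTower.toAlgHom (OK K A) A Qbar) ξ = ι m →
        GoodAtRank (IsLocalRing.ResidueField A)
          (bcR (Fermat.Agent.FFJ.Order.AdmOne77.resV A) ξ *
            twist lam (IsLocalRing.ResidueField A) PUnit.unit) n) :
    ∃ Hs : Subalgebra (OK K A) (M → Qbar),
      @IsFunOrder (OK K A) K Qbar M _ _ _ _ _ _ (resMulAction K M) Hs ∧ CongSpec e ι Hs := by
  letI : MulAction (Qbar ≃ₐ[K] Qbar) M := resMulAction K M
  letI := algebraOKA K A
  haveI := isScalarTower_OKA K A
  haveI := isGalois_K_Qbar K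
  haveI : IsDiscreteValuationRing (OK K A) :=
    Fermat.Agent.RED.DESC.NumberFieldDVR27.isDiscreteValuationRing_AK A K hl hA
  haveI := isAlgebraic_OK K A
  exact Fermat.Agent.FFJ.Pic.CoreOneCong37.exists_isFunOrder_of_goodAtRank_cong K
    (algebraMap_OK_injective K A) H e M ι hinj hmem hequiv A (liesOverBase_OKA K A) lam n hcard
    hgood

end Fermat.Agent.FFJ.Order.CoreOneOKCong37
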