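/-
Programme FFJ, chapter ORDER (helper92).  **ORDER with a carry cocycle** (abstract half of K-FLAT,
report 1530: the Kummer extension `E_z` of a rational point `z` has a function order).

Generalisation of `Order77.exists_isFunOrder` from an equivariant group embedding
`ι : M →* PicZeroR e Ω` to a finite group `M` which is an extension

  `π : M →+ C`   (`C` a finite group with trivial Galois action)

together with an equivariant map of SETS `j : M → PicZeroR e Ω`, injective on the fibres of `π`, which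
is additive up to classes defined over the base ring `O`:

  `j (m + m') = j m * j m' * κ (π m) (π m')`,   `κ a b ∈ PicZeroR e O`.

(For the Kummer extension `E_z = ⊔_{0 ≤ i < n} [n]⁻¹(i z)` of a rational point `z`:  `C = ℤ/n`,
`j (y, i) = y`, `κ a b = z^(-carry a b)`.)  If one chart `𝒞` contains `j(M)` and all its specialisations
(`Admissible`), and `ValSurj` holds, then the `O`-algebra `H ⊆ Fun(M, Ω)` generated by the coordinates
of the points `j m` and by the functions pulled back from `C` is a function order on `M` over `O`.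
For `C = 0` this is `Order77.exists_isFunOrder`.

The comultiplication is computed fibre by fibre: over the image `T'_{a,b}` of `H ⊗ H` in
`Fun(π⁻¹a × π⁻¹b, Ω)` the class `pr₁^*x · pr₂^*x · κ a b` lies in the chart
(`Order77.exists_point_subalgebra`), and the pieces are glued with the idempotents pulled back from `C`.
-/
import Mathlib
import Fermat.Agent.FFJ.Order.Order77

set_option autoImplicit false
set_option linter.style.haveILetI false
set_option linter.unusedSectionVars false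

noncomputable section

namespace Fermat.Agent.FFJ.Order.KOrder92

open scoped TensorProduct
open Fermat.Agent.JAC.Core.Defs36 Fermat.Agent.JAC.Grp.Diag33 Fermat.Agent.FFJ.Core.ClR35
  Fermat.Agent.FFJ.Core.ClRBc35 Fermat.Agent.TW.FF.FunOrder68 Fermat.Agent.FFJ.Spec.Spec35
  Fermat.Agent.S19.Shell64 Fermat.Agent.FFJ.Order.Order77

/-! ### Functions pulled back from `C`, sums, equivariant functions -/

section Pull

variable (O Ω : Type) [CommRing O] [Field Ω] [Algebra O Ω] {M C : Type}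

/-- pull-back of `O`-valued functions on `C` to `Ω`-valued functions on `M`. -/
def pull (π : M → C) : (C → O) →ₐ[O] (M → Ω) :=
  AlgHom.pi fun m => (Algebra.ofId O Ω).comp (Pi.evalAlgHom O (fun _ : C => O) (π m))

theorem pull_apply (π : M → C) (f : C → O) (m : M) :
    pull O Ω π f m = algebraMap O Ω (f (π m)) := rfl

variable (M) in
/-- pull-back of functions along the addition `M × M → M`. -/
def addPull [Add M] : (M → Ω) →ₐ[O] (M × M → Ω) :=
  AlgHom.pi fun p => Pi.evalAlgHom O (fun _ : M => Ω) (p.1 + p.2)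

theorem addPull_apply [Add M] (h : M → Ω) (p : M × M) : addPull O Ω M h p = h (p.1 + p.2) := rfl

/-- the equivariant functions form a subalgebra. -/
def eqSub (F : Type) [Field F] [Algebra O F] [Algebra F Ω] [IsScalarTower O F Ω]
    [MulAction (Ω ≃ₐ[F] Ω) M] : Subalgebra O (M → Ω) where
  carrier := {h | IsEquivariantFun F h}
  mul_mem' := fun {a b} ha hb σ m => by
    change a (σ • m) * b (σ • m) = σ (a m * b m)
    rw [ha σ m, hb σ m, map_mul]
  add_mem' := fun {a b} ha hb σ m => by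
    change a (σ • m) + b (σ • m) = σ (a m + b m)
    rw [ha σ m, hb σ m, map_add]
  algebraMap_mem' := fun x σ m => by
    change algebraMap O Ω x = σ (algebraMap O Ω x)
    rw [IsScalarTower.algebraMap_apply O F Ω, σ.commutes]

theorem mem_eqSub (F : Type) [Field F] [Algebra O F] [Algebra F Ω] [IsScalarTower O F Ω]
    [MulAction (Ω ≃ₐ[F] Ω) M] {h : M → Ω} : h ∈ eqSub O Ω (M := M) F ↔ IsEquivariantFun F h :=
  Iff.rfl

end Pull

/-! ### The order -/

section Assembly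

variable {O : Type} [CommRing O] {A0 A1 A01 : Type} [CommRing A0] [CommRing A1] [CommRing A01]
  [Algebra O A0] [Algebra O A1] [Algebra O A01] [Algebra A0 A01] [Algebra A1 A01]
  [IsScalarTower O A0 A01] [IsScalarTower O A1 A01] {t : A0} {s : A1}
  [IsLocalization.Away t A01] [IsLocalization.Away s A01] {e : A01 →ₐ[O] O}
  {Ω : Type} [Field Ω] [Algebra O Ω]
  (𝒞 : ChartPkg O A0 A1 A01 t s e) {M C : Type} [AddCommGroup M] [AddCommGroup C] (π : M →+ C)
  (κ : C → C → ClR O A0 A1 A01 t s O)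
  (j : M → ClR O A0 A1 A01 t s Ω)
  (c : M → (𝒞.RW →ₐ[O] Ω)) (hc : ∀ m, bcR (c m) 𝒞.x = j m)

/-- the order: generated by the coordinates of the points and the functions pulled back from `C`. -/
def HK : Subalgebra O (M → Ω) := (psi 𝒞 c).range ⊔ (pull O Ω π).range

theorem psi_mem_HK (r : 𝒞.RW) : psi 𝒞 c r ∈ HK 𝒞 π c :=
  (le_sup_left : (psi 𝒞 c).range ≤ HK 𝒞 π c) ⟨r, rfl⟩

theorem pull_mem_HK (f : C → O) : pull O Ω π f ∈ HK 𝒞 π c :=
  (le_sup_right : (pull O Ω π).range ≤ HK 𝒞 π c) ⟨f, rfl⟩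

include hc in
/-- a point of the chart is determined by its class. -/
theorem point_unique' (m : M) (φ : 𝒞.RW →ₐ[O] Ω) (h : bcR φ 𝒞.x = j m) : φ = c m :=
  𝒞.inj Ω φ (c m) (by rw [h, hc])

include hc in
theorem equivariant_HK (F : Type) [Field F] [Algebra O F] [Algebra F Ω] [IsScalarTower O F Ω]
    [MulAction (Ω ≃ₐ[F] Ω) M] (hπ : ∀ (σ : Ω ≃ₐ[F] Ω) (m : M), π (σ • m) = π m)
    (hequiv : ∀ (σ : Ω ≃ₐ[F] Ω) (m : M), j (σ • m) = galActR O F σ (j m)) :
    ∀ h ∈ HK 𝒞 π c, IsEquivariantFun F h := by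
  have hle : HK 𝒞 π c ≤ eqSub O Ω (M := M) F := by
    refine sup_le ?_ ?_
    · rintro _ ⟨r, rfl⟩ σ m
      have h1 : (galHom O F σ).comp (c m) = c (σ • m) := point_unique' 𝒞 j c hc _ _ (by
        rw [← bcR_bc, hc, hequiv]
        rfl)
      change c (σ • m) r = σ (c m r)
      rw [← h1]
      rfl
    · rintro _ ⟨f, rfl⟩ σ m
      change pull O Ω π f (σ • m) = σ (pull O Ω π f m)
      rw [pull_apply, pull_apply, hπ, IsScalarTower.algebraMap_apply O F Ω, σ.commutes]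
  exact fun h hh => hle hh

include hc in
theorem separates_HK
    (hinj : ∀ m m' : M, π m = π m' → j m = j m' → m = m') (m m' : M) (hne : m ≠ m') :
    ∃ h ∈ HK 𝒞 π c, h m ≠ h m' := by
  classical
  by_cases hπ : π m = π m'
  · have h1 : c m ≠ c m' := fun h => hne (hinj m m' hπ (by rw [← hc m, h, hc m']))
    obtain ⟨r, hr⟩ := DFunLike.exists_ne h1
    exact ⟨psi 𝒞 c r, psi_mem_HK 𝒞 π c r, hr⟩
  · refine ⟨pull O Ω π (Pi.single (π m) 1), pull_mem_HK 𝒞 π c _, ?_⟩
    rw [pull_apply, pull_apply, Pi.single_eq_same, Pi.single_eq_of_ne (Ne.symm hπ), map_one,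
      map_zero]
    exact one_ne_zero

include hc in
theorem finite_HK [Finite M] [Finite C] (hmem : ∀ m, j m ∈ PicZeroR e Ω)
    (hVS : ValSurj O A0 A1 A01 t s e Ω) (hAdm : Admissible Ω 𝒞 (Set.range j)) :
    Module.Finite O (HK 𝒞 π c) := by
  haveI : Module.Finite O (psi 𝒞 c).range := by
    haveI : Algebra.FiniteType O (psi 𝒞 c).range :=
      haveI := 𝒞.finiteType
      Algebra.FiniteType.of_surjective (psi 𝒞 c).rangeRestrict
        (psi 𝒞 c).rangeRestrict_surjective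
    haveI : Algebra.IsIntegral O (psi 𝒞 c).range := ⟨by
      rintro ⟨_, ⟨r, rfl⟩⟩
      rw [← isIntegral_algHom_iff (psi 𝒞 c).range.val Subtype.val_injective]
      apply isIntegral_pi77
      intro m
      apply isIntegral_of_forall_mem
      intro V hV
      letI : Algebra O V := ((algebraMap O Ω).codRestrict V.toSubring hV).toAlgebra
      haveI : IsScalarTower O V Ω := IsScalarTower.of_algebraMap_eq fun _ => rfl
      obtain ⟨ξ, hξ, hξΩ⟩ := hVS V (j m) (hmem _)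
      obtain ⟨φ, hφ⟩ := exists_point_val 𝒞 hAdm V ξ hξ (by rw [hξΩ]; exact ⟨_, rfl⟩)
      have h1 : (IsScalarTower.toAlgHom O V Ω).comp φ = c m :=
        point_unique' 𝒞 j c hc m _ (by rw [← bcR_bc, hφ, hξΩ])
      have h2 : c m r = (φ r : Ω) := by
        rw [← h1]
        rfl
      change c m r ∈ V
      rw [h2]
      exact (φ r).2⟩
    exact Algebra.IsIntegral.finite
  haveI : Module.Finite O (pull O Ω (M := M) π).range :=
    Module.Finite.range (pull O Ω (M := M) π).toLinearMap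
  exact Subalgebra.finite_sup _ _

end Assembly

/-! ### The comultiplication -/

section Comul

variable {O : Type} [CommRing O] {A0 A1 A01 : Type} [CommRing A0] [CommRing A1] [CommRing A01]
  [Algebra O A0] [Algebra O A1] [Algebra O A01] [Algebra A0 A01] [Algebra A1 A01]
  [IsScalarTower O A0 A01] [IsScalarTower O A1 A01] {t : A0} {s : A1}
  [IsLocalization.Away t A01] [IsLocalization.Away s A01] {e : A01 →ₐ[O] O}
  {Ω : Type} [Field Ω] [Algebra O Ω]
  (𝒞 : ChartPkg O A0 A1 A01 t s e) {M C : Type} [AddCommGroup M] [AddCommGroup C] (π : M →+ C)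
  (κ : C → C → ClR O A0 A1 A01 t s O)
  (j : M → ClR O A0 A1 A01 t s Ω)
  (c : M → (𝒞.RW →ₐ[O] Ω)) (hc : ∀ m, bcR (c m) 𝒞.x = j m)

/-- the pairs in the fibre of `π × π` over `(a, b)`. -/
abbrev Fib (a b : C) : Type := {p : M × M // π p.1 = a ∧ π p.2 = b}

/-- restriction of functions on `M × M` to the fibre over `(a, b)`. -/
def resF (a b : C) : (M × M → Ω) →ₐ[O] (Fib π a b → Ω) :=
  AlgHom.pi fun p => Pi.evalAlgHom O (fun _ : M × M => Ω) p.1

/-- `H ⊗ H → Fun(fibre, Ω)`. -/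
def muF (a b : C) : (HK 𝒞 π c) ⊗[O] (HK 𝒞 π c) →ₐ[O] (Fib π a b → Ω) :=
  (resF (O := O) (Ω := Ω) π a b).comp (mu (HK 𝒞 π c))

theorem muF_apply (a b : C) (z : (HK 𝒞 π c) ⊗[O] (HK 𝒞 π c)) (p : Fib π a b) :
    muF 𝒞 π c a b z p = mu (HK 𝒞 π c) z p.1 := rfl

/-- the chart ring into `H`. -/
def toH : 𝒞.RW →ₐ[O] HK 𝒞 π c := (psi 𝒞 c).codRestrict (HK 𝒞 π c) (psi_mem_HK 𝒞 π c)

theorem toH_apply (r : 𝒞.RW) (m : M) : ((toH 𝒞 π c r : HK 𝒞 π c) : M → Ω) m = c m r := rfl

/-- first inclusion of the chart ring into `T'_{a,b}`. -/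
def k1 (a b : C) : 𝒞.RW →ₐ[O] (muF 𝒞 π c a b).range :=
  ((muF 𝒞 π c a b).rangeRestrict.comp Algebra.TensorProduct.includeLeft).comp (toH 𝒞 π c)

/-- second inclusion of the chart ring into `T'_{a,b}`. -/
def k2 (a b : C) : 𝒞.RW →ₐ[O] (muF 𝒞 π c a b).range :=
  ((muF 𝒞 π c a b).rangeRestrict.comp Algebra.TensorProduct.includeRight).comp (toH 𝒞 π c)

/-- evaluation of `T'_{a,b}` at a pair of the fibre. -/
def evF (a b : C) (p : Fib π a b) : (muF 𝒞 π c a b).range →ₐ[O] Ω :=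
  (Pi.evalAlgHom O (fun _ : Fib π a b => Ω) p).comp (muF 𝒞 π c a b).range.val

theorem evF_k1 (a b : C) (p : Fib π a b) : (evF 𝒞 π c a b p).comp (k1 𝒞 π c a b) = c p.1.1 :=
  AlgHom.ext fun r => by
    change mu (HK 𝒞 π c) ((toH 𝒞 π c r) ⊗ₜ[O] 1) p.1 = c p.1.1 r
    rw [mu_tmul, toH_apply]
    simp

theorem evF_k2 (a b : C) (p : Fib π a b) : (evF 𝒞 π c a b p).comp (k2 𝒞 π c a b) = c p.1.2 :=
  AlgHom.ext fun r => by
    change mu (HK 𝒞 π c) (1 ⊗ₜ[O] (toH 𝒞 π c r)) p.1 = c p.1.2 r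
    rw [mu_tmul, toH_apply]
    simp

theorem evF_ofId (a b : C) (p : Fib π a b) :
    (evF 𝒞 π c a b p).comp (Algebra.ofId O (muF 𝒞 π c a b).range) = Algebra.ofId O Ω :=
  AlgHom.ext fun x => (evF 𝒞 π c a b p).commutes x

/-- the class `pr₁^*x · pr₂^*x · κ a b` over `T'_{a,b}`. -/
def yF (a b : C) : ClR O A0 A1 A01 t s (muF 𝒞 π c a b).range :=
  bcR (k1 𝒞 π c a b) 𝒞.x * bcR (k2 𝒞 π c a b) 𝒞.x *
    bcR (Algebra.ofId O (muF 𝒞 π c a b).range) (κ a b)

include hc in
theorem bcR_evF_yF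
    (hadd : ∀ m m', j (m + m') = j m * j m' * bcR (Algebra.ofId O Ω) (κ (π m) (π m')))
    (a b : C) (p : Fib π a b) :
    bcR (evF 𝒞 π c a b p) (yF 𝒞 π κ c a b) = j (p.1.1 + p.1.2) := by
  rw [yF, map_mul, map_mul, bcR_bc, bcR_bc, bcR_bc, evF_k1, evF_k2, evF_ofId, hc, hc, hadd,
    p.2.1, p.2.2]

include hc in
/-- **the comultiplication on one fibre**. -/
theorem exists_fibre_comul [Finite M]
    (hmul : PicZeroMul O A0 A1 A01 t s e) (hκ : ∀ a b, κ a b ∈ PicZeroR e O)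
    (hadd : ∀ m m', j (m + m') = j m * j m' * bcR (Algebra.ofId O Ω) (κ (π m) (π m')))
    (hAdm : Admissible Ω 𝒞 (Set.range j)) (a b : C) (r : 𝒞.RW) :
    ∃ z : (HK 𝒞 π c) ⊗[O] (HK 𝒞 π c), ∀ p : M × M, π p.1 = a → π p.2 = b →
      mu (HK 𝒞 π c) z p = c (p.1 + p.2) r := by
  have hy : yF 𝒞 π κ c a b ∈ PicZeroR e (muF 𝒞 π c a b).range :=
    hmul _ _ _ (hmul _ _ _ (picZeroR_bcR _ 𝒞.x_mem) (picZeroR_bcR _ 𝒞.x_mem))
      (picZeroR_bcR _ (hκ a b))
  obtain ⟨Ψ, hΨ⟩ : ∃ Ψ : 𝒞.RW →ₐ[O] (muF 𝒞 π c a b).range, bcR Ψ 𝒞.x = yF 𝒞 π κ c a b :=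
    exists_point_subalgebra 𝒞 hAdm _ (yF 𝒞 π κ c a b) hy fun p => by
      rw [← evF, bcR_evF_yF 𝒞 π κ j c hc hadd]
      exact ⟨_, rfl⟩
  obtain ⟨z, hz⟩ := (Ψ r).2
  refine ⟨z, fun p h1 h2 => ?_⟩
  have h3 : (evF 𝒞 π c a b ⟨p, h1, h2⟩).comp Ψ = c (p.1 + p.2) :=
    point_unique' 𝒞 j c hc _ _ (by rw [← bcR_bc, hΨ, bcR_evF_yF 𝒞 π κ j c hc hadd])
  rw [← h3]
  change mu (HK 𝒞 π c) z p = ((Ψ r : (muF 𝒞 π c a b).range) : Fib π a b → Ω) ⟨p, h1, h2⟩
  rw [← hz]
  rfl

/-- the idempotent of the fibre over `a`, as an element of `H`. -/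
def idem [DecidableEq C] (a : C) : HK 𝒞 π c :=
  ⟨pull O Ω π (Pi.single a 1), pull_mem_HK 𝒞 π c _⟩

theorem idem_apply [DecidableEq C] (a : C) (m : M) :
    ((idem 𝒞 π c a : HK 𝒞 π c) : M → Ω) m = if π m = a then 1 else 0 := by
  change algebraMap O Ω ((Pi.single a (1 : O) : C → O) (π m)) = _
  rw [Pi.single_apply]
  split_ifs <;> simp

theorem sum_sum_idem_mul [Fintype C] [DecidableEq C] (x y : C) (g : C → C → Ω) :
    ∑ a, ∑ b, ((if x = a then (1 : Ω) else 0) * (if y = b then (1 : Ω) else 0)) * g a b =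
      g x y := by
  rw [Finset.sum_eq_single x, Finset.sum_eq_single y]
  · simp
  · intro b _ hb
    rw [if_neg (Ne.symm hb)]
    simp
  · intro h
    exact absurd (Finset.mem_univ _) h
  · intro a _ ha
    refine Finset.sum_eq_zero fun b _ => ?_
    rw [if_neg (Ne.symm ha)]
    simp
  · intro h
    exact absurd (Finset.mem_univ _) h

/-- gluing the fibrewise decompositions with the idempotents. -/
theorem mu_glue [Fintype C] [DecidableEq C] (z : C → C → (HK 𝒞 π c) ⊗[O] (HK 𝒞 π c))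
    (p : M × M) :
    mu (HK 𝒞 π c) (∑ a, ∑ b, (idem 𝒞 π c a ⊗ₜ[O] idem 𝒞 π c b) * z a b) p =
      mu (HK 𝒞 π c) (z (π p.1) (π p.2)) p := by
  rw [map_sum, Finset.sum_apply]
  rw [← sum_sum_idem_mul (π p.1) (π p.2) fun a b => mu (HK 𝒞 π c) (z a b) p]
  refine Finset.sum_congr rfl fun a _ => ?_
  rw [map_sum, Finset.sum_apply]
  refine Finset.sum_congr rfl fun b _ => ?_
  rw [map_mul, Pi.mul_apply, mu_tmul, idem_apply, idem_apply]

include hc in
/-- **the comultiplication**. -/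
theorem comul_HK [Finite M] [Finite C]
    (hmul : PicZeroMul O A0 A1 A01 t s e) (hκ : ∀ a b, κ a b ∈ PicZeroR e O)
    (hadd : ∀ m m', j (m + m') = j m * j m' * bcR (Algebra.ofId O Ω) (κ (π m) (π m')))
    (hAdm : Admissible Ω 𝒞 (Set.range j)) :
    ∀ h ∈ HK 𝒞 π c, ∃ (n : ℕ) (a b : Fin n → HK 𝒞 π c), ∀ m m' : M,
      h (m + m') = ∑ i, (a i : M → Ω) m * (b i : M → Ω) m' := by
  classical
  haveI := Fintype.ofFinite C
  have hle : HK 𝒞 π c ≤ (mu (HK 𝒞 π c)).range.comap (addPull O Ω M) := by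
    refine sup_le ?_ ?_
    · rintro _ ⟨r, rfl⟩
      rw [Subalgebra.mem_comap]
      have hz := fun a b => exists_fibre_comul 𝒞 π κ j c hc hmul hκ hadd hAdm a b r
      choose z hz using hz
      refine ⟨∑ a, ∑ b, (idem 𝒞 π c a ⊗ₜ[O] idem 𝒞 π c b) * z a b, ?_⟩
      funext p
      change mu (HK 𝒞 π c) (∑ a, ∑ b, (idem 𝒞 π c a ⊗ₜ[O] idem 𝒞 π c b) * z a b) p =
        c (p.1 + p.2) r
      rw [mu_glue, hz _ _ p rfl rfl]
    · rintro _ ⟨f, rfl⟩
      rw [Subalgebra.mem_comap]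
      refine ⟨∑ a, ∑ b, (idem 𝒞 π c a ⊗ₜ[O] idem 𝒞 π c b) *
        algebraMap O _ (f (a + b)), ?_⟩
      funext p
      change mu (HK 𝒞 π c) (∑ a, ∑ b, (idem 𝒞 π c a ⊗ₜ[O] idem 𝒞 π c b) *
        algebraMap O _ (f (a + b))) p = algebraMap O Ω (f (π (p.1 + p.2)))
      rw [mu_glue 𝒞 π c (fun a b => algebraMap O _ (f (a + b))) p, AlgHom.commutes, map_add]
      rfl
  intro h hh
  obtain ⟨z, hz⟩ := hle hh
  obtain ⟨n, a, b, rfl⟩ := exists_fin_sum_tmul z
  refine ⟨n, a, b, fun m m' => ?_⟩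
  have h1 : h (m + m') = addPull O Ω M h (m, m') := rfl
  have hz' : mu (HK 𝒞 π c) (∑ i, a i ⊗ₜ[O] b i) = addPull O Ω M h := hz
  rw [h1, ← hz', map_sum, Finset.sum_apply]
  exact Finset.sum_congr rfl fun i _ => mu_tmul _ _ _ _

end Comul

/-! ### The statement -/

section Statement

variable (O : Type) [CommRing O] (A0 A1 A01 : Type) [CommRing A0] [CommRing A1] [CommRing A01]
  [Algebra O A0] [Algebra O A1] [Algebra O A01] [Algebra A0 A01] [Algebra A1 A01]
  [IsScalarTower O A0 A01] [IsScalarTower O A1 A01] (t : A0) (s : A1)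
  [IsLocalization.Away t A01] [IsLocalization.Away s A01] (e : A01 →ₐ[O] O)
  {F Ω : Type} [Field F] [Field Ω] [Algebra O F] [Algebra F Ω] [Algebra O Ω]
  [IsScalarTower O F Ω]

/-- **Chapter ORDER with a carry cocycle.**  `M` a finite group with Galois action, `π : M →+ C` an
invariant homomorphism to a finite group, `j : M → PicZeroR e Ω` equivariant, injective on the fibres
of `π`, additive up to the classes `κ a b ∈ PicZeroR e O`.  A chart containing `j(M)` and all its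
specialisations gives a function order on `M` over `O`. -/
theorem exists_isFunOrder_carry (hmul : PicZeroMul O A0 A1 A01 t s e)
    (𝒞 : ChartPkg O A0 A1 A01 t s e) (M : Type) [AddCommGroup M] [Finite M]
    [MulAction (Ω ≃ₐ[F] Ω) M] (C : Type) [AddCommGroup C] [Finite C] (π : M →+ C)
    (hπ : ∀ (σ : Ω ≃ₐ[F] Ω) (m : M), π (σ • m) = π m)
    (κ : C → C → ClR O A0 A1 A01 t s O) (hκ : ∀ a b, κ a b ∈ PicZeroR e O)
    (j : M → ClR O A0 A1 A01 t s Ω)
    (hinj : ∀ m m' : M, π m = π m' → j m = j m' → m = m')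
    (hmem : ∀ m, j m ∈ PicZeroR e Ω)
    (hadd : ∀ m m', j (m + m') = j m * j m' * bcR (Algebra.ofId O Ω) (κ (π m) (π m')))
    (hequiv : ∀ (σ : Ω ≃ₐ[F] Ω) (m : M), j (σ • m) = galActR O F σ (j m))
    (hVS : ValSurj O A0 A1 A01 t s e Ω) (hAdm : Admissible Ω 𝒞 (Set.range j)) :
    ∃ H : Subalgebra O (M → Ω), IsFunOrder O F H := by
  have hpt : ∀ m : M, ∃ c : 𝒞.RW →ₐ[O] Ω, bcR c 𝒞.x = j m := fun m =>
    (𝒞.mem_iff Ω _ (hmem _)).mpr fun p =>
      (𝒞.W_iff Ω p.asIdeal.ResidueField (toResidueR Ω p) _ (hmem _)).mpr (hAdm.1 _ ⟨_, rfl⟩)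
  choose c hc using hpt
  exact ⟨HK 𝒞 π c,
    { finite := finite_HK 𝒞 π j c hc hmem hVS hAdm
      equivariant := equivariant_HK 𝒞 π j c hc F hπ hequiv
      separates := separates_HK 𝒞 π j c hc hinj
      comul := comul_HK 𝒞 π κ j c hc hmul hκ hadd hAdm }⟩

end Statement

end Fermat.Agent.FFJ.Order.KOrder92
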