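/-
Programme FFJ, chapter ORDER, export for programme MAZ (K-FLAT at the prime `2`).  Owner: helper92.

**THE CONGRUENCES OF THE POINTS OF THE CARRY ORDER.**

`KOrder92.exists_isFunOrder_carry` produces the function order
`H = (psi 𝒞 c).range ⊔ (pull O Ω π).range ⊆ Fun(M, Ω)` of an extension `π : M →+ C` with a set map
`j : M → PicZeroR e Ω` (additive up to classes over `O`).  This file records which points of `M` are
congruent modulo the maximal ideal of a valuation subring `V` of `Ω` (for all functions of `H`):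

  `m ≡ m'`  iff  `π m = π m'`  and the `V`-models of `j m`, `j m'` have the same special fibre.

Inside one fibre of `π` this is `ChartCong37.cong_iff_specialisation` (the coordinates of the points);
across fibres the idempotent pulled back from `C` takes the values `1` and `0`.  The right-hand side
does not mention the chart.  `exists_isFunOrder_carry_cong` is `KOrder92.exists_isFunOrder_carry` with
this extra conjunct (`CongSpecCarry`), the carry twin of `ChartCong37.exists_isFunOrder_cong`.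
-/
import Mathlib
import Fermat.Agent.FFJ.Order.KOrder92
import Fermat.Agent.FFJ.Order.ChartCong37

set_option autoImplicit false
set_option linter.style.haveILetI false
set_option linter.unusedSectionVars false

noncomputable section

namespace Fermat.Agent.FFJ.Order.KOrderCong92

open scoped TensorProduct
open Fermat.Agent.JAC.Core.Defs36 Fermat.Agent.JAC.Grp.Diag33 Fermat.Agent.FFJ.Core.ClR35
  Fermat.Agent.FFJ.Core.ClRBc35 Fermat.Agent.TW.FF.FunOrder68 Fermat.Agent.FFJ.Spec.Spec35
  Fermat.Agent.S19.Shell64 Fermat.Agent.FFJ.Order.Order77 Fermat.Agent.FFJ.Order.KOrder92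
  Fermat.Agent.FFJ.Order.ChartCong37

/-! ### The functions congruent at two points -/

section CongSub

variable (O : Type) [CommRing O] {Ω : Type} [Field Ω] [Algebra O Ω] {M : Type}
  (V : ValuationSubring Ω) [Algebra O V] [IsScalarTower O V Ω]

/-- the functions with values in `V` at `m` and `m'`, congruent modulo the maximal ideal. -/
def congSub (m m' : M) : Subalgebra O (M → Ω) where
  carrier := {h | ∃ a b : V, h m = (a : Ω) ∧ h m' = (b : Ω) ∧ a - b ∈ IsLocalRing.maximalIdeal V}
  mul_mem' := by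
    rintro h h' ⟨a, b, ha, hb, hab⟩ ⟨a', b', ha', hb', hab'⟩
    refine ⟨a * a', b * b', ?_, ?_, ?_⟩
    · rw [Pi.mul_apply, ha, ha']
      rfl
    · rw [Pi.mul_apply, hb, hb']
      rfl
    · have h1 : a * a' - b * b' = a * (a' - b') + (a - b) * b' := by ring
      rw [h1]
      exact Ideal.add_mem _ (Ideal.mul_mem_left _ _ hab') (Ideal.mul_mem_right _ _ hab)
  add_mem' := by
    rintro h h' ⟨a, b, ha, hb, hab⟩ ⟨a', b', ha', hb', hab'⟩
    refine ⟨a + a', b + b', ?_, ?_, ?_⟩
    · rw [Pi.add_apply, ha, ha']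
      rfl
    · rw [Pi.add_apply, hb, hb']
      rfl
    · have h1 : a + a' - (b + b') = (a - b) + (a' - b') := by ring
      rw [h1]
      exact Ideal.add_mem _ hab hab'
  algebraMap_mem' := fun x => by
    refine ⟨algebraMap O V x, algebraMap O V x, ?_, ?_, ?_⟩
    · change algebraMap O Ω x = _
      rw [IsScalarTower.algebraMap_apply O V Ω]
      rfl
    · change algebraMap O Ω x = _
      rw [IsScalarTower.algebraMap_apply O V Ω]
      rfl
    · rw [sub_self]
      exact Ideal.zero_mem _

theorem sub_mem_nonunits_of_mem_congSub {m m' : M} {h : M → Ω} (hh : h ∈ congSub O V m m') :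
    h m - h m' ∈ V.nonunits := by
  obtain ⟨a, b, ha, hb, hab⟩ := hh
  have h1 : h m - h m' = ((a - b : V) : Ω) := by
    rw [ha, hb]
    push_cast
    rfl
  rw [h1, ValuationSubring.coe_mem_nonunits_iff]
  exact hab

end CongSub

/-! ### The congruences of the carry order -/

section Cong

variable {O : Type} [CommRing O] {A0 A1 A01 : Type} [CommRing A0] [CommRing A1] [CommRing A01]
  [Algebra O A0] [Algebra O A1] [Algebra O A01] [Algebra A0 A01] [Algebra A1 A01]
  [IsScalarTower O A0 A01] [IsScalarTower O A1 A01] {t : A0} {s : A1}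
  [IsLocalization.Away t A01] [IsLocalization.Away s A01] {e : A01 →ₐ[O] O}
  {Ω : Type} [Field Ω] [Algebra O Ω]
  (𝒞 : ChartPkg O A0 A1 A01 t s e) {M C : Type} [AddCommGroup M] [AddCommGroup C] (π : M →+ C)
  (j : M → ClR O A0 A1 A01 t s Ω)
  (c : M → (𝒞.RW →ₐ[O] Ω)) (hc : ∀ m, bcR (c m) 𝒞.x = j m)

include hc in
/-- **The congruence of two points of the carry order**: same fibre of `π` and same special fibre of
the `V`-models. -/
theorem cong_HK_iff (hAdm : Admissible Ω 𝒞 (Set.range j))
    (V : ValuationSubring Ω) [Algebra O V] [IsScalarTower O V Ω] (m m' : M)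
    (ξ ξ' : ClR O A0 A1 A01 t s V) (hξ : ξ ∈ PicZeroR e V) (hξ' : ξ' ∈ PicZeroR e V)
    (hm : bcR (IsScalarTower.toAlgHom O V Ω) ξ = j m)
    (hm' : bcR (IsScalarTower.toAlgHom O V Ω) ξ' = j m') :
    (∀ h ∈ HK 𝒞 π c, h m - h m' ∈ V.nonunits) ↔
      π m = π m' ∧ bcR (resV (O := O) V) ξ = bcR (resV (O := O) V) ξ' := by
  classical
  constructor
  · intro h
    refine ⟨?_, ?_⟩
    · by_contra hne
      have h1 := h _ (pull_mem_HK 𝒞 π c (Pi.single (π m) 1))
      rw [pull_apply, pull_apply, Pi.single_eq_same, Pi.single_eq_of_ne (Ne.symm hne), map_one,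
        map_zero, sub_zero] at h1
      exact (V.mem_nonunits_iff.mp h1).ne (map_one _)
    · refine (cong_iff_specialisation 𝒞 j c hc hAdm V m m' ξ ξ' hξ hξ' hm hm').mp fun r => ?_
      exact h _ (psi_mem_HK 𝒞 π c r)
  · rintro ⟨hπ, hsp⟩ h hh
    obtain ⟨φ, hφ⟩ := exists_point_val 𝒞 hAdm V ξ hξ (by rw [hm]; exact ⟨m, rfl⟩)
    obtain ⟨φ', hφ'⟩ := exists_point_val 𝒞 hAdm V ξ' hξ' (by rw [hm']; exact ⟨m', rfl⟩)
    have h1 : (IsScalarTower.toAlgHom O V Ω).comp φ = c m :=
      𝒞.inj Ω _ _ (by rw [← bcR_bc, hφ, hm, hc])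
    have h1' : (IsScalarTower.toAlgHom O V Ω).comp φ' = c m' :=
      𝒞.inj Ω _ _ (by rw [← bcR_bc, hφ', hm', hc])
    have hres : (resV (O := O) V).comp φ = (resV (O := O) V).comp φ' := by
      rw [residue_comp_eq_iff, hφ, hφ']
      exact hsp
    have hle : HK 𝒞 π c ≤ congSub O V m m' := by
      refine sup_le ?_ ?_
      · rintro _ ⟨r, rfl⟩
        refine ⟨φ r, φ' r, ?_, ?_, ?_⟩
        · change c m r = _
          rw [← h1]
          rfl
        · change c m' r = _
          rw [← h1']
          rfl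
        · rw [← IsLocalRing.residue_eq_zero_iff, map_sub, sub_eq_zero]
          exact DFunLike.congr_fun hres r
      · rintro _ ⟨f, rfl⟩
        refine ⟨algebraMap O V (f (π m)), algebraMap O V (f (π m)), ?_, ?_, ?_⟩
        · change pull O Ω π f m = _
          rw [pull_apply, IsScalarTower.algebraMap_apply O V Ω]
          rfl
        · change pull O Ω π f m' = _
          rw [pull_apply, ← hπ, IsScalarTower.algebraMap_apply O V Ω]
          rfl
        · rw [sub_self]
          exact Ideal.zero_mem _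
    exact sub_mem_nonunits_of_mem_congSub O V (hle hh)

end Cong

/-! ### The statement -/

section Statement

variable (O : Type) [CommRing O] (A0 A1 A01 : Type) [CommRing A0] [CommRing A1] [CommRing A01]
  [Algebra O A0] [Algebra O A1] [Algebra O A01] [Algebra A0 A01] [Algebra A1 A01]
  [IsScalarTower O A0 A01] [IsScalarTower O A1 A01] (t : A0) (s : A1)
  [IsLocalization.Away t A01] [IsLocalization.Away s A01] (e : A01 →ₐ[O] O)
  {F Ω : Type} [Field F] [Field Ω] [Algebra O F] [Algebra F Ω] [Algebra O Ω]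
  [IsScalarTower O F Ω]

variable {O A0 A1 A01 t s} in
/-- **The congruences of a carry order**: two points `m, m'` are congruent modulo the maximal ideal of
a valuation subring `V` (for all functions of `H`) iff they lie in the same fibre of `π` and the
`V`-models of `j m`, `j m'` have the same special fibre. -/
def CongSpecCarry {M C : Type} (π : M → C) (j : M → ClR O A0 A1 A01 t s Ω)
    (H : Subalgebra O (M → Ω)) : Prop :=
  ∀ (V : ValuationSubring Ω) [Algebra O V] [IsScalarTower O V Ω] (m m' : M)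
    (ξ ξ' : ClR O A0 A1 A01 t s V), ξ ∈ PicZeroR e V → ξ' ∈ PicZeroR e V →
    bcR (IsScalarTower.toAlgHom O V Ω) ξ = j m →
    bcR (IsScalarTower.toAlgHom O V Ω) ξ' = j m' →
    ((∀ h ∈ H, h m - h m' ∈ V.nonunits) ↔
      π m = π m' ∧ bcR (resV (O := O) V) ξ = bcR (resV (O := O) V) ξ')

/-- **Chapter ORDER with a carry cocycle and the congruences of the points**
(`KOrder92.exists_isFunOrder_carry` + `CongSpecCarry`). -/
theorem exists_isFunOrder_carry_cong (hmul : PicZeroMul O A0 A1 A01 t s e)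
    (𝒞 : ChartPkg O A0 A1 A01 t s e) (M : Type) [AddCommGroup M] [Finite M]
    [MulAction (Ω ≃ₐ[F] Ω) M] (C : Type) [AddCommGroup C] [Finite C] (π : M →+ C)
    (hπ : ∀ (σ : Ω ≃ₐ[F] Ω) (m : M), π (σ • m) = π m)
    (κ : C → C → ClR O A0 A1 A01 t s O) (hκ : ∀ a b, κ a b ∈ PicZeroR e O)
    (j : M → ClR O A0 A1 A01 t s Ω)
    (hinj : ∀ m m' : M, π m = π m' → j m = j m' → m = m')
    (hmem : ∀ m, j m ∈ PicZeroR e Ω)
    (hadd : ∀ m m', j (m + m') = j m * j m' * bcR (Algebra.ofId O Ω) (κ (π m) (π m')))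
    (hequiv : ∀ (σ : Ω ≃ₐ[F] Ω) (m : M), j (σ • m) = galActR O F σ (j m))
    (hVS : ValSurj O A0 A1 A01 t s e Ω) (hAdm : Admissible Ω 𝒞 (Set.range j)) :
    ∃ H : Subalgebra O (M → Ω), IsFunOrder O F H ∧ CongSpecCarry e π j H := by
  have hpt : ∀ m : M, ∃ c : 𝒞.RW →ₐ[O] Ω, bcR c 𝒞.x = j m := fun m =>
    (𝒞.mem_iff Ω _ (hmem _)).mpr fun p =>
      (𝒞.W_iff Ω p.asIdeal.ResidueField (toResidueR Ω p) _ (hmem _)).mpr (hAdm.1 _ ⟨_, rfl⟩)
  choose c hc using hpt
  refine ⟨HK 𝒞 π c,
    { finite := finite_HK 𝒞 π j c hc hmem hVS hAdm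
      equivariant := equivariant_HK 𝒞 π j c hc F hπ hequiv
      separates := separates_HK 𝒞 π j c hc hinj
      comul := comul_HK 𝒞 π κ j c hc hmul hκ hadd hAdm }, ?_⟩
  intro V _ _ m m' ξ ξ' hξ hξ' hm hm'
  exact cong_HK_iff 𝒞 π j c hc hAdm V m m' ξ ξ' hξ hξ' hm hm'

end Statement

end Fermat.Agent.FFJ.Order.KOrderCong92
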